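/-
Programme JAC (S25): base change of line diagrams along a morphism of families (fibred form),
uniqueness of base change, and functoriality of `baseChangeClass`.

Built on `Core.Cart36` (fibred form: `FamilyHom`, `CartHom`, `IsBaseChangeHom`) and
`Grp.BaseChange33` (typeclass form: `baseChange`, `baseChangeHom`).
-/
import Fermat.Agent.JAC.Core.Cart36
import Fermat.Agent.JAC.Grp.BaseChange33

set_option autoImplicit false

universe u

namespace Fermat.Agent.JAC.Zar.CartUniq39

open Fermat.Agent.JAC.Core.Defs36 Fermat.Agent.JAC.Core.Cart36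

section IsBaseChangeHom

variable {R R' R'' : Type u} [CommRing R] [CommRing R'] [CommRing R'']
  {φ : R →+* R'} {φ' : R' →+* R''}
  {P P' P'' : Type u} [AddCommGroup P] [Module R P] [AddCommGroup P'] [Module R' P']
  [AddCommGroup P''] [Module R'' P'']

/-- The identity is a base change along the identity. -/
theorem isBaseChangeHom_id : IsBaseChangeHom (LinearMap.id : P →ₗ[R] P) := by
  intro Q _ _ g
  exact ⟨g, fun x => rfl, fun g' hg' => LinearMap.ext hg'⟩

/-- Base changes compose. -/
theorem isBaseChangeHom_comp {φ'' : R →+* R''} [RingHomCompTriple φ φ' φ'']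
    {θ : P →ₛₗ[φ] P'} {θ' : P' →ₛₗ[φ'] P''} (h : IsBaseChangeHom θ) (h' : IsBaseChangeHom θ') :
    IsBaseChangeHom (θ'.comp θ : P →ₛₗ[φ''] P'') := by
  intro Q _ _ g
  let _ : Module R' Q := Module.compHom Q φ'
  have hsm : ∀ (r' : R') (q : Q), r' • q = φ' r' • q := fun _ _ => rfl
  -- `g` as a `φ`-semilinear map into `Q` with restricted scalars
  let g₀ : P →ₛₗ[φ] Q :=
    { toFun := g
      map_add' := g.map_add
      map_smul' := fun r x => by
        rw [g.map_smulₛₗ, hsm, RingHomCompTriple.comp_apply] }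
  obtain ⟨g₁, hg₁, hg₁u⟩ := h Q g₀
  let g₁' : P' →ₛₗ[φ'] Q :=
    { toFun := g₁
      map_add' := g₁.map_add
      map_smul' := fun r x => by
        rw [g₁.map_smul, hsm] }
  obtain ⟨g₂, hg₂, hg₂u⟩ := h' Q g₁'
  refine ⟨g₂, fun x => ?_, fun g₂' hg₂' => ?_⟩
  · show g₂ (θ' (θ x)) = g x
    rw [hg₂]
    exact hg₁ x
  · apply hg₂u
    intro y
    -- `g₂' ∘ θ'` is `R'`-linear into `Q`
    let k : P' →ₗ[R'] Q :=
      { toFun := fun y => g₂' (θ' y)
        map_add' := fun a b => by rw [map_add, map_add]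
        map_smul' := fun r x => by
          rw [θ'.map_smulₛₗ, g₂'.map_smul, hsm]; rfl }
    have hk : k = g₁ := hg₁u k (fun x => hg₂' x)
    exact LinearMap.congr_fun hk y

end IsBaseChangeHom

section Family

variable {R0 R1 R01 : Type u} [CommRing R0] [CommRing R1] [CommRing R01]
  [Algebra R0 R01] [Algebra R1 R01]
  {R0' R1' R01' : Type u} [CommRing R0'] [CommRing R1'] [CommRing R01']
  [Algebra R0' R01'] [Algebra R1' R01']
  {R0'' R1'' R01'' : Type u} [CommRing R0''] [CommRing R1''] [CommRing R01'']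
  [Algebra R0'' R01''] [Algebra R1'' R01'']
  {t : R0} {s : R1} {t' : R0'} {s' : R1'} {t'' : R0''} {s'' : R1''}

/-- The identity morphism of a two-chart family. -/
def familyHomId (t : R0) (s : R1) (R01 : Type u) [CommRing R01] [Algebra R0 R01]
    [Algebra R1 R01] : FamilyHom t s t s R01 R01 where
  ψ0 := RingHom.id R0
  ψ1 := RingHom.id R1
  ψ01 := RingHom.id R01
  comm0 _ := rfl
  comm1 _ := rfl
  map_t := rfl
  map_s := rfl

/-- Composition of morphisms of two-chart families. -/
def familyHomComp (ψ : FamilyHom t s t' s' R01 R01') (ψ' : FamilyHom t' s' t'' s'' R01' R01'') :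
    FamilyHom t s t'' s'' R01 R01'' where
  ψ0 := ψ'.ψ0.comp ψ.ψ0
  ψ1 := ψ'.ψ1.comp ψ.ψ1
  ψ01 := ψ'.ψ01.comp ψ.ψ01
  comm0 r := by simp [ψ.comm0, ψ'.comm0]
  comm1 r := by simp [ψ.comm1, ψ'.comm1]
  map_t := by simp [ψ.map_t, ψ'.map_t]
  map_s := by simp [ψ.map_s, ψ'.map_s]

theorem familyHom_ext {ψ ψ' : FamilyHom t s t' s' R01 R01'} (h0 : ψ.ψ0 = ψ'.ψ0)
    (h1 : ψ.ψ1 = ψ'.ψ1) (h01 : ψ.ψ01 = ψ'.ψ01) : ψ = ψ' := by
  cases ψ; cases ψ'; simp only at h0 h1 h01; subst h0 h1 h01; rfl

/-- The identity cartesian morphism. -/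
def cartHomId (N : LineDiag t s R01) : LineDiag.CartHom (familyHomId t s R01) N N where
  f0 := LinearMap.id
  f1 := LinearMap.id
  f01 := LinearMap.id
  comm0 _ := rfl
  comm1 _ := rfl
  cart0 := isBaseChangeHom_id
  cart1 := isBaseChangeHom_id
  cart01 := isBaseChangeHom_id

/-- Composition of cartesian morphisms. -/
def cartHomComp {ψ : FamilyHom t s t' s' R01 R01'} {ψ' : FamilyHom t' s' t'' s'' R01' R01''}
    {N : LineDiag t s R01} {N' : LineDiag t' s' R01'} {N'' : LineDiag t'' s'' R01''}
    (c : LineDiag.CartHom ψ N N') (c' : LineDiag.CartHom ψ' N' N'') :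
    LineDiag.CartHom (familyHomComp ψ ψ') N N'' :=
  haveI : RingHomCompTriple ψ.ψ0 ψ'.ψ0 (familyHomComp ψ ψ').ψ0 := ⟨rfl⟩
  haveI : RingHomCompTriple ψ.ψ1 ψ'.ψ1 (familyHomComp ψ ψ').ψ1 := ⟨rfl⟩
  haveI : RingHomCompTriple ψ.ψ01 ψ'.ψ01 (familyHomComp ψ ψ').ψ01 := ⟨rfl⟩
  { f0 := c'.f0.comp c.f0
    f1 := c'.f1.comp c.f1
    f01 := c'.f01.comp c.f01
    comm0 := fun x => by
      show c'.f01 (c.f01 (N.rho0 x)) = N''.rho0 (c'.f0 (c.f0 x))
      rw [c.comm0, c'.comm0]
    comm1 := fun x => by
      show c'.f01 (c.f01 (N.rho1 x)) = N''.rho1 (c'.f1 (c.f1 x))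
      rw [c.comm1, c'.comm1]
    cart0 := isBaseChangeHom_comp c.cart0 c'.cart0
    cart1 := isBaseChangeHom_comp c.cart1 c'.cart1
    cart01 := isBaseChangeHom_comp c.cart01 c'.cart01 }

/-- Precomposition of a cartesian morphism with an isomorphism of the source. -/
def cartHomOfIso {ψ : FamilyHom t s t' s' R01 R01'} {N P : LineDiag t s R01}
    {N' : LineDiag t' s' R01'} (e : LineDiag.Iso P N) (c : LineDiag.CartHom ψ N N') :
    LineDiag.CartHom ψ P N' where
  f0 := c.f0.comp e.e0.toLinearMap
  f1 := c.f1.comp e.e1.toLinearMap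
  f01 := c.f01.comp e.e01.toLinearMap
  comm0 := fun x => by
    show c.f01 (e.e01 (P.rho0 x)) = N'.rho0 (c.f0 (e.e0 x))
    rw [e.comm0, c.comm0]
  comm1 := fun x => by
    show c.f01 (e.e01 (P.rho1 x)) = N'.rho1 (c.f1 (e.e1 x))
    rw [e.comm1, c.comm1]
  cart0 := by
    intro Q _ _ g
    obtain ⟨g', hg', hu⟩ := c.cart0 Q (g.comp e.e0.symm.toLinearMap)
    refine ⟨g', fun x => ?_, fun g'' hg'' => hu g'' (fun x => ?_)⟩
    · show g' (c.f0 (e.e0 x)) = g x
      rw [hg']; simp
    · have := hg'' (e.e0.symm x)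
      simpa using this
  cart1 := by
    intro Q _ _ g
    obtain ⟨g', hg', hu⟩ := c.cart1 Q (g.comp e.e1.symm.toLinearMap)
    refine ⟨g', fun x => ?_, fun g'' hg'' => hu g'' (fun x => ?_)⟩
    · show g' (c.f1 (e.e1 x)) = g x
      rw [hg']; simp
    · have := hg'' (e.e1.symm x)
      simpa using this
  cart01 := by
    intro Q _ _ g
    obtain ⟨g', hg', hu⟩ := c.cart01 Q (g.comp e.e01.symm.toLinearMap)
    refine ⟨g', fun x => ?_, fun g'' hg'' => hu g'' (fun x => ?_)⟩
    · show g' (c.f01 (e.e01 x)) = g x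
      rw [hg']; simp
    · have := hg'' (e.e01.symm x)
      simpa using this

/-- **Uniqueness of base change**: two cartesian morphisms out of `N` over the same morphism of
families have isomorphic targets, compatibly with the maps. -/
theorem exists_iso_of_cartHom {ψ : FamilyHom t s t' s' R01 R01'} {N : LineDiag t s R01}
    {N' N'' : LineDiag t' s' R01'} (c : LineDiag.CartHom ψ N N') (c' : LineDiag.CartHom ψ N N'') :
    ∃ e : LineDiag.Iso N' N'', (∀ x, e.e0 (c.f0 x) = c'.f0 x) ∧ (∀ y, e.e1 (c.f1 y) = c'.f1 y) ∧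
      (∀ z, e.e01 (c.f01 z) = c'.f01 z) := by
  obtain ⟨e0, he0⟩ := c.cart0.exists_linearEquiv c'.cart0
  obtain ⟨e1, he1⟩ := c.cart1.exists_linearEquiv c'.cart1
  obtain ⟨e01, he01⟩ := c.cart01.exists_linearEquiv c'.cart01
  have hsm0 : ∀ (r : R0') (z : N'.M01), r • z = algebraMap R0' R01' r • z :=
    fun r z => (algebraMap_smul R01' r z).symm
  have hsm0'' : ∀ (r : R0') (z : N''.M01), r • z = algebraMap R0' R01' r • z :=
    fun r z => (algebraMap_smul R01' r z).symm
  have hsm0N : ∀ (r : R0) (z : N.M01), r • z = algebraMap R0 R01 r • z :=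
    fun r z => (algebraMap_smul R01 r z).symm
  have hsm1 : ∀ (r : R1') (z : N'.M01), r • z = algebraMap R1' R01' r • z :=
    fun r z => (algebraMap_smul R01' r z).symm
  have hsm1'' : ∀ (r : R1') (z : N''.M01), r • z = algebraMap R1' R01' r • z :=
    fun r z => (algebraMap_smul R01' r z).symm
  have hsm1N : ∀ (r : R1) (z : N.M01), r • z = algebraMap R1 R01 r • z :=
    fun r z => (algebraMap_smul R01 r z).symm
  refine ⟨⟨e0, e1, e01, ?_, ?_⟩, he0, he1, he01⟩
  · -- commutation with `rho0`, by the uniqueness part of the universal property of `c.f0`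
    let g : N.M0 →ₛₗ[ψ.ψ0] N''.M01 :=
      { toFun := fun x => c'.f01 (N.rho0 x)
        map_add' := fun a b => by rw [map_add, map_add]
        map_smul' := fun r x => by
          rw [map_smul, hsm0N, c'.f01.map_smulₛₗ, ψ.comm0, ← hsm0''] }
    let k₁ : N'.M0 →ₗ[R0'] N''.M01 :=
      { toFun := fun y => e01 (N'.rho0 y)
        map_add' := fun a b => by rw [map_add, map_add]
        map_smul' := fun r y => by
          rw [map_smul, hsm0, map_smul, ← hsm0'']; rfl }
    let k₂ : N'.M0 →ₗ[R0'] N''.M01 := N''.rho0 ∘ₗ e0.toLinearMap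
    obtain ⟨_, _, hu⟩ := c.cart0 N''.M01 g
    have h₁ : k₁ = _ := hu k₁ (fun x => by
      show e01 (N'.rho0 (c.f0 x)) = c'.f01 (N.rho0 x)
      rw [← c.comm0, he01])
    have h₂ : k₂ = _ := hu k₂ (fun x => by
      show N''.rho0 (e0 (c.f0 x)) = c'.f01 (N.rho0 x)
      rw [he0, c'.comm0])
    intro y
    exact LinearMap.congr_fun (h₁.trans h₂.symm) y
  · let g : N.M1 →ₛₗ[ψ.ψ1] N''.M01 :=
      { toFun := fun x => c'.f01 (N.rho1 x)
        map_add' := fun a b => by rw [map_add, map_add]
        map_smul' := fun r x => by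
          rw [map_smul, hsm1N, c'.f01.map_smulₛₗ, ψ.comm1, ← hsm1''] }
    let k₁ : N'.M1 →ₗ[R1'] N''.M01 :=
      { toFun := fun y => e01 (N'.rho1 y)
        map_add' := fun a b => by rw [map_add, map_add]
        map_smul' := fun r y => by
          rw [map_smul, hsm1, map_smul, ← hsm1'']; rfl }
    let k₂ : N'.M1 →ₗ[R1'] N''.M01 := N''.rho1 ∘ₗ e1.toLinearMap
    obtain ⟨_, _, hu⟩ := c.cart1 N''.M01 g
    have h₁ : k₁ = _ := hu k₁ (fun x => by
      show e01 (N'.rho1 (c.f1 x)) = c'.f01 (N.rho1 x)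
      rw [← c.comm1, he01])
    have h₂ : k₂ = _ := hu k₂ (fun x => by
      show N''.rho1 (e1 (c.f1 x)) = c'.f01 (N.rho1 x)
      rw [he1, c'.comm1])
    intro y
    exact LinearMap.congr_fun (h₁.trans h₂.symm) y

end Family

section Mk

open scoped TensorProduct

variable (R R' P : Type u) [CommRing R] [CommRing R'] [Algebra R R'] [AddCommGroup P] [Module R P]

/-- `x ↦ 1 ⊗ₜ x` as a semilinear map `P → R' ⊗[R] P`. -/
noncomputable def mkSemilinear : P →ₛₗ[algebraMap R R'] R' ⊗[R] P where
  toFun x := (1 : R') ⊗ₜ[R] x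
  map_add' := TensorProduct.tmul_add _
  map_smul' r x := by
    rw [TensorProduct.tmul_smul]
    exact (algebraMap_smul R' r ((1 : R') ⊗ₜ[R] x)).symm

@[simp]
theorem mkSemilinear_apply (x : P) : mkSemilinear R R' P x = (1 : R') ⊗ₜ[R] x := rfl

/-- `x ↦ 1 ⊗ₜ x` is a base change in the semilinear sense. -/
theorem isBaseChangeHom_mkSemilinear : IsBaseChangeHom (mkSemilinear R R' P) := by
  intro Q _ _ g
  let _ : Module R Q := Module.compHom Q (algebraMap R R')
  have : IsScalarTower R R' Q := IsScalarTower.of_algebraMap_smul fun _ _ => rfl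
  let g₀ : P →ₗ[R] Q :=
    { toFun := g
      map_add' := map_add g
      map_smul' := fun r x => by
        rw [LinearMap.map_smulₛₗ]
        rfl }
  have hbc := TensorProduct.isBaseChange R P R'
  refine ⟨hbc.lift g₀, fun x => hbc.lift_eq g₀ x, fun g'' hg'' => ?_⟩
  apply hbc.algHom_ext
  intro x
  rw [hbc.lift_eq]
  exact hg'' x

end Mk

section Typeclass

open scoped TensorProduct
open Fermat.Agent.JAC.Grp.Diag33 Fermat.Agent.JAC.Grp.BaseChange33

variable {R0 R1 R01 : Type u} [CommRing R0] [CommRing R1] [CommRing R01]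
  [Algebra R0 R01] [Algebra R1 R01] {t : R0} {s : R1}
variable {R0' R1' R01' : Type u} [CommRing R0'] [CommRing R1'] [CommRing R01']
  [Algebra R0' R01'] [Algebra R1' R01']
  [Algebra R0 R0'] [Algebra R1 R1'] [Algebra R01 R01'] [Algebra R0 R01'] [Algebra R1 R01']
  [IsScalarTower R0 R01 R01'] [IsScalarTower R0 R0' R01']
  [IsScalarTower R1 R01 R01'] [IsScalarTower R1 R1' R01']
  {t' : R0'} {s' : R1'}

/-- The morphism of families underlying a morphism of families given in typeclass form. -/
def algFamilyHom (ht : algebraMap R0 R0' t = t') (hs : algebraMap R1 R1' s = s') :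
    FamilyHom t s t' s' R01 R01' where
  ψ0 := algebraMap R0 R0'
  ψ1 := algebraMap R1 R1'
  ψ01 := algebraMap R01 R01'
  comm0 r := by
    rw [← IsScalarTower.algebraMap_apply R0 R01 R01', ← IsScalarTower.algebraMap_apply R0 R0' R01']
  comm1 r := by
    rw [← IsScalarTower.algebraMap_apply R1 R01 R01', ← IsScalarTower.algebraMap_apply R1 R1' R01']
  map_t := ht
  map_s := hs

variable [IsLocalization.Away t R01] [IsLocalization.Away s R01]
  [IsLocalization.Away t' R01'] [IsLocalization.Away s' R01']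

/-- The canonical cartesian morphism `N ⟶ baseChange N` (typeclass form of the base change). -/
noncomputable def cartHomBaseChange (ht : algebraMap R0 R0' t = t')
    (hs : algebraMap R1 R1' s = s') (N : LineDiag t s R01) :
    LineDiag.CartHom (algFamilyHom (R01 := R01) (R01' := R01') ht hs) N
      (baseChange R01' t' s' N) where
  f0 := mkSemilinear R0 R0' N.M0
  f1 := mkSemilinear R1 R1' N.M1
  f01 := mkSemilinear R01 R01' N.M01
  comm0 x := by
    show (1 : R01') ⊗ₜ[R01] N.rho0 x = baseChangeMap N.rho0 ((1 : R0') ⊗ₜ[R0] x)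
    rw [baseChangeMap_tmul, map_one]
  comm1 x := by
    show (1 : R01') ⊗ₜ[R01] N.rho1 x = baseChangeMap N.rho1 ((1 : R1') ⊗ₜ[R1] x)
    rw [baseChangeMap_tmul, map_one]
  cart0 := isBaseChangeHom_mkSemilinear R0 R0' N.M0
  cart1 := isBaseChangeHom_mkSemilinear R1 R1' N.M1
  cart01 := isBaseChangeHom_mkSemilinear R01 R01' N.M01

end Typeclass

section Fibred

open scoped TensorProduct
open Fermat.Agent.JAC.Grp.Diag33 Fermat.Agent.JAC.Grp.BaseChange33

variable {R0 R1 R01 : Type u} [CommRing R0] [CommRing R1] [CommRing R01]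
  [Algebra R0 R01] [Algebra R1 R01] {t : R0} {s : R1}
variable {R0' R1' R01' : Type u} [CommRing R0'] [CommRing R1'] [CommRing R01']
  [Algebra R0' R01'] [Algebra R1' R01'] {t' : R0'} {s' : R1'}
variable {R0'' R1'' R01'' : Type u} [CommRing R0''] [CommRing R1''] [CommRing R01'']
  [Algebra R0'' R01''] [Algebra R1'' R01''] {t'' : R0''} {s'' : R1''}

omit [Algebra R0 R01] [Algebra R1 R01] [Algebra R0' R01'] [Algebra R1' R01'] in
/-- Two cartesian morphisms out of `N` over the same morphism of families have the same class. -/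
theorem cls_eq_of_cartHom [Algebra R0 R01] [Algebra R1 R01] [Algebra R0' R01'] [Algebra R1' R01']
    [IsLocalization.Away t' R01'] [IsLocalization.Away s' R01']
    {ψ : FamilyHom t s t' s' R01 R01'} {N : LineDiag t s R01}
    {N' N'' : LineDiag t' s' R01'} (c : LineDiag.CartHom ψ N N') (c' : LineDiag.CartHom ψ N N'') :
    cls N' = cls N'' := by
  obtain ⟨e, -⟩ := exists_iso_of_cartHom c c'
  exact cls_eq_iff.mpr ⟨e⟩

variable [IsLocalization.Away t R01] [IsLocalization.Away s R01]
  [IsLocalization.Away t' R01'] [IsLocalization.Away s' R01']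
  [IsLocalization.Away t'' R01''] [IsLocalization.Away s'' R01'']

/-- Base change of a line diagram along a morphism of two-chart families (fibred form): helper33's
`baseChange` for the `Algebra` structures defined by the components of `ψ`. -/
noncomputable def baseChangeAlong (ψ : FamilyHom t s t' s' R01 R01') (N : LineDiag t s R01) :
    LineDiag t' s' R01' :=
  letI : Algebra R0 R0' := ψ.ψ0.toAlgebra
  letI : Algebra R1 R1' := ψ.ψ1.toAlgebra
  letI : Algebra R01 R01' := ψ.ψ01.toAlgebra
  letI : Algebra R0 R01' := ((algebraMap R0' R01').comp ψ.ψ0).toAlgebra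
  letI : Algebra R1 R01' := ((algebraMap R1' R01').comp ψ.ψ1).toAlgebra
  haveI : IsScalarTower R0 R0' R01' := IsScalarTower.of_algebraMap_eq fun _ => rfl
  haveI : IsScalarTower R1 R1' R01' := IsScalarTower.of_algebraMap_eq fun _ => rfl
  haveI : IsScalarTower R0 R01 R01' := IsScalarTower.of_algebraMap_eq fun x => (ψ.comm0 x).symm
  haveI : IsScalarTower R1 R01 R01' := IsScalarTower.of_algebraMap_eq fun x => (ψ.comm1 x).symm
  baseChange R01' t' s' N

/-- The canonical cartesian morphism `N ⟶ baseChangeAlong ψ N`. -/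
noncomputable def cartHomBaseChangeAlong (ψ : FamilyHom t s t' s' R01 R01')
    (N : LineDiag t s R01) : LineDiag.CartHom ψ N (baseChangeAlong ψ N) :=
  letI : Algebra R0 R0' := ψ.ψ0.toAlgebra
  letI : Algebra R1 R1' := ψ.ψ1.toAlgebra
  letI : Algebra R01 R01' := ψ.ψ01.toAlgebra
  letI : Algebra R0 R01' := ((algebraMap R0' R01').comp ψ.ψ0).toAlgebra
  letI : Algebra R1 R01' := ((algebraMap R1' R01').comp ψ.ψ1).toAlgebra
  haveI : IsScalarTower R0 R0' R01' := IsScalarTower.of_algebraMap_eq fun _ => rfl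
  haveI : IsScalarTower R1 R1' R01' := IsScalarTower.of_algebraMap_eq fun _ => rfl
  haveI : IsScalarTower R0 R01 R01' := IsScalarTower.of_algebraMap_eq fun x => (ψ.comm0 x).symm
  haveI : IsScalarTower R1 R01 R01' := IsScalarTower.of_algebraMap_eq fun x => (ψ.comm1 x).symm
  cartHomBaseChange (R01 := R01) (R01' := R01') ψ.map_t ψ.map_s N

/-- Base change of classes of line diagrams along a morphism of two-chart families
(fibred form of helper33's `baseChangeHom`). -/
noncomputable def baseChangeClass (ψ : FamilyHom t s t' s' R01 R01') :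
    LineDiag.Classes t s R01 →* LineDiag.Classes t' s' R01' :=
  letI : Algebra R0 R0' := ψ.ψ0.toAlgebra
  letI : Algebra R1 R1' := ψ.ψ1.toAlgebra
  letI : Algebra R01 R01' := ψ.ψ01.toAlgebra
  letI : Algebra R0 R01' := ((algebraMap R0' R01').comp ψ.ψ0).toAlgebra
  letI : Algebra R1 R01' := ((algebraMap R1' R01').comp ψ.ψ1).toAlgebra
  haveI : IsScalarTower R0 R0' R01' := IsScalarTower.of_algebraMap_eq fun _ => rfl
  haveI : IsScalarTower R1 R1' R01' := IsScalarTower.of_algebraMap_eq fun _ => rfl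
  haveI : IsScalarTower R0 R01 R01' := IsScalarTower.of_algebraMap_eq fun x => (ψ.comm0 x).symm
  haveI : IsScalarTower R1 R01 R01' := IsScalarTower.of_algebraMap_eq fun x => (ψ.comm1 x).symm
  baseChangeHom R01' t' s'

theorem baseChangeClass_cls (ψ : FamilyHom t s t' s' R01 R01') (N : LineDiag t s R01) :
    baseChangeClass ψ (cls N) = cls (baseChangeAlong ψ N) := rfl

/-- **Characterisation of the base change class**: the class of the target of any cartesian
morphism over `ψ` out of `N` is `baseChangeClass ψ (cls N)`. -/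
theorem baseChangeClass_eq_of_cartHom {ψ : FamilyHom t s t' s' R01 R01'} {N : LineDiag t s R01}
    {N' : LineDiag t' s' R01'} (c : LineDiag.CartHom ψ N N') :
    baseChangeClass ψ (cls N) = cls N' := by
  rw [baseChangeClass_cls]
  exact cls_eq_of_cartHom (cartHomBaseChangeAlong ψ N) c

omit [IsLocalization.Away t' R01'] [IsLocalization.Away s' R01'] [IsLocalization.Away t'' R01'']
  [IsLocalization.Away s'' R01''] in
/-- Base change along the identity is the identity. -/
theorem baseChangeClass_id :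
    baseChangeClass (familyHomId t s R01) = MonoidHom.id (LineDiag.Classes t s R01) := by
  ext x
  induction x using Quotient.inductionOn with
  | _ N => exact baseChangeClass_eq_of_cartHom (cartHomId N)

/-- Base change is compatible with composition of morphisms of families. -/
theorem baseChangeClass_comp (ψ : FamilyHom t s t' s' R01 R01')
    (ψ' : FamilyHom t' s' t'' s'' R01' R01'') :
    baseChangeClass (familyHomComp ψ ψ') = (baseChangeClass ψ').comp (baseChangeClass ψ) := by
  ext x
  induction x using Quotient.inductionOn with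
  | _ N =>
    change baseChangeClass (familyHomComp ψ ψ') (cls N) =
      baseChangeClass ψ' (baseChangeClass ψ (cls N))
    rw [baseChangeClass_cls ψ N, baseChangeClass_cls ψ' _]
    exact baseChangeClass_eq_of_cartHom
      (cartHomComp (cartHomBaseChangeAlong ψ N) (cartHomBaseChangeAlong ψ' _))

omit [IsLocalization.Away t'' R01''] [IsLocalization.Away s'' R01''] in
/-- helper33's typeclass-form `baseChangeHom` is `baseChangeClass` of any morphism of families
whose components are the structure maps. -/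
theorem baseChangeHom_eq_baseChangeClass
    [Algebra R0 R0'] [Algebra R1 R1'] [Algebra R01 R01'] [Algebra R0 R01'] [Algebra R1 R01']
    [IsScalarTower R0 R01 R01'] [IsScalarTower R0 R0' R01']
    [IsScalarTower R1 R01 R01'] [IsScalarTower R1 R1' R01']
    (ψ : FamilyHom t s t' s' R01 R01') (h0 : ∀ r, algebraMap R0 R0' r = ψ.ψ0 r)
    (h1 : ∀ r, algebraMap R1 R1' r = ψ.ψ1 r) (h01 : ∀ r, algebraMap R01 R01' r = ψ.ψ01 r) :
    baseChangeHom R01' t' s' = baseChangeClass ψ := by
  have ht : algebraMap R0 R0' t = t' := (h0 t).trans ψ.map_t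
  have hs : algebraMap R1 R1' s = s' := (h1 s).trans ψ.map_s
  obtain rfl : algFamilyHom (R01 := R01) (R01' := R01') ht hs = ψ :=
    familyHom_ext (RingHom.ext h0) (RingHom.ext h1) (RingHom.ext h01)
  ext x
  induction x using Quotient.inductionOn with
  | _ N =>
    change cls (baseChange R01' t' s' N) = _
    exact (baseChangeClass_eq_of_cartHom (cartHomBaseChange ht hs N)).symm

section Rigid

variable {B B' : Type u} [CommRing B] [CommRing B'] [Algebra R01 B] [Algebra R01' B']

omit [IsLocalization.Away t'' R01''] [IsLocalization.Away s'' R01''] in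
/-- Rigid classes are preserved by base change: `π : B →+* B'` is compatible with `ψ.ψ01` and the
rigidifying maps `R01 → B`, `R01' → B'`. -/
theorem baseChangeClass_mem_rigidSubgroup (ψ : FamilyHom t s t' s' R01 R01') (π : B →+* B')
    (hcomm : ∀ r : R01, π (algebraMap R01 B r) = algebraMap R01' B' (ψ.ψ01 r))
    (x : LineDiag.Classes t s R01) (hx : x ∈ rigidSubgroup (t := t) (s := s) B) :
    baseChangeClass ψ x ∈ rigidSubgroup (t := t') (s := s') B' := by
  let _ : Algebra R0 R0' := ψ.ψ0.toAlgebra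
  let _ : Algebra R1 R1' := ψ.ψ1.toAlgebra
  let _ : Algebra R01 R01' := ψ.ψ01.toAlgebra
  let _ : Algebra R0 R01' := ((algebraMap R0' R01').comp ψ.ψ0).toAlgebra
  let _ : Algebra R1 R01' := ((algebraMap R1' R01').comp ψ.ψ1).toAlgebra
  have : IsScalarTower R0 R0' R01' := IsScalarTower.of_algebraMap_eq fun _ => rfl
  have : IsScalarTower R1 R1' R01' := IsScalarTower.of_algebraMap_eq fun _ => rfl
  have : IsScalarTower R0 R01 R01' := IsScalarTower.of_algebraMap_eq fun x => (ψ.comm0 x).symm
  have : IsScalarTower R1 R01 R01' := IsScalarTower.of_algebraMap_eq fun x => (ψ.comm1 x).symm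
  let _ : Algebra B B' := π.toAlgebra
  let _ : Algebra R01 B' := ((algebraMap R01' B').comp ψ.ψ01).toAlgebra
  have : IsScalarTower R01 R01' B' := IsScalarTower.of_algebraMap_eq fun _ => rfl
  have : IsScalarTower R01 B B' := IsScalarTower.of_algebraMap_eq fun x => (hcomm x).symm
  exact baseChangeHom_mem_rigidSubgroup R01' t' s' x hx

omit [IsLocalization.Away t'' R01''] [IsLocalization.Away s'' R01''] in
/-- The target of a cartesian morphism out of a rigid line diagram is rigid. -/
theorem isRigid_of_cartHom_of_isRigid {ψ : FamilyHom t s t' s' R01 R01'} (π : B →+* B')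
    (hcomm : ∀ r : R01, π (algebraMap R01 B r) = algebraMap R01' B' (ψ.ψ01 r))
    {N : LineDiag t s R01} {N' : LineDiag t' s' R01'} (c : LineDiag.CartHom ψ N N')
    (h : LineDiag.IsRigid (B := B) N) : LineDiag.IsRigid (B := B') N' := by
  rw [← mem_rigidSubgroup_iff, ← baseChangeClass_eq_of_cartHom c]
  exact baseChangeClass_mem_rigidSubgroup ψ π hcomm _ ((mem_rigidSubgroup_iff B N).mpr h)

end Rigid

end Fibred

end Fermat.Agent.JAC.Zar.CartUniq39


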