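/-
Programme JAC (S25): functoriality of `AlgAtlas36.bc` (base change of classes of line diagrams over
the constant family `B ⊗[k] A_i`) and stability of rigid / degree-zero classes under `bc`.

Built on `Core.AlgAtlas36` (helper36) and `Zar.CartUniq39`.
-/
import Fermat.Agent.JAC.Core.AlgAtlas36
import Fermat.Agent.JAC.Zar.CartUniq39

set_option autoImplicit false

universe u

namespace Fermat.Agent.JAC.Zar.BcFunct39

open scoped TensorProduct
open scoped Fermat.Agent.JAC.Core.ConstFamily36
open Fermat.Agent.JAC.Core.Defs36 Fermat.Agent.JAC.Core.Cart36 Fermat.Agent.JAC.Core.ConstFamily36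
  Fermat.Agent.JAC.Core.Degree36 Fermat.Agent.JAC.Core.AlgAtlas36 Fermat.Agent.JAC.Grp.Diag33
  Fermat.Agent.JAC.Grp.BaseChange33 Fermat.Agent.JAC.Zar.CartUniq39

variable {k : Type u} [Field k] {A0 A1 A01 : Type u} [CommRing A0] [CommRing A1] [CommRing A01]
  [Algebra k A0] [Algebra k A1] [Algebra k A01] [Algebra A0 A01] [Algebra A1 A01]
  [IsScalarTower k A0 A01] [IsScalarTower k A1 A01] {t : A0} {s : A1}
  [IsLocalization.Away t A01] [IsLocalization.Away s A01]

section Functoriality

variable {B B' B'' : Type u} [CommRing B] [CommRing B'] [CommRing B''] [Algebra k B] [Algebra k B']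
  [Algebra k B'']

/-- `bc ψ` is the fibred-form base change along `familyHom ψ t s`. -/
theorem bc_eq_baseChangeClass (ψ : B →ₐ[k] B') :
    (bc ψ : Cl k A0 A1 A01 t s B →* Cl k A0 A1 A01 t s B') =
      baseChangeClass (familyHom ψ t s) := by
  let _ : Algebra (B ⊗[k] A0) (B' ⊗[k] A0) := (bcMap ψ A0 A0).toAlgebra
  let _ : Algebra (B ⊗[k] A1) (B' ⊗[k] A1) := (bcMap ψ A1 A1).toAlgebra
  let _ : Algebra (B ⊗[k] A01) (B' ⊗[k] A01) := (bcMap ψ A01 A01).toAlgebra
  let _ : Algebra (B ⊗[k] A0) (B' ⊗[k] A01) := (bcMap ψ A0 A01).toAlgebra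
  let _ : Algebra (B ⊗[k] A1) (B' ⊗[k] A01) := (bcMap ψ A1 A01).toAlgebra
  have : IsScalarTower (B ⊗[k] A0) (B ⊗[k] A01) (B' ⊗[k] A01) :=
    IsScalarTower.of_algebraMap_eq (fun x => by
      induction x using TensorProduct.induction_on with
      | zero => simp
      | tmul b a => rfl
      | add x y hx hy => simp only [map_add, hx, hy])
  have : IsScalarTower (B ⊗[k] A0) (B' ⊗[k] A0) (B' ⊗[k] A01) :=
    IsScalarTower.of_algebraMap_eq (fun x => by
      induction x using TensorProduct.induction_on with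
      | zero => simp
      | tmul b a => rfl
      | add x y hx hy => simp only [map_add, hx, hy])
  have : IsScalarTower (B ⊗[k] A1) (B ⊗[k] A01) (B' ⊗[k] A01) :=
    IsScalarTower.of_algebraMap_eq (fun x => by
      induction x using TensorProduct.induction_on with
      | zero => simp
      | tmul b a => rfl
      | add x y hx hy => simp only [map_add, hx, hy])
  have : IsScalarTower (B ⊗[k] A1) (B' ⊗[k] A1) (B' ⊗[k] A01) :=
    IsScalarTower.of_algebraMap_eq (fun x => by
      induction x using TensorProduct.induction_on with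
      | zero => simp
      | tmul b a => rfl
      | add x y hx hy => simp only [map_add, hx, hy])
  refine (baseChangeHom_eq_baseChangeClass (R01 := B ⊗[k] A01) (R01' := B' ⊗[k] A01)
    (familyHom ψ t s) ?_ ?_ ?_ :)
  · intro r
    induction r using TensorProduct.induction_on with
    | zero => simp
    | tmul b a => rfl
    | add x y hx hy => simp only [map_add, hx, hy]
  · intro r
    induction r using TensorProduct.induction_on with
    | zero => simp
    | tmul b a => rfl
    | add x y hx hy => simp only [map_add, hx, hy]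
  · intro r
    induction r using TensorProduct.induction_on with
    | zero => simp
    | tmul b a => rfl
    | add x y hx hy => simp only [map_add, hx, hy]

/-- **Characterisation of `bc`**: the class of the target of any cartesian morphism over
`familyHom ψ t s` out of `N` is `bc ψ (cls N)`. -/
theorem bc_cls_eq_of_cartHom (ψ : B →ₐ[k] B')
    {N : LineDiag ((1 : B) ⊗ₜ[k] t) ((1 : B) ⊗ₜ[k] s) (B ⊗[k] A01)}
    {N' : LineDiag ((1 : B') ⊗ₜ[k] t) ((1 : B') ⊗ₜ[k] s) (B' ⊗[k] A01)}
    (c : LineDiag.CartHom (familyHom ψ t s) N N') : bc ψ (cls N) = cls N' := by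
  rw [bc_eq_baseChangeClass]
  exact baseChangeClass_eq_of_cartHom c

/-- A representative of `bc ψ (cls N)`. -/
noncomputable def bcDiag (ψ : B →ₐ[k] B')
    (N : LineDiag ((1 : B) ⊗ₜ[k] t) ((1 : B) ⊗ₜ[k] s) (B ⊗[k] A01)) :
    LineDiag ((1 : B') ⊗ₜ[k] t) ((1 : B') ⊗ₜ[k] s) (B' ⊗[k] A01) :=
  baseChangeAlong (familyHom ψ t s) N

/-- The canonical cartesian morphism `N ⟶ bcDiag ψ N`. -/
noncomputable def bcCart (ψ : B →ₐ[k] B')
    (N : LineDiag ((1 : B) ⊗ₜ[k] t) ((1 : B) ⊗ₜ[k] s) (B ⊗[k] A01)) :
    LineDiag.CartHom (familyHom ψ t s) N (bcDiag ψ N) :=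
  cartHomBaseChangeAlong (familyHom ψ t s) N

theorem bc_cls (ψ : B →ₐ[k] B')
    (N : LineDiag ((1 : B) ⊗ₜ[k] t) ((1 : B) ⊗ₜ[k] s) (B ⊗[k] A01)) :
    bc ψ (cls N) = cls (bcDiag ψ N) :=
  bc_cls_eq_of_cartHom ψ (bcCart ψ N)

omit [IsLocalization.Away t A01] [IsLocalization.Away s A01] in
theorem familyHom_id :
    familyHom (AlgHom.id k B) t s =
      familyHomId ((1 : B) ⊗ₜ[k] t) ((1 : B) ⊗ₜ[k] s) (B ⊗[k] A01) := by
  refine familyHom_ext ?_ ?_ ?_ <;>
  · refine RingHom.ext fun r => ?_
    induction r using TensorProduct.induction_on with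
    | zero => simp
    | tmul b a => rfl
    | add x y hx hy => simp only [map_add, hx, hy]

omit [IsLocalization.Away t A01] [IsLocalization.Away s A01] in
theorem familyHom_comp (ψ : B →ₐ[k] B') (ψ' : B' →ₐ[k] B'') :
    familyHom (A01 := A01) (ψ'.comp ψ) t s =
      familyHomComp (familyHom (A01 := A01) ψ t s) (familyHom (A01 := A01) ψ' t s) := by
  refine familyHom_ext ?_ ?_ ?_ <;>
  · refine RingHom.ext fun r => ?_
    induction r using TensorProduct.induction_on with
    | zero => simp
    | tmul b a => rfl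
    | add x y hx hy => simp only [map_add, hx, hy]

/-- Base change along the identity is the identity. -/
theorem bc_id : (bc (AlgHom.id k B) : Cl k A0 A1 A01 t s B →* Cl k A0 A1 A01 t s B) =
    MonoidHom.id _ := by
  rw [bc_eq_baseChangeClass, familyHom_id, baseChangeClass_id]

theorem bc_id_apply (x : Cl k A0 A1 A01 t s B) : bc (AlgHom.id k B) x = x := by
  rw [bc_id]; rfl

/-- Base change is functorial. -/
theorem bc_comp (ψ : B →ₐ[k] B') (ψ' : B' →ₐ[k] B'') :
    (bc (ψ'.comp ψ) : Cl k A0 A1 A01 t s B →* Cl k A0 A1 A01 t s B'') =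
      (bc ψ').comp (bc ψ) := by
  rw [bc_eq_baseChangeClass, bc_eq_baseChangeClass, bc_eq_baseChangeClass, familyHom_comp,
    baseChangeClass_comp]

theorem bc_comp_apply (ψ : B →ₐ[k] B') (ψ' : B' →ₐ[k] B'') (x : Cl k A0 A1 A01 t s B) :
    bc (ψ'.comp ψ) x = bc ψ' (bc ψ x) := by
  rw [bc_comp]; rfl

end Functoriality

section Stability

variable {B B' : Type u} [CommRing B] [CommRing B'] [Algebra k B] [Algebra k B']
  (e : A01 →ₐ[k] k)

omit [IsLocalization.Away t A01] [IsLocalization.Away s A01] [Algebra A0 A01] [Algebra A1 A01]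
  [IsScalarTower k A0 A01] [IsScalarTower k A1 A01] in
/-- The rigidifying maps are compatible with base change. -/
theorem rigHom_map (ψ : B →ₐ[k] B') (r : B ⊗[k] A01) :
    ψ (rigHom B e r) = rigHom B' e (Algebra.TensorProduct.map ψ (AlgHom.id k A01) r) := by
  induction r using TensorProduct.induction_on with
  | zero => simp
  | tmul b a => simp
  | add x y hx hy => simp only [map_add, hx, hy]

/-- Rigid classes are stable under base change. -/
theorem isRigidCl_bc (ψ : B →ₐ[k] B') (x : Cl k A0 A1 A01 t s B) (hx : IsRigidCl e B x) :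
    IsRigidCl e B' (bc ψ x) := by
  unfold IsRigidCl at hx ⊢
  rw [bc_eq_baseChangeClass]
  let _ := rigAlgebra B e
  let _ := rigAlgebra B' e
  exact baseChangeClass_mem_rigidSubgroup (familyHom ψ t s) (ψ : B →+* B')
    (fun r => rigHom_map e ψ r) x hx

/-- Classes of degree zero are stable under base change. -/
theorem isDegZero_bc (ψ : B →ₐ[k] B') (x : Cl k A0 A1 A01 t s B) (hx : IsDegZero B x) :
    IsDegZero B' (bc ψ x) := by
  intro K _ _ _ χ
  rw [← bc_comp_apply]
  exact hx K (χ.comp ψ)

end Stability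

end Fermat.Agent.JAC.Zar.BcFunct39
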