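import Mathlib

/-!
# Programme JAC, chapter Zar: `H⁰(𝒪) = B` and rigidity of rigidified diagrams

Work package A7 (`F_aff` is a Zariski sheaf), part (R).

* `exists_of_map_eq`: if `{(a0, a1) | a0 = a1 in A01} = k` for a two-chart curve over a field
  `k`, then for every `k`-algebra `B` the same holds for the constant family
  `B ⊗[k] A0 → B ⊗[k] A01 ← B ⊗[k] A1`, with `B` in place of `k`  (flatness over a field).
* `exists_smul_of_endo`: in the abstract-family block, every endomorphism of an invertible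
  diagram `(M0 -ρ0→ M01 ←ρ1- M1)` is multiplication by an element of `B`.
* `endo_eq_id_of_rigid`: an endomorphism compatible with a rigidification is the identity.
* `iso_unique_of_rigid`: two isomorphisms of rigidified invertible diagrams agree.  Hence
  isomorphisms of rigidified diagrams given locally on `Spec B` automatically agree on overlaps.

A rigidification is presented as an additive map `ε : M01 → B` which is semilinear along a
retraction `eB : R01 → B` of `B → R01` (the base point) and surjective.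
-/

set_option autoImplicit false

open TensorProduct

namespace Fermat.Agent.JAC.Zar.Rigid4

section R1

variable {k : Type*} [Field k] {A0 A1 A01 : Type*} [CommRing A0] [CommRing A1] [CommRing A01]
  [Algebra k A0] [Algebra k A1] [Algebra k A01]

theorem map_id_eq_lTensor {A A' : Type*} [CommRing A] [CommRing A'] [Algebra k A] [Algebra k A']
    (B : Type*) [CommRing B] [Algebra k B] (f : A →ₐ[k] A') (w : B ⊗[k] A) :
    Algebra.TensorProduct.map (AlgHom.id B B) f w = f.toLinearMap.lTensor B w := by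
  induction w using TensorProduct.induction_on with
  | zero => simp
  | tmul b a => simp
  | add u v hu hv => simp only [map_add, hu, hv]

/-- `H⁰(𝒪) = k` survives every base change `B ⊗[k] -` (flatness over a field). -/
theorem exists_of_map_eq (f0 : A0 →ₐ[k] A01) (f1 : A1 →ₐ[k] A01)
    (hH0 : ∀ a0 a1, f0 a0 = f1 a1 → ∃ c : k, a0 = algebraMap k A0 c ∧ a1 = algebraMap k A1 c)
    (B : Type*) [CommRing B] [Algebra k B] (x : B ⊗[k] A0) (y : B ⊗[k] A1)
    (h : Algebra.TensorProduct.map (AlgHom.id B B) f0 x =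
      Algebra.TensorProduct.map (AlgHom.id B B) f1 y) :
    ∃ b : B, x = algebraMap B (B ⊗[k] A0) b ∧ y = algebraMap B (B ⊗[k] A1) b := by
  classical
  -- the exact sequence `k → A0 × A1 → A01`
  let i : k →ₗ[k] A0 × A1 := (Algebra.linearMap k A0).prod (Algebra.linearMap k A1)
  let d : (A0 × A1) →ₗ[k] A01 := f0.toLinearMap.coprod (-f1.toLinearMap)
  have hex : Function.Exact i d := by
    intro p
    constructor
    · intro hp
      have : f0 p.1 = f1 p.2 := by
        have : f0 p.1 - f1 p.2 = 0 := by simpa [d, sub_eq_add_neg] using hp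
        exact sub_eq_zero.mp this
      obtain ⟨c, h1, h2⟩ := hH0 _ _ this
      exact ⟨c, Prod.ext (by simp [i, h1]) (by simp [i, h2])⟩
    · rintro ⟨c, rfl⟩
      simp [i, d]
  have hex' : Function.Exact (i.lTensor B) (d.lTensor B) := Module.Flat.lTensor_exact B hex
  let z : B ⊗[k] (A0 × A1) :=
    (LinearMap.inl k A0 A1).lTensor B x + (LinearMap.inr k A0 A1).lTensor B y
  have hz : d.lTensor B z = 0 := by
    have e0 : d ∘ₗ LinearMap.inl k A0 A1 = f0.toLinearMap := by
      ext a; simp [d]
    have e1 : d ∘ₗ LinearMap.inr k A0 A1 = -f1.toLinearMap := by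
      ext a; simp [d]
    have h0' : f0.toLinearMap.lTensor B x = f1.toLinearMap.lTensor B y := by
      rw [← map_id_eq_lTensor, ← map_id_eq_lTensor, h]
    simp only [z, map_add, ← LinearMap.comp_apply, ← LinearMap.lTensor_comp, e0, e1,
      LinearMap.lTensor_neg, LinearMap.neg_apply, h0', add_neg_cancel]
  obtain ⟨w, hw⟩ := (hex' z).mp hz
  have key0 : ∀ w : B ⊗[k] k, (LinearMap.fst k A0 A1).lTensor B (i.lTensor B w) =
      algebraMap B (B ⊗[k] A0) (TensorProduct.rid k B w) := by
    intro w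
    induction w using TensorProduct.induction_on with
    | zero => simp
    | tmul b c =>
      simp only [LinearMap.lTensor_tmul, TensorProduct.rid_tmul,
        Algebra.TensorProduct.algebraMap_apply, Algebra.algebraMap_self, RingHom.id_apply]
      simp [i, TensorProduct.smul_tmul, Algebra.algebraMap_eq_smul_one]
    | add u v hu hv => simp only [map_add, hu, hv]
  have key1 : ∀ w : B ⊗[k] k, (LinearMap.snd k A0 A1).lTensor B (i.lTensor B w) =
      algebraMap B (B ⊗[k] A1) (TensorProduct.rid k B w) := by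
    intro w
    induction w using TensorProduct.induction_on with
    | zero => simp
    | tmul b c =>
      simp only [LinearMap.lTensor_tmul, TensorProduct.rid_tmul,
        Algebra.TensorProduct.algebraMap_apply, Algebra.algebraMap_self, RingHom.id_apply]
      simp [i, TensorProduct.smul_tmul, Algebra.algebraMap_eq_smul_one]
    | add u v hu hv => simp only [map_add, hu, hv]
  refine ⟨TensorProduct.rid k B w, ?_, ?_⟩
  · have hx : (LinearMap.fst k A0 A1).lTensor B z = x := by
      have e0 : LinearMap.fst k A0 A1 ∘ₗ LinearMap.inl k A0 A1 = LinearMap.id := by ext; simp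
      have e1 : LinearMap.fst k A0 A1 ∘ₗ LinearMap.inr k A0 A1 = 0 := by ext; simp
      simp only [z, map_add, ← LinearMap.comp_apply, ← LinearMap.lTensor_comp, e0, e1,
        LinearMap.lTensor_id, LinearMap.id_apply, LinearMap.lTensor_zero, LinearMap.zero_apply,
        add_zero]
    rw [← hx, ← hw, key0]
  · have hy : (LinearMap.snd k A0 A1).lTensor B z = y := by
      have e0 : LinearMap.snd k A0 A1 ∘ₗ LinearMap.inl k A0 A1 = 0 := by ext; simp
      have e1 : LinearMap.snd k A0 A1 ∘ₗ LinearMap.inr k A0 A1 = LinearMap.id := by ext; simp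
      simp only [z, map_add, ← LinearMap.comp_apply, ← LinearMap.lTensor_comp, e0, e1,
        LinearMap.lTensor_id, LinearMap.id_apply, LinearMap.lTensor_zero, LinearMap.zero_apply,
        zero_add]
    rw [← hy, ← hw, key1]

end R1

section R2

variable {B : Type*} [CommRing B] {R0 R1 R01 : Type*} [CommRing R0] [CommRing R1] [CommRing R01]
  [Algebra B R0] [Algebra B R1] [Algebra B R01] [Algebra R0 R01] [Algebra R1 R01]
  [IsScalarTower B R0 R01] [IsScalarTower B R1 R01]
  (t : R0) (s : R1) [IsLocalization.Away t R01] [IsLocalization.Away s R01]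
  {M0 M1 M01 : Type*} [AddCommGroup M0] [AddCommGroup M1] [AddCommGroup M01]
  [Module R0 M0] [Module R1 M1] [Module R01 M01] [Module R0 M01] [IsScalarTower R0 R01 M01]
  [Module R1 M01] [IsScalarTower R1 R01 M01]
  (ρ0 : M0 →ₗ[R0] M01) (ρ1 : M1 →ₗ[R1] M01)
  [IsLocalizedModule (.powers t) ρ0] [IsLocalizedModule (.powers s) ρ1]
  [Module.Invertible R0 M0] [Module.Invertible R1 M1]

omit [IsScalarTower B R1 R01] [IsLocalization.Away s R01] in
include t s in
/-- Every endomorphism of an invertible diagram is multiplication by a scalar of the base,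
provided `H⁰(𝒪) = B`. -/
theorem exists_smul_of_endo
    (hH0 : ∀ (x : R0) (y : R1), algebraMap R0 R01 x = algebraMap R1 R01 y →
      ∃ b : B, x = algebraMap B R0 b ∧ y = algebraMap B R1 b)
    (α0 : M0 →ₗ[R0] M0) (α1 : M1 →ₗ[R1] M1) (α01 : M01 →ₗ[R01] M01)
    (h0 : ∀ x, α01 (ρ0 x) = ρ0 (α0 x)) (h1 : ∀ y, α01 (ρ1 y) = ρ1 (α1 y)) :
    ∃ b : B, (∀ x, α0 x = algebraMap B R0 b • x) ∧ (∀ y, α1 y = algebraMap B R1 b • y) ∧
      (∀ z, α01 z = algebraMap B R01 b • z) := by
  obtain ⟨r0, hr0⟩ := (Module.Invertible.toModuleEnd_bijective R0 M0).2 α0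
  obtain ⟨r1, hr1⟩ := (Module.Invertible.toModuleEnd_bijective R1 M1).2 α1
  have hα0 : ∀ x, α0 x = r0 • x := fun x => by rw [← hr0]; rfl
  have hα1 : ∀ y, α1 y = r1 • y := fun y => by rw [← hr1]; rfl
  -- `α01` is multiplication by the image of `r0`, and by the image of `r1`
  have e0 : ∀ z, α01 z = algebraMap R0 R01 r0 • z := by
    intro z
    have : (α01.restrictScalars R0) =
        (algebraMap R0 R01 r0 • (LinearMap.id : M01 →ₗ[R01] M01)).restrictScalars R0 := by
      apply IsLocalizedModule.ext (.powers t) ρ0 (IsLocalizedModule.map_units ρ0)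
      ext x
      simp [h0, hα0]
    simpa using LinearMap.congr_fun this z
  have e1 : ∀ z, α01 z = algebraMap R1 R01 r1 • z := by
    intro z
    have : (α01.restrictScalars R1) =
        (algebraMap R1 R01 r1 • (LinearMap.id : M01 →ₗ[R01] M01)).restrictScalars R1 := by
      apply IsLocalizedModule.ext (.powers s) ρ1 (IsLocalizedModule.map_units ρ1)
      ext x
      simp [h1, hα1]
    simpa using LinearMap.congr_fun this z
  have : Module.Invertible R01 M01 := Module.Invertible.of_isLocalization (.powers t) ρ0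
  have heq : algebraMap R0 R01 r0 = algebraMap R1 R01 r1 := by
    apply (Module.Invertible.toModuleEnd_bijective R01 M01).1
    ext z
    simp only [Module.toModuleEnd_apply, DistribSMul.toLinearMap_apply]
    rw [← e0, ← e1]
  obtain ⟨b, hb0, hb1⟩ := hH0 _ _ heq
  refine ⟨b, fun x => by rw [hα0, hb0], fun y => by rw [hα1, hb1], fun z => ?_⟩
  rw [e0, hb0, ← IsScalarTower.algebraMap_apply]

omit [IsScalarTower B R1 R01] [IsLocalization.Away s R01] in
include t s in
/-- A rigidified invertible diagram has no nontrivial endomorphism compatible with the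
rigidification.  The rigidification is a map `ε : M01 → B`, semilinear along a retraction
`eB : R01 → B` of the structure map, and surjective. -/
theorem endo_eq_id_of_rigid
    (hH0 : ∀ (x : R0) (y : R1), algebraMap R0 R01 x = algebraMap R1 R01 y →
      ∃ b : B, x = algebraMap B R0 b ∧ y = algebraMap B R1 b)
    (eB : R01 →+* B) (heB : ∀ b, eB (algebraMap B R01 b) = b)
    (ε : M01 →+ B) (hε : ∀ (r : R01) (z : M01), ε (r • z) = eB r * ε z)
    (hsurj : Function.Surjective ε)
    (α0 : M0 →ₗ[R0] M0) (α1 : M1 →ₗ[R1] M1) (α01 : M01 →ₗ[R01] M01)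
    (h0 : ∀ x, α01 (ρ0 x) = ρ0 (α0 x)) (h1 : ∀ y, α01 (ρ1 y) = ρ1 (α1 y))
    (hα : ∀ z, ε (α01 z) = ε z) :
    α0 = LinearMap.id ∧ α1 = LinearMap.id ∧ α01 = LinearMap.id := by
  obtain ⟨b, hb0, hb1, hb01⟩ := exists_smul_of_endo t s ρ0 ρ1 hH0 α0 α1 α01 h0 h1
  obtain ⟨z, hz⟩ := hsurj 1
  have hb : b = 1 := by
    have := hα z
    rw [hb01, hε, heB, hz, mul_one] at this
    exact this
  subst hb
  refine ⟨?_, ?_, ?_⟩
  · ext x; simp [hb0]
  · ext y; simp [hb1]
  · ext z; simp [hb01]

end R2

section R3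

variable {B : Type*} [CommRing B] {R0 R1 R01 : Type*} [CommRing R0] [CommRing R1] [CommRing R01]
  [Algebra B R0] [Algebra B R1] [Algebra B R01] [Algebra R0 R01] [Algebra R1 R01]
  [IsScalarTower B R0 R01] [IsScalarTower B R1 R01]
  (t : R0) (s : R1) [IsLocalization.Away t R01] [IsLocalization.Away s R01]
  {M0 M1 M01 : Type*} [AddCommGroup M0] [AddCommGroup M1] [AddCommGroup M01]
  [Module R0 M0] [Module R1 M1] [Module R01 M01] [Module R0 M01] [IsScalarTower R0 R01 M01]
  [Module R1 M01] [IsScalarTower R1 R01 M01]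
  (ρ0 : M0 →ₗ[R0] M01) (ρ1 : M1 →ₗ[R1] M01)
  [IsLocalizedModule (.powers t) ρ0] [IsLocalizedModule (.powers s) ρ1]
  [Module.Invertible R0 M0] [Module.Invertible R1 M1]
  {N0 N1 N01 : Type*} [AddCommGroup N0] [AddCommGroup N1] [AddCommGroup N01]
  [Module R0 N0] [Module R1 N1] [Module R01 N01] [Module R0 N01] [IsScalarTower R0 R01 N01]
  [Module R1 N01] [IsScalarTower R1 R01 N01]
  (σ0 : N0 →ₗ[R0] N01) (σ1 : N1 →ₗ[R1] N01)

omit [IsScalarTower B R1 R01] [IsLocalization.Away s R01] [IsScalarTower R0 R01 N01]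
  [IsScalarTower R1 R01 N01] in
include t s in
/-- Two isomorphisms of rigidified invertible diagrams agree. -/
theorem iso_unique_of_rigid
    (hH0 : ∀ (x : R0) (y : R1), algebraMap R0 R01 x = algebraMap R1 R01 y →
      ∃ b : B, x = algebraMap B R0 b ∧ y = algebraMap B R1 b)
    (eB : R01 →+* B) (heB : ∀ b, eB (algebraMap B R01 b) = b)
    (ε : M01 →+ B) (hε : ∀ (r : R01) (z : M01), ε (r • z) = eB r * ε z)
    (hsurj : Function.Surjective ε) (ε' : N01 → B)
    (φ0 ψ0 : M0 ≃ₗ[R0] N0) (φ1 ψ1 : M1 ≃ₗ[R1] N1) (φ01 ψ01 : M01 ≃ₗ[R01] N01)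
    (hφ0 : ∀ x, φ01 (ρ0 x) = σ0 (φ0 x)) (hφ1 : ∀ y, φ01 (ρ1 y) = σ1 (φ1 y))
    (hψ0 : ∀ x, ψ01 (ρ0 x) = σ0 (ψ0 x)) (hψ1 : ∀ y, ψ01 (ρ1 y) = σ1 (ψ1 y))
    (hφ : ∀ z, ε' (φ01 z) = ε z) (hψ : ∀ z, ε' (ψ01 z) = ε z) :
    φ0 = ψ0 ∧ φ1 = ψ1 ∧ φ01 = ψ01 := by
  have key := endo_eq_id_of_rigid t s ρ0 ρ1 hH0 eB heB ε hε hsurj
    (ψ0.symm.toLinearMap ∘ₗ φ0.toLinearMap) (ψ1.symm.toLinearMap ∘ₗ φ1.toLinearMap)
    (ψ01.symm.toLinearMap ∘ₗ φ01.toLinearMap)
    (fun x => by
      simp only [LinearMap.comp_apply, LinearEquiv.coe_coe, hφ0]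
      rw [LinearEquiv.symm_apply_eq, hψ0, LinearEquiv.apply_symm_apply])
    (fun y => by
      simp only [LinearMap.comp_apply, LinearEquiv.coe_coe, hφ1]
      rw [LinearEquiv.symm_apply_eq, hψ1, LinearEquiv.apply_symm_apply])
    (fun z => by
      simp only [LinearMap.comp_apply, LinearEquiv.coe_coe]
      rw [← hψ, LinearEquiv.apply_symm_apply, hφ])
  obtain ⟨k0, k1, k01⟩ := key
  refine ⟨?_, ?_, ?_⟩
  · ext x
    have := LinearMap.congr_fun k0 x
    simpa [LinearEquiv.symm_apply_eq] using this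
  · ext y
    have := LinearMap.congr_fun k1 y
    simpa [LinearEquiv.symm_apply_eq] using this
  · ext z
    have := LinearMap.congr_fun k01 z
    simpa [LinearEquiv.symm_apply_eq] using this

end R3

end Fermat.Agent.JAC.Zar.Rigid4
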