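/-
Programme JAC (S25), chapter Zar: SEPARATEDNESS of the functor of rigid classes of line diagrams for
finite standard covers of `Spec B` (algebra form, requested by helper24 in report #684).

* `exists_pow_smul_eq_of_isBaseChangeHom`: a base change (in the fibred sense of `Core.Cart36`)
  along a localisation `R → R[1/g]` is a localisation of modules (elementary form).
* `LocalTriv`: the two elementary consequences of "`L` is trivial over `D(f)`" that are used.
* `localTriv_of_cartHom`: they hold if there is a cartesian morphism from `L` to the unit diagram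
  over the localised family.
* `nonempty_iso_unit_of_localTriv`: a rigidified line diagram which is locally trivial on a cover
  `D(f)`, `f ∈ S`, `span S = ⊤`, is trivial.
* `sep`: two rigid classes over `B` which agree over `B[1/f]` for all `f` in a spanning set agree.
-/
import Fermat.Agent.JAC.Zar.BcFunct39
import Fermat.Agent.JAC.Grp.Cart33
import Fermat.Agent.JAC.Zar.Rigid4

set_option autoImplicit false
set_option linter.style.haveILetI false

universe u

namespace Fermat.Agent.JAC.Zar.Sep39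

open Fermat.Agent.JAC.Core.Defs36 Fermat.Agent.JAC.Core.Cart36

section LemmaA

variable {R R' : Type u} [CommRing R] [CommRing R'] (φ : R →+* R') (g : R)
  {P P' : Type u} [AddCommGroup P] [Module R P] [AddCommGroup P'] [Module R' P']

/-- A base change along a localisation `φ : R → R' = R[1/g]` is a localisation of modules
(elementary form: surjectivity up to powers of `g`, and the kernel is `g`-power torsion). -/
theorem exists_pow_smul_eq_of_isBaseChangeHom
    (hφ : @IsLocalization.Away R _ g R' _ φ.toAlgebra) {θ : P →ₛₗ[φ] P'}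
    (hθ : IsBaseChangeHom θ) :
    (∀ z : P', ∃ (n : ℕ) (x : P), θ x = φ g ^ n • z) ∧
      (∀ x : P, θ x = 0 → ∃ n : ℕ, g ^ n • x = 0) := by
  letI : Algebra R R' := φ.toAlgebra
  letI : Module R P' := Module.compHom P' φ
  haveI : IsScalarTower R R' P' := IsScalarTower.of_algebraMap_smul fun _ _ => rfl
  let θ' : P →ₗ[R] P' :=
    { toFun := θ
      map_add' := θ.map_add
      map_smul' := fun r x => by rw [θ.map_smulₛₗ]; rfl }
  have hbc : IsBaseChange R' θ' :=
    Fermat.Agent.JAC.Grp.Cart33.isBaseChange_of_isBaseChangeHom θ' hθ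
  haveI : IsLocalizedModule (Submonoid.powers g) θ' :=
    (isLocalizedModule_iff_isBaseChange (Submonoid.powers g) R' θ').mpr hbc
  refine ⟨fun z => ?_, fun x hx => ?_⟩
  · obtain ⟨n, x, h⟩ := IsLocalizedModule.Away.surj θ' g z
    refine ⟨n, x, ?_⟩
    change θ' x = _
    rw [← h, ← map_pow]
    rfl
  · have : θ' x = θ' 0 := by rw [map_zero]; exact hx
    obtain ⟨n, hn⟩ := IsLocalizedModule.Away.exists_of_eq g this
    exact ⟨n, by rw [hn, smul_zero]⟩

end LemmaA

section Global

variable {B : Type u} [CommRing B] {R0 R1 R01 : Type u} [CommRing R0] [CommRing R1] [CommRing R01]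
  [Algebra B R0] [Algebra B R1] [Algebra B R01] [Algebra R0 R01] [Algebra R1 R01]
  [IsScalarTower B R0 R01] [IsScalarTower B R1 R01] {t : R0} {s : R1}

/-- The elementary consequences of "`L` is trivial over `D(f)`" used in the gluing argument.
`ε : L.M01 → B` is the rigidification. -/
structure LocalTriv (L : LineDiag t s R01) (ε : L.M01 →+ B) (f : B) : Prop where
  exists_section : ∃ (n : ℕ) (x : L.M0) (y : L.M1), L.rho0 x = L.rho1 y ∧ ε (L.rho0 x) = f ^ n
  gen0 : ∀ (x : L.M0) (y : L.M1), L.rho0 x = L.rho1 y → ε (L.rho0 x) = 1 →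
    ∀ m : L.M0, ∃ (n : ℕ) (r : R0), algebraMap B R0 f ^ n • m = r • x
  gen1 : ∀ (x : L.M0) (y : L.M1), L.rho0 x = L.rho1 y → ε (L.rho0 x) = 1 →
    ∀ m : L.M1, ∃ (n : ℕ) (r : R1), algebraMap B R1 f ^ n • m = r • y

variable [IsLocalization.Away t R01] [IsLocalization.Away s R01]

/-- **Local triviality implies triviality** for rigidified line diagrams. -/
theorem nonempty_iso_unit_of_localTriv (eB : R01 →+* B) (heB : ∀ b, eB (algebraMap B R01 b) = b)
    (L : LineDiag t s R01) (ε : L.M01 →+ B) (hε : ∀ (r : R01) (z : L.M01), ε (r • z) = eB r * ε z)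
    (S : Set B) (hS : Ideal.span S = ⊤) (h : ∀ f ∈ S, LocalTriv L ε f) :
    Nonempty (LineDiag.Iso (LineDiag.unit t s R01) L) := by
  have hsm0 : ∀ (r : R0) (z : L.M01), r • z = algebraMap R0 R01 r • z :=
    fun r z => (algebraMap_smul R01 r z).symm
  have hsm1 : ∀ (r : R1) (z : L.M01), r • z = algebraMap R1 R01 r • z :=
    fun r z => (algebraMap_smul R01 r z).symm
  -- `B`-scaling of sections
  have hscale : ∀ (b : B) (x : L.M0) (y : L.M1), L.rho0 x = L.rho1 y →
      L.rho0 (algebraMap B R0 b • x) = L.rho1 (algebraMap B R1 b • y) ∧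
      ε (L.rho0 (algebraMap B R0 b • x)) = b * ε (L.rho0 x) := by
    intro b x y hxy
    have h0 : L.rho0 (algebraMap B R0 b • x) = algebraMap B R01 b • L.rho0 x := by
      rw [map_smul, hsm0, ← IsScalarTower.algebraMap_apply]
    have h1 : L.rho1 (algebraMap B R1 b • y) = algebraMap B R01 b • L.rho1 y := by
      rw [map_smul, hsm1, ← IsScalarTower.algebraMap_apply]
    refine ⟨by rw [h0, h1, hxy], ?_⟩
    rw [h0, hε, heB]
  -- (G1) the values of the rigidification on global sections form an ideal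
  let I : Ideal B :=
    { carrier := {b | ∃ (x : L.M0) (y : L.M1), L.rho0 x = L.rho1 y ∧ ε (L.rho0 x) = b}
      add_mem' := by
        rintro a b ⟨x, y, hxy, ha⟩ ⟨x', y', hxy', hb⟩
        exact ⟨x + x', y + y', by rw [map_add, map_add, hxy, hxy'], by
          rw [map_add, map_add, ha, hb]⟩
      zero_mem' := ⟨0, 0, by simp, by simp⟩
      smul_mem' := by
        rintro c b ⟨x, y, hxy, hb⟩
        obtain ⟨h1, h2⟩ := hscale c x y hxy
        exact ⟨_, _, h1, by rw [h2, hb]; rfl⟩ }
  -- (G2) it is the unit ideal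
  have hI : I = ⊤ := by
    rw [← Ideal.radical_eq_top, eq_top_iff, ← hS, Ideal.span_le]
    intro f hf
    obtain ⟨n, x, y, hxy, hn⟩ := (h f hf).exists_section
    exact ⟨n, x, y, hxy, hn⟩
  obtain ⟨x, y, hxy, hx1⟩ : (1 : B) ∈ I := by rw [hI]; trivial
  -- (G3) `x` generates `M0` and `y` generates `M1`
  have hgen0 : ∀ m : L.M0, ∃ r : R0, m = r • x := by
    intro m
    let J : Ideal B :=
      { carrier := {b | ∃ r : R0, algebraMap B R0 b • m = r • x}
        add_mem' := by
          rintro a b ⟨r, hr⟩ ⟨r', hr'⟩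
          exact ⟨r + r', by rw [map_add, add_smul, add_smul, hr, hr']⟩
        zero_mem' := ⟨0, by simp⟩
        smul_mem' := by
          rintro c b ⟨r, hr⟩
          exact ⟨algebraMap B R0 c * r, by
            rw [smul_eq_mul, map_mul, mul_smul, hr, mul_smul]⟩ }
    have hJ : J = ⊤ := by
      rw [← Ideal.radical_eq_top, eq_top_iff, ← hS, Ideal.span_le]
      intro f hf
      obtain ⟨n, r, hr⟩ := (h f hf).gen0 x y hxy hx1 m
      exact ⟨n, r, by rw [map_pow]; exact hr⟩
    obtain ⟨r, hr⟩ : (1 : B) ∈ J := by rw [hJ]; trivial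
    exact ⟨r, by rw [← hr, map_one, one_smul]⟩
  have hgen1 : ∀ m : L.M1, ∃ r : R1, m = r • y := by
    intro m
    let J : Ideal B :=
      { carrier := {b | ∃ r : R1, algebraMap B R1 b • m = r • y}
        add_mem' := by
          rintro a b ⟨r, hr⟩ ⟨r', hr'⟩
          exact ⟨r + r', by rw [map_add, add_smul, add_smul, hr, hr']⟩
        zero_mem' := ⟨0, by simp⟩
        smul_mem' := by
          rintro c b ⟨r, hr⟩
          exact ⟨algebraMap B R1 c * r, by
            rw [smul_eq_mul, map_mul, mul_smul, hr, mul_smul]⟩ }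
    have hJ : J = ⊤ := by
      rw [← Ideal.radical_eq_top, eq_top_iff, ← hS, Ideal.span_le]
      intro f hf
      obtain ⟨n, r, hr⟩ := (h f hf).gen1 x y hxy hx1 m
      exact ⟨n, r, by rw [map_pow]; exact hr⟩
    obtain ⟨r, hr⟩ : (1 : B) ∈ J := by rw [hJ]; trivial
    exact ⟨r, by rw [← hr, map_one, one_smul]⟩
  -- (G4) the three comparison maps are bijective
  have hb0 : Function.Bijective (LinearMap.toSpanSingleton R0 L.M0 x) :=
    Module.Invertible.bijective_of_surjective fun m => by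
      obtain ⟨r, hr⟩ := hgen0 m
      exact ⟨r, by rw [LinearMap.toSpanSingleton_apply, hr]⟩
  have hb1 : Function.Bijective (LinearMap.toSpanSingleton R1 L.M1 y) :=
    Module.Invertible.bijective_of_surjective fun m => by
      obtain ⟨r, hr⟩ := hgen1 m
      exact ⟨r, by rw [LinearMap.toSpanSingleton_apply, hr]⟩
  haveI : Module.Invertible R01 L.M01 :=
    Module.Invertible.of_isLocalization (Submonoid.powers t) L.rho0
  have hb01 : Function.Bijective (LinearMap.toSpanSingleton R01 L.M01 (L.rho0 x)) :=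
    Module.Invertible.bijective_of_surjective fun z => by
      obtain ⟨n, m, hm⟩ := IsLocalizedModule.Away.surj L.rho0 t z
      obtain ⟨r, hr⟩ := hgen0 m
      have ht : IsUnit (algebraMap R0 R01 t) := IsLocalization.Away.algebraMap_isUnit t
      obtain ⟨v, hv⟩ := ht.exists_left_inv
      refine ⟨v ^ n * algebraMap R0 R01 r, ?_⟩
      rw [LinearMap.toSpanSingleton_apply, mul_smul, ← hsm0, ← map_smul, ← hr, ← hm, hsm0,
        ← mul_smul, map_pow, ← mul_pow, hv, one_pow, one_smul]
  have hc0 : ∀ r : R0, LinearMap.toSpanSingleton R01 L.M01 (L.rho0 x) (algebraMap R0 R01 r) =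
      L.rho0 (LinearMap.toSpanSingleton R0 L.M0 x r) := by
    intro r
    rw [LinearMap.toSpanSingleton_apply, LinearMap.toSpanSingleton_apply, map_smul, hsm0]
  have hc1 : ∀ r : R1, LinearMap.toSpanSingleton R01 L.M01 (L.rho0 x) (algebraMap R1 R01 r) =
      L.rho1 (LinearMap.toSpanSingleton R1 L.M1 y r) := by
    intro r
    rw [LinearMap.toSpanSingleton_apply, LinearMap.toSpanSingleton_apply, map_smul, hsm1, hxy]
  exact ⟨⟨LinearEquiv.ofBijective _ hb0, LinearEquiv.ofBijective _ hb1,
    LinearEquiv.ofBijective _ hb01, fun r => hc0 r, fun r => hc1 r⟩⟩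

end Global

section PerF

variable {B : Type u} [CommRing B] {R0 R1 R01 : Type u} [CommRing R0] [CommRing R1] [CommRing R01]
  [Algebra B R0] [Algebra B R1] [Algebra B R01] [Algebra R0 R01] [Algebra R1 R01]
  [IsScalarTower B R0 R01] [IsScalarTower B R1 R01] {t : R0} {s : R1}
  {Bf R0f R1f R01f : Type u} [CommRing Bf] [CommRing R0f] [CommRing R1f] [CommRing R01f]
  [Algebra Bf R0f] [Algebra Bf R1f] [Algebra Bf R01f] [Algebra R0f R01f] [Algebra R1f R01f]
  [IsScalarTower Bf R0f R01f] [IsScalarTower Bf R1f R01f] {tf : R0f} {sf : R1f}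
  [IsLocalization.Away tf R01f] [IsLocalization.Away sf R01f]
  [Algebra B Bf]

/-- An element of `B` which becomes a unit in `B[1/f]` divides a power of `f`. -/
theorem exists_mul_eq_pow_of_isUnit (f : B) [IsLocalization.Away f Bf] (b : B)
    (hb : IsUnit (algebraMap B Bf b)) : ∃ (b' : B) (N : ℕ), b * b' = f ^ N := by
  obtain ⟨v, hv⟩ := hb.exists_right_inv
  obtain ⟨n, a, ha⟩ := IsLocalization.Away.surj f v
  have h1 : algebraMap B Bf (b * a) = algebraMap B Bf (f ^ n) := by
    rw [map_mul, ← ha, ← mul_assoc, hv, one_mul, map_pow]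
  obtain ⟨m, hm⟩ := IsLocalization.Away.exists_of_eq f h1
  exact ⟨f ^ m * a, m + n, by rw [pow_add, ← hm]; ring⟩

omit [IsScalarTower Bf R1f R01f] in
/-- **Local triviality from a cartesian morphism to the unit diagram** over the localised
family. -/
theorem localTriv_of_cartHom (eB : R01 →+* B) (heB : ∀ b, eB (algebraMap B R01 b) = b)
    (L : LineDiag t s R01) (ε : L.M01 →+ B) (hε : ∀ (r : R01) (z : L.M01), ε (r • z) = eB r * ε z)
    (hsurj : Function.Surjective ε)
    (eBf : R01f →+* Bf) (heBf : ∀ b, eBf (algebraMap Bf R01f b) = b)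
    (hH0 : ∀ (x : R0f) (y : R1f), algebraMap R0f R01f x = algebraMap R1f R01f y →
      ∃ b : Bf, x = algebraMap Bf R0f b ∧ y = algebraMap Bf R1f b)
    (ψ : FamilyHom t s tf sf R01 R01f) (hβ : ∀ r, algebraMap B Bf (eB r) = eBf (ψ.ψ01 r))
    (f : B) [IsLocalization.Away f Bf]
    (hloc0 : @IsLocalization.Away R0 _ (algebraMap B R0 f) R0f _ ψ.ψ0.toAlgebra)
    (hloc1 : @IsLocalization.Away R1 _ (algebraMap B R1 f) R1f _ ψ.ψ1.toAlgebra)
    (hloc01 : @IsLocalization.Away R01 _ (algebraMap B R01 f) R01f _ ψ.ψ01.toAlgebra)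
    (c : LineDiag.CartHom ψ L (LineDiag.unit tf sf R01f)) : LocalTriv L ε f := by
  have hsm0 : ∀ (r : R0) (z : L.M01), r • z = algebraMap R0 R01 r • z :=
    fun r z => (algebraMap_smul R01 r z).symm
  have hsm1 : ∀ (r : R1) (z : L.M01), r • z = algebraMap R1 R01 r • z :=
    fun r z => (algebraMap_smul R01 r z).symm
  -- the three vertex maps with values in the rings
  let F0 : L.M0 → R0f := fun x => c.f0 x
  let F1 : L.M1 → R1f := fun x => c.f1 x
  let F01 : L.M01 → R01f := fun x => c.f01 x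
  have F0_smul : ∀ (r : R0) (x : L.M0), F0 (r • x) = ψ.ψ0 r * F0 x :=
    fun r x => c.f0.map_smulₛₗ r x
  have F1_smul : ∀ (r : R1) (x : L.M1), F1 (r • x) = ψ.ψ1 r * F1 x :=
    fun r x => c.f1.map_smulₛₗ r x
  have F0_sub : ∀ (a b : L.M0), F0 (a - b) = F0 a - F0 b := fun a b => map_sub c.f0 a b
  have F1_sub : ∀ (a b : L.M1), F1 (a - b) = F1 a - F1 b := fun a b => map_sub c.f1 a b
  have F01_sub : ∀ (a b : L.M01), F01 (a - b) = F01 a - F01 b := fun a b => map_sub c.f01 a b
  have hF0 : ∀ x, F01 (L.rho0 x) = algebraMap R0f R01f (F0 x) := fun x => c.comm0 x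
  have hF1 : ∀ y, F01 (L.rho1 y) = algebraMap R1f R01f (F1 y) := fun y => c.comm1 y
  obtain ⟨hS0, hK0⟩ := exists_pow_smul_eq_of_isBaseChangeHom ψ.ψ0 _ hloc0 c.cart0
  obtain ⟨hS1, hK1⟩ := exists_pow_smul_eq_of_isBaseChangeHom ψ.ψ1 _ hloc1 c.cart1
  obtain ⟨-, hK01⟩ := exists_pow_smul_eq_of_isBaseChangeHom ψ.ψ01 _ hloc01 c.cart01
  have hS0' : ∀ z : R0f, ∃ (n : ℕ) (x : L.M0), F0 x = ψ.ψ0 (algebraMap B R0 f) ^ n * z :=
    fun z => hS0 z
  have hS1' : ∀ z : R1f, ∃ (n : ℕ) (x : L.M1), F1 x = ψ.ψ1 (algebraMap B R1 f) ^ n * z :=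
    fun z => hS1 z
  have hK0' : ∀ x : L.M0, F0 x = 0 → ∃ n : ℕ, algebraMap B R0 f ^ n • x = 0 := fun x hx => hK0 x hx
  have hK1' : ∀ x : L.M1, F1 x = 0 → ∃ n : ℕ, algebraMap B R1 f ^ n • x = 0 := fun x hx => hK1 x hx
  have hK01' : ∀ x : L.M01, F01 x = 0 → ∃ n : ℕ, algebraMap B R01 f ^ n • x = 0 :=
    fun x hx => hK01 x hx
  -- images of `f`
  have hf0 : algebraMap R0f R01f (ψ.ψ0 (algebraMap B R0 f)) = ψ.ψ01 (algebraMap B R01 f) := by
    rw [← ψ.comm0, ← IsScalarTower.algebraMap_apply]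
  have hf1 : algebraMap R1f R01f (ψ.ψ1 (algebraMap B R1 f)) = ψ.ψ01 (algebraMap B R01 f) := by
    rw [← ψ.comm1, ← IsScalarTower.algebraMap_apply]
  have hfB : eBf (ψ.ψ01 (algebraMap B R01 f)) = algebraMap B Bf f := by
    rw [← hβ, heB]
  have hfunit : IsUnit (algebraMap B Bf f) := IsLocalization.Away.algebraMap_isUnit f
  -- the unit comparing the two rigidifications
  obtain ⟨u, hu, hurel⟩ : ∃ u : Bf, IsUnit u ∧
      ∀ z, algebraMap B Bf (ε z) = u * eBf (F01 z) := by
    letI : Module R01f Bf := Module.compHom Bf eBf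
    let gg : L.M01 →ₛₗ[ψ.ψ01] Bf :=
      { toFun := fun z => algebraMap B Bf (ε z)
        map_add' := fun a b => by rw [map_add, map_add]
        map_smul' := fun r z => by
          rw [hε, map_mul, hβ]; rfl }
    obtain ⟨g', hg', -⟩ := c.cart01 Bf gg
    have key : ∀ w : R01f, g' w = eBf w * g' (1 : R01f) := by
      intro w
      have hw : g' (w • (1 : R01f)) = w • g' (1 : R01f) := g'.map_smul w _
      rw [smul_eq_mul, mul_one] at hw
      rw [hw]; rfl
    have hrel : ∀ z, eBf (F01 z) * g' (1 : R01f) = algebraMap B Bf (ε z) := by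
      intro z
      rw [← key]
      exact hg' z
    refine ⟨g' (1 : R01f), ?_, fun z => ?_⟩
    · obtain ⟨z, hz⟩ := hsurj 1
      have h1 := hrel z
      rw [hz, map_one] at h1
      exact IsUnit.of_mul_eq_one_right _ h1
    · rw [mul_comm]; exact (hrel z).symm
  have e0 : ∀ (b : B) (x : L.M0), L.rho0 (algebraMap B R0 b • x) = algebraMap B R01 b • L.rho0 x := by
    intro b x
    rw [map_smul, hsm0, ← IsScalarTower.algebraMap_apply]
  have e1 : ∀ (b : B) (y : L.M1), L.rho1 (algebraMap B R1 b • y) = algebraMap B R01 b • L.rho1 y := by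
    intro b y
    rw [map_smul, hsm1, ← IsScalarTower.algebraMap_apply]
  refine ⟨?_, ?_, ?_⟩
  · -- existence of a section with value a power of `f`
    obtain ⟨n0, x0, hx0⟩ := hS0' 1
    obtain ⟨n1, x1, hx1⟩ := hS1' 1
    obtain ⟨x, hx⟩ : ∃ x : L.M0, F0 x = ψ.ψ0 (algebraMap B R0 f) ^ (n0 + n1) :=
      ⟨algebraMap B R0 f ^ n1 • x0, by
        rw [F0_smul, hx0, mul_one, map_pow, ← pow_add, add_comm]⟩
    obtain ⟨y, hy⟩ : ∃ y : L.M1, F1 y = ψ.ψ1 (algebraMap B R1 f) ^ (n0 + n1) :=
      ⟨algebraMap B R1 f ^ n0 • x1, by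
        rw [F1_smul, hx1, mul_one, map_pow, ← pow_add]⟩
    have hdiff : F01 (L.rho0 x - L.rho1 y) = 0 := by
      rw [F01_sub, hF0, hF1, hx, hy, map_pow, map_pow, hf0, hf1, sub_self]
    obtain ⟨m, hm⟩ := hK01' _ hdiff
    have hm' : L.rho0 (algebraMap B R0 (f ^ m) • x) = L.rho1 (algebraMap B R1 (f ^ m) • y) := by
      rw [e0, e1, ← sub_eq_zero, ← smul_sub, map_pow]
      exact hm
    -- the value of the rigidification
    have hval : algebraMap B Bf (ε (L.rho0 x)) = u * algebraMap B Bf f ^ (n0 + n1) := by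
      rw [hurel, hF0, hx, map_pow, hf0, map_pow, hfB]
    have hunit : IsUnit (algebraMap B Bf (ε (L.rho0 x))) := by
      rw [hval]
      exact hu.mul (hfunit.pow _)
    obtain ⟨b', N, hb'⟩ := exists_mul_eq_pow_of_isUnit (Bf := Bf) f _ hunit
    refine ⟨m + N, algebraMap B R0 b' • algebraMap B R0 (f ^ m) • x,
      algebraMap B R1 b' • algebraMap B R1 (f ^ m) • y, ?_, ?_⟩
    · rw [e0, e1, hm']
    · rw [e0, e0, hε, hε, heB, heB, pow_add, ← hb']
      ring
  · -- generation of `M0`
    intro x y hxy hx1 m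
    have h1 : u * eBf (algebraMap R0f R01f (F0 x)) = 1 := by
      rw [← hF0, ← hurel, hx1, map_one]
    have hH : algebraMap R0f R01f (F0 x) = algebraMap R1f R01f (F1 y) := by
      rw [← hF0, ← hF1, hxy]
    obtain ⟨b', hb0, -⟩ := hH0 _ _ hH
    have hb'u : IsUnit b' := by
      rw [hb0, ← IsScalarTower.algebraMap_apply, heBf] at h1
      exact IsUnit.of_mul_eq_one_right _ h1
    have hxu : IsUnit (F0 x) := by rw [hb0]; exact hb'u.map _
    obtain ⟨v, hv⟩ := hxu.exists_left_inv
    letI : Algebra R0 R0f := ψ.ψ0.toAlgebra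
    haveI := hloc0
    obtain ⟨j, r, hr⟩ := IsLocalization.Away.surj (algebraMap B R0 f) (F0 m * v)
    have hr' : F0 m * v * ψ.ψ0 (algebraMap B R0 f) ^ j = ψ.ψ0 r := hr
    have hz : F0 (algebraMap B R0 f ^ j • m - r • x) = 0 := by
      rw [F0_sub, F0_smul, F0_smul, ← hr', map_pow]
      have : F0 m * v * ψ.ψ0 (algebraMap B R0 f) ^ j * F0 x =
          ψ.ψ0 (algebraMap B R0 f) ^ j * F0 m * (v * F0 x) := by ring
      rw [this, hv, mul_one, sub_self]
    obtain ⟨i, hi⟩ := hK0' _ hz
    refine ⟨i + j, algebraMap B R0 f ^ i * r, ?_⟩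
    rw [smul_sub, sub_eq_zero] at hi
    rw [pow_add, mul_smul, hi, mul_smul]
  · -- generation of `M1`
    intro x y hxy hx1 m
    have h1 : u * eBf (algebraMap R0f R01f (F0 x)) = 1 := by
      rw [← hF0, ← hurel, hx1, map_one]
    have hH : algebraMap R0f R01f (F0 x) = algebraMap R1f R01f (F1 y) := by
      rw [← hF0, ← hF1, hxy]
    obtain ⟨b', hb0, hb1⟩ := hH0 _ _ hH
    have hb'u : IsUnit b' := by
      rw [hb0, ← IsScalarTower.algebraMap_apply, heBf] at h1
      exact IsUnit.of_mul_eq_one_right _ h1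
    have hyu : IsUnit (F1 y) := by rw [hb1]; exact hb'u.map _
    obtain ⟨v, hv⟩ := hyu.exists_left_inv
    letI : Algebra R1 R1f := ψ.ψ1.toAlgebra
    haveI := hloc1
    obtain ⟨j, r, hr⟩ := IsLocalization.Away.surj (algebraMap B R1 f) (F1 m * v)
    have hr' : F1 m * v * ψ.ψ1 (algebraMap B R1 f) ^ j = ψ.ψ1 r := hr
    have hz : F1 (algebraMap B R1 f ^ j • m - r • y) = 0 := by
      rw [F1_sub, F1_smul, F1_smul, ← hr', map_pow]
      have : F1 m * v * ψ.ψ1 (algebraMap B R1 f) ^ j * F1 y =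
          ψ.ψ1 (algebraMap B R1 f) ^ j * F1 m * (v * F1 y) := by ring
      rw [this, hv, mul_one, sub_self]
    obtain ⟨i, hi⟩ := hK1' _ hz
    refine ⟨i + j, algebraMap B R1 f ^ i * r, ?_⟩
    rw [smul_sub, sub_eq_zero] at hi
    rw [pow_add, mul_smul, hi, mul_smul]

end PerF

section Concrete

open scoped TensorProduct
open scoped Fermat.Agent.JAC.Core.ConstFamily36
open Fermat.Agent.JAC.Core.ConstFamily36 Fermat.Agent.JAC.Core.AlgAtlas36
  Fermat.Agent.JAC.Grp.Diag33 Fermat.Agent.JAC.Zar.BcFunct39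

variable {k : Type u} [Field k]

/-- `B ⊗[k] A → B[1/f] ⊗[k] A` is the localisation at `f ⊗ 1`. -/
theorem isLocalization_away_map {B Bf : Type u} [CommRing B] [CommRing Bf] [Algebra k B]
    [Algebra k Bf] [Algebra B Bf] [IsScalarTower k B Bf] (f : B) [IsLocalization.Away f Bf]
    (A : Type u) [CommRing A] [Algebra k A] :
    @IsLocalization.Away (B ⊗[k] A) _ (algebraMap B (B ⊗[k] A) f) (Bf ⊗[k] A) _
      (Algebra.TensorProduct.map (IsScalarTower.toAlgHom k B Bf) (AlgHom.id k A)).toRingHom.toAlgebra := by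
  letI : Algebra (B ⊗[k] A) (Bf ⊗[k] A) :=
    (Algebra.TensorProduct.map (IsScalarTower.toAlgHom k B Bf) (AlgHom.id k A)).toRingHom.toAlgebra
  haveI : IsScalarTower B (B ⊗[k] A) (Bf ⊗[k] A) :=
    IsScalarTower.of_algebraMap_eq fun b => by
      simp [RingHom.algebraMap_toAlgebra, Algebra.TensorProduct.algebraMap_apply]
  have h := IsLocalization.tensorProduct_tensorProduct k A (Submonoid.powers f) Bf
    (by
      ext a
      simp [RingHom.algebraMap_toAlgebra])
  rw [Algebra.algebraMapSubmonoid_powers] at h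
  exact h

/-- A rigidification in tensor form gives a surjective semilinear map `ε : M01 → B`, provided
`R01 → B` is a retraction of a structure map `B → R01`. -/
theorem exists_rigidification {R01 B M01 : Type u} [CommRing R01] [CommRing B] [Algebra R01 B]
    [Algebra B R01] (hret : ∀ b : B, algebraMap R01 B (algebraMap B R01 b) = b)
    [AddCommGroup M01] [Module R01 M01] (τ : B ⊗[R01] M01 ≃ₗ[B] B) :
    ∃ ε : M01 →+ B, (∀ (r : R01) (z : M01), ε (r • z) = algebraMap R01 B r * ε z) ∧
      Function.Surjective ε := by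
  let ε : M01 →+ B :=
    { toFun := fun z => τ ((1 : B) ⊗ₜ[R01] z)
      map_zero' := by rw [TensorProduct.tmul_zero, map_zero]
      map_add' := fun a b => by rw [TensorProduct.tmul_add, map_add] }
  have hε : ∀ (r : R01) (z : M01), ε (r • z) = algebraMap R01 B r * ε z := by
    intro r z
    change τ ((1 : B) ⊗ₜ[R01] (r • z)) = algebraMap R01 B r * τ ((1 : B) ⊗ₜ[R01] z)
    rw [← smul_eq_mul, ← map_smul, TensorProduct.tmul_smul, TensorProduct.smul_tmul',
      TensorProduct.smul_tmul', Algebra.smul_def, mul_one, smul_eq_mul, mul_one]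
  refine ⟨ε, hε, ?_⟩
  -- the range of `ε` is an ideal containing the range of `τ`
  let J : Ideal B :=
    { carrier := Set.range ε
      add_mem' := by
        rintro _ _ ⟨a, rfl⟩ ⟨b, rfl⟩
        exact ⟨a + b, map_add ε a b⟩
      zero_mem' := ⟨0, map_zero ε⟩
      smul_mem' := by
        rintro c _ ⟨a, rfl⟩
        exact ⟨algebraMap B R01 c • a, by rw [hε, hret]; rfl⟩ }
  have hJ : ∀ w : B ⊗[R01] M01, τ w ∈ J := by
    intro w
    induction w using TensorProduct.induction_on with
    | zero => rw [map_zero]; exact J.zero_mem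
    | tmul b z =>
      have : b ⊗ₜ[R01] z = b • ((1 : B) ⊗ₜ[R01] z) := by
        rw [TensorProduct.smul_tmul', smul_eq_mul, mul_one]
      rw [this, map_smul]
      exact J.smul_mem b ⟨z, rfl⟩
    | add w w' hw hw' => rw [map_add]; exact J.add_mem hw hw'
  obtain ⟨z, hz⟩ : (1 : B) ∈ J := by
    have := hJ (τ.symm 1)
    rwa [LinearEquiv.apply_symm_apply] at this
  intro b
  exact ⟨algebraMap B R01 b • z, by rw [hε, hret, hz, mul_one]⟩

variable {A0 A1 A01 : Type u} [CommRing A0] [CommRing A1] [CommRing A01]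
  [Algebra k A0] [Algebra k A1] [Algebra k A01] [Algebra A0 A01] [Algebra A1 A01]
  [IsScalarTower k A0 A01] [IsScalarTower k A1 A01] {t : A0} {s : A1}
  [IsLocalization.Away t A01] [IsLocalization.Away s A01]

omit [IsLocalization.Away t A01] [IsLocalization.Away s A01] in
/-- `H⁰(𝒪) = B` for the constant family over any `k`-algebra `B`, from the statement over `k`
(helper4's `Rigid4.exists_of_map_eq` in the notation of `ConstFamily36`). -/
theorem h0_const
    (hH0 : ∀ (a0 : A0) (a1 : A1), algebraMap A0 A01 a0 = algebraMap A1 A01 a1 →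
      ∃ c : k, a0 = algebraMap k A0 c ∧ a1 = algebraMap k A1 c)
    (B : Type u) [CommRing B] [Algebra k B] (x : B ⊗[k] A0) (y : B ⊗[k] A1)
    (h : algebraMap (B ⊗[k] A0) (B ⊗[k] A01) x = algebraMap (B ⊗[k] A1) (B ⊗[k] A01) y) :
    ∃ b : B, x = algebraMap B (B ⊗[k] A0) b ∧ y = algebraMap B (B ⊗[k] A1) b :=
  Fermat.Agent.JAC.Zar.Rigid4.exists_of_map_eq (IsScalarTower.toAlgHom k A0 A01)
    (IsScalarTower.toAlgHom k A1 A01) hH0 B x y h

/-- **A rigid class which is locally trivial on `Spec B` is trivial.** -/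
theorem eq_one_of_forall_bc_eq_one (e : A01 →ₐ[k] k)
    (hH0 : ∀ (a0 : A0) (a1 : A1), algebraMap A0 A01 a0 = algebraMap A1 A01 a1 →
      ∃ c : k, a0 = algebraMap k A0 c ∧ a1 = algebraMap k A1 c)
    (B : Type u) [CommRing B] [Algebra k B] (η : Cl k A0 A1 A01 t s B) (hη : IsRigidCl e B η)
    (S : Set B) (hS : Ideal.span S = ⊤)
    (h : ∀ f ∈ S, bc (IsScalarTower.toAlgHom k B (Localization.Away f)) η = 1) : η = 1 := by
  induction η using Quotient.inductionOn with
  | _ L =>
    change cls L = cls (LineDiag.unit _ _ _)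
    letI : Algebra (B ⊗[k] A01) B := rigAlgebra B e
    have hret : ∀ b : B, algebraMap (B ⊗[k] A01) B (algebraMap B (B ⊗[k] A01) b) = b := by
      intro b
      change rigHom B e (algebraMap B (B ⊗[k] A01) b) = b
      simp [Algebra.TensorProduct.algebraMap_apply]
    have hrig : LineDiag.IsRigid (B := B) L := (mem_rigidSubgroup_iff B L).mp hη
    obtain ⟨τ⟩ := hrig
    obtain ⟨ε, hε, hsurj⟩ := exists_rigidification hret τ
    refine (cls_eq_iff.mpr ?_).symm
    refine nonempty_iso_unit_of_localTriv (algebraMap (B ⊗[k] A01) B) hret L ε hε S hS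
      (fun f hf => ?_)
    -- local triviality over `D(f)`
    have h1 := h f hf
    rw [show (Quotient.mk _ L : Cl k A0 A1 A01 t s B) = cls L from rfl, bc_cls] at h1
    obtain ⟨iso⟩ := cls_eq_iff.mp (h1 : cls _ = cls (LineDiag.unit _ _ _))
    have c := Fermat.Agent.JAC.Grp.Cart33.cartHomOfIso
      (bcCart (IsScalarTower.toAlgHom k B (Localization.Away f)) L) iso
    letI : Algebra ((Localization.Away f) ⊗[k] A01) (Localization.Away f) :=
      rigAlgebra (Localization.Away f) e
    have hretf : ∀ b : Localization.Away f, algebraMap ((Localization.Away f) ⊗[k] A01)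
        (Localization.Away f) (algebraMap (Localization.Away f) ((Localization.Away f) ⊗[k] A01) b)
        = b := by
      intro b
      change rigHom (Localization.Away f) e (algebraMap _ ((Localization.Away f) ⊗[k] A01) b) = b
      simp [Algebra.TensorProduct.algebraMap_apply]
    exact localTriv_of_cartHom (algebraMap (B ⊗[k] A01) B) hret L ε hε hsurj
      (algebraMap ((Localization.Away f) ⊗[k] A01) (Localization.Away f)) hretf
      (h0_const hH0 (Localization.Away f))
      (familyHom (IsScalarTower.toAlgHom k B (Localization.Away f)) t s)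
      (fun r => rigHom_map e (IsScalarTower.toAlgHom k B (Localization.Away f)) r) f
      (isLocalization_away_map f A0) (isLocalization_away_map f A1)
      (isLocalization_away_map f A01) c

/-- **Separatedness** of the functor of rigid classes of line diagrams for standard covers of
`Spec B`: two rigid classes which agree over `B[1/f]` for all `f` in a set spanning the unit
ideal agree. -/
theorem sep (e : A01 →ₐ[k] k)
    (hH0 : ∀ (a0 : A0) (a1 : A1), algebraMap A0 A01 a0 = algebraMap A1 A01 a1 →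
      ∃ c : k, a0 = algebraMap k A0 c ∧ a1 = algebraMap k A1 c)
    (B : Type u) [CommRing B] [Algebra k B] (ξ ξ' : Cl k A0 A1 A01 t s B)
    (hξ : IsRigidCl e B ξ) (hξ' : IsRigidCl e B ξ') (S : Set B) (hS : Ideal.span S = ⊤)
    (h : ∀ f ∈ S, bc (IsScalarTower.toAlgHom k B (Localization.Away f)) ξ =
      bc (IsScalarTower.toAlgHom k B (Localization.Away f)) ξ') : ξ = ξ' := by
  have hη : IsRigidCl e B (ξ * ξ'⁻¹) := by
    unfold IsRigidCl at hξ hξ' ⊢
    exact Subgroup.mul_mem _ hξ (Subgroup.inv_mem _ hξ')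
  have h1 := eq_one_of_forall_bc_eq_one e hH0 B (ξ * ξ'⁻¹) hη S hS (fun f hf => by
    rw [map_mul, map_inv, h f hf, mul_inv_cancel])
  exact mul_inv_eq_one.mp h1

/-- `sep` for a finite cover (the literal form requested in report #684). -/
theorem sep_finset (e : A01 →ₐ[k] k)
    (hH0 : ∀ (a0 : A0) (a1 : A1), algebraMap A0 A01 a0 = algebraMap A1 A01 a1 →
      ∃ c : k, a0 = algebraMap k A0 c ∧ a1 = algebraMap k A1 c)
    (B : Type u) [CommRing B] [Algebra k B] (ξ ξ' : Cl k A0 A1 A01 t s B)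
    (hξ : IsRigidCl e B ξ) (hξ' : IsRigidCl e B ξ') (S : Finset B)
    (hS : Ideal.span (S : Set B) = ⊤)
    (h : ∀ f ∈ S, bc (IsScalarTower.toAlgHom k B (Localization.Away f)) ξ =
      bc (IsScalarTower.toAlgHom k B (Localization.Away f)) ξ') : ξ = ξ' :=
  sep e hH0 B ξ ξ' hξ hξ' (S : Set B) hS (fun f hf => h f (Finset.mem_coe.mp hf))

/-- `sep` with arbitrary models `Bf` of the localisations `B[1/f]`. -/
theorem sep_of_isLocalization (e : A01 →ₐ[k] k)
    (hH0 : ∀ (a0 : A0) (a1 : A1), algebraMap A0 A01 a0 = algebraMap A1 A01 a1 →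
      ∃ c : k, a0 = algebraMap k A0 c ∧ a1 = algebraMap k A1 c)
    (B : Type u) [CommRing B] [Algebra k B] (ξ ξ' : Cl k A0 A1 A01 t s B)
    (hξ : IsRigidCl e B ξ) (hξ' : IsRigidCl e B ξ') (S : Set B) (hS : Ideal.span S = ⊤)
    (h : ∀ f ∈ S, ∃ (Bf : Type u) (_ : CommRing Bf) (_ : Algebra k Bf) (_ : Algebra B Bf)
      (_ : IsScalarTower k B Bf) (_ : IsLocalization.Away f Bf),
      bc (IsScalarTower.toAlgHom k B Bf) ξ = bc (IsScalarTower.toAlgHom k B Bf) ξ') :
    ξ = ξ' := by
  refine sep e hH0 B ξ ξ' hξ hξ' S hS (fun f hf => ?_)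
  obtain ⟨Bf, _, _, _, _, _, hf'⟩ := h f hf
  let σ : Bf →ₐ[k] Localization.Away f :=
    ((IsLocalization.algEquiv (Submonoid.powers f) Bf (Localization.Away f)).restrictScalars
      k).toAlgHom
  have hσ : σ.comp (IsScalarTower.toAlgHom k B Bf) =
      IsScalarTower.toAlgHom k B (Localization.Away f) := by
    ext b
    exact (IsLocalization.algEquiv (Submonoid.powers f) Bf (Localization.Away f)).commutes b
  rw [← hσ, bc_comp_apply, bc_comp_apply, hf']

end Concrete

end Fermat.Agent.JAC.Zar.Sep39
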