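/-
Programme JAC (S25), work package A7 (Zariski sheaf property), brick (Z2):
patching modules over a two-element cover `D(f) ∪ D(g)` of `Spec R`.

Pure module theory over a commutative ring `R`; Mathlib only.

* `glue α β` : the fibre product `{(x, y) | α x = β y}` of `α : M₁ → M₁₂`, `β : M₂ → M₁₂`.
* `isLocalizedModule_glueFst`, `isLocalizedModule_glueSnd` : if `β` is a localization away from
  `f` and `f` is invertible on `M₁`, then `glue α β → M₁` is a localization away from `f`
  (and symmetrically).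
* `toGlue_bijective` : a module is the fibre product of its localizations (sheaf property
  for the cover `{f, g}`); `existsUnique_of_compatible`, `eq_of_localizations`.
* `glueMap` : functoriality of the fibre product (target possibly over a bigger ring), and
  `isLocalizedModule_glueMap` : the glued map of two localizations away from `t` is one.
* `glueHom` : gluing linear maps over a two-element cover (brick (Z3)), `glueHom_unique`.
* `injective_of_two_cover`, `surjective_of_two_cover`, `bijective_of_two_cover`.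
-/
import Mathlib

set_option autoImplicit false

namespace Fermat.Agent.JAC.Zar.Patch39

universe u

variable {R : Type u} [CommRing R]

section Glue

variable {M₁ M₂ M₁₂ : Type*} [AddCommGroup M₁] [AddCommGroup M₂] [AddCommGroup M₁₂]
  [Module R M₁] [Module R M₂] [Module R M₁₂]

/-- The fibre product `{(x, y) | α x = β y}` of two linear maps with common target. -/
def glue (α : M₁ →ₗ[R] M₁₂) (β : M₂ →ₗ[R] M₁₂) : Submodule R (M₁ × M₂) :=
  LinearMap.ker (α.coprod (-β))

variable (α : M₁ →ₗ[R] M₁₂) (β : M₂ →ₗ[R] M₁₂)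

theorem mem_glue {p : M₁ × M₂} : p ∈ glue α β ↔ α p.1 = β p.2 := by
  simp [glue, LinearMap.mem_ker, LinearMap.coprod_apply, sub_eq_zero, ← sub_eq_add_neg]

/-- First projection of the fibre product. -/
def glueFst : glue α β →ₗ[R] M₁ := LinearMap.fst R M₁ M₂ ∘ₗ (glue α β).subtype

/-- Second projection of the fibre product. -/
def glueSnd : glue α β →ₗ[R] M₂ := LinearMap.snd R M₁ M₂ ∘ₗ (glue α β).subtype

@[simp] theorem glueFst_apply (p : glue α β) : glueFst α β p = p.1.1 := rfl

@[simp] theorem glueSnd_apply (p : glue α β) : glueSnd α β p = p.1.2 := rfl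

theorem glue_cond (p : glue α β) : α p.1.1 = β p.1.2 := (mem_glue α β).1 p.2

theorem glue_comm : α ∘ₗ glueFst α β = β ∘ₗ glueSnd α β :=
  LinearMap.ext fun p => glue_cond α β p

/-- Constructor for elements of the fibre product. -/
def glueMk (x : M₁) (y : M₂) (h : α x = β y) : glue α β := ⟨(x, y), (mem_glue α β).2 h⟩

@[simp] theorem glueMk_fst (x : M₁) (y : M₂) (h : α x = β y) : (glueMk α β x y h).1.1 = x := rfl

@[simp] theorem glueMk_snd (x : M₁) (y : M₂) (h : α x = β y) : (glueMk α β x y h).1.2 = y := rfl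

theorem glue_ext {p q : glue α β} (h₁ : p.1.1 = q.1.1) (h₂ : p.1.2 = q.1.2) : p = q :=
  Subtype.ext (Prod.ext h₁ h₂)

/-- `glue α β → M₁` is a localization away from `f` as soon as `β` is one and `f` is invertible
on `M₁`. -/
theorem isLocalizedModule_glueFst (f : R) (hf : IsUnit (algebraMap R (Module.End R M₁) f))
    [IsLocalizedModule.Away f β] : IsLocalizedModule.Away f (glueFst α β) := by
  refine IsLocalizedModule.Away.mk_of_addCommGroup hf ?_ ?_
  · intro x
    obtain ⟨n, y, hy⟩ := IsLocalizedModule.Away.surj β f (α x)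
    refine ⟨n, glueMk α β (f ^ n • x) y ?_, rfl⟩
    rw [map_smul, hy]
  · intro p hp
    have h0 : β p.1.2 = β 0 := by
      rw [← glue_cond α β p, map_zero]
      have : p.1.1 = 0 := hp
      rw [this, map_zero]
    obtain ⟨n, hn⟩ := IsLocalizedModule.Away.exists_of_eq (f := β) f h0
    refine ⟨n, glue_ext α β ?_ ?_⟩
    · have : p.1.1 = 0 := hp
      simp [this]
    · simpa using hn

/-- `glue α β → M₂` is a localization away from `g` as soon as `α` is one and `g` is invertible
on `M₂`. -/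
theorem isLocalizedModule_glueSnd (g : R) (hg : IsUnit (algebraMap R (Module.End R M₂) g))
    [IsLocalizedModule.Away g α] : IsLocalizedModule.Away g (glueSnd α β) := by
  refine IsLocalizedModule.Away.mk_of_addCommGroup hg ?_ ?_
  · intro y
    obtain ⟨n, x, hx⟩ := IsLocalizedModule.Away.surj α g (β y)
    refine ⟨n, glueMk α β x (g ^ n • y) ?_, rfl⟩
    rw [map_smul, hx]
  · intro p hp
    have h0 : α p.1.1 = α 0 := by
      rw [glue_cond α β p, map_zero]
      have : p.1.2 = 0 := hp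
      rw [this, map_zero]
    obtain ⟨n, hn⟩ := IsLocalizedModule.Away.exists_of_eq (f := α) g h0
    refine ⟨n, glue_ext α β ?_ ?_⟩
    · simpa using hn
    · have : p.1.2 = 0 := hp
      simp [this]

end Glue

section Sheaf

variable {M Mf Mg Mfg : Type*} [AddCommGroup M] [AddCommGroup Mf] [AddCommGroup Mg]
  [AddCommGroup Mfg] [Module R M] [Module R Mf] [Module R Mg] [Module R Mfg]
  (lf : M →ₗ[R] Mf) (lg : M →ₗ[R] Mg) (αf : Mf →ₗ[R] Mfg) (αg : Mg →ₗ[R] Mfg)

/-- The canonical map from a module to the fibre product of two of its localizations. -/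
def toGlue (hc : αf ∘ₗ lf = αg ∘ₗ lg) : M →ₗ[R] glue αf αg :=
  LinearMap.codRestrict (glue αf αg) (lf.prod lg)
    (fun m => (mem_glue αf αg).2 (LinearMap.congr_fun hc m))

@[simp] theorem toGlue_fst (hc : αf ∘ₗ lf = αg ∘ₗ lg) (m : M) :
    (toGlue lf lg αf αg hc m).1.1 = lf m := rfl

@[simp] theorem toGlue_snd (hc : αf ∘ₗ lf = αg ∘ₗ lg) (m : M) :
    (toGlue lf lg αf αg hc m).1.2 = lg m := rfl

theorem glueFst_comp_toGlue (hc : αf ∘ₗ lf = αg ∘ₗ lg) :
    glueFst αf αg ∘ₗ toGlue lf lg αf αg hc = lf := rfl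

theorem glueSnd_comp_toGlue (hc : αf ∘ₗ lf = αg ∘ₗ lg) :
    glueSnd αf αg ∘ₗ toGlue lf lg αf αg hc = lg := rfl

variable {f g : R}

/-- Separatedness: an element killed in both localizations is zero. -/
theorem eq_zero_of_localizations (hfg : IsCoprime f g)
    [IsLocalizedModule.Away f lf] [IsLocalizedModule.Away g lg] {m : M}
    (h₁ : lf m = 0) (h₂ : lg m = 0) : m = 0 := by
  obtain ⟨a, ha⟩ := IsLocalizedModule.Away.exists_of_eq (f := lf) f (h₁.trans (map_zero lf).symm)
  obtain ⟨b, hb⟩ := IsLocalizedModule.Away.exists_of_eq (f := lg) g (h₂.trans (map_zero lg).symm)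
  obtain ⟨u, v, huv⟩ := (hfg.pow (m := a) (n := b))
  rw [smul_zero] at ha hb
  calc m = (u * f ^ a + v * g ^ b) • m := by rw [huv, one_smul]
    _ = u • f ^ a • m + v • g ^ b • m := by rw [add_smul, mul_smul, mul_smul]
    _ = 0 := by rw [ha, hb, smul_zero, smul_zero, add_zero]

/-- Separatedness: two elements with the same images in both localizations are equal. -/
theorem eq_of_localizations (hfg : IsCoprime f g)
    [IsLocalizedModule.Away f lf] [IsLocalizedModule.Away g lg] {m m' : M}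
    (h₁ : lf m = lf m') (h₂ : lg m = lg m') : m = m' := by
  rw [← sub_eq_zero]
  apply eq_zero_of_localizations lf lg hfg
  · rw [map_sub, h₁, sub_self]
  · rw [map_sub, h₂, sub_self]

theorem toGlue_injective (hfg : IsCoprime f g)
    [IsLocalizedModule.Away f lf] [IsLocalizedModule.Away g lg]
    (hc : αf ∘ₗ lf = αg ∘ₗ lg) : Function.Injective (toGlue lf lg αf αg hc) := by
  rw [← LinearMap.ker_eq_bot, LinearMap.ker_eq_bot']
  intro m hm
  have h₁ : lf m = 0 := congrArg (fun p : glue αf αg => p.1.1) hm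
  have h₂ : lg m = 0 := congrArg (fun p : glue αf αg => p.1.2) hm
  exact eq_zero_of_localizations lf lg hfg h₁ h₂

theorem toGlue_surjective (hfg : IsCoprime f g)
    [IsLocalizedModule.Away f lf] [IsLocalizedModule.Away g lg]
    [IsLocalizedModule.Away g αf]
    (hc : αf ∘ₗ lf = αg ∘ₗ lg) : Function.Surjective (toGlue lf lg αf αg hc) := by
  intro p
  have hp : αf p.1.1 = αg p.1.2 := glue_cond αf αg p
  obtain ⟨a, m₁, hm₁⟩ := IsLocalizedModule.Away.surj lf f p.1.1
  obtain ⟨b, m₂, hm₂⟩ := IsLocalizedModule.Away.surj lg g p.1.2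
  have hcm : ∀ z, αg (lg z) = αf (lf z) := fun z => (LinearMap.congr_fun hc z).symm
  -- the two candidate lifts agree after inverting `f` and `g`
  have h0 : αf (lf (g ^ b • m₁ - f ^ a • m₂)) = αf 0 := by
    rw [map_sub, map_sub, map_smul, map_smul, map_smul, map_smul, ← hcm m₂, ← hm₁, ← hm₂,
      map_smul, map_smul, hp, smul_comm, sub_self, map_zero]
  obtain ⟨c, hc'⟩ := IsLocalizedModule.Away.exists_of_eq (f := αf) g h0
  rw [smul_zero, ← map_smul] at hc'
  obtain ⟨d, hd⟩ := IsLocalizedModule.Away.exists_of_eq (f := lf) f (hc'.trans (map_zero lf).symm)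
  rw [smul_zero] at hd
  -- normalised lifts
  have key : g ^ (b + c) • f ^ d • m₁ = f ^ (a + d) • g ^ c • m₂ := by
    have : f ^ d • g ^ c • (g ^ b • m₁ - f ^ a • m₂) = 0 := hd
    rw [smul_sub, smul_sub, sub_eq_zero] at this
    calc g ^ (b + c) • f ^ d • m₁ = f ^ d • g ^ c • g ^ b • m₁ := by
          simp only [smul_smul]; congr 1; ring
      _ = f ^ d • g ^ c • f ^ a • m₂ := this
      _ = f ^ (a + d) • g ^ c • m₂ := by simp only [smul_smul]; congr 1; ring
  obtain ⟨u, v, huv⟩ := (hfg.pow (m := a + d) (n := b + c))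
  refine ⟨u • f ^ d • m₁ + v • g ^ c • m₂, glue_ext αf αg ?_ ?_⟩
  · -- first component
    have hunit := (IsLocalizedModule.Away.isUnit_algebraMap lf f).pow (a + d)
    have hinj : Function.Injective (fun x : Mf => f ^ (a + d) • x) := by
      have := ((Module.End.isUnit_iff _).1 hunit).injective
      rw [← map_pow] at this
      exact this
    apply hinj
    show f ^ (a + d) • lf (u • f ^ d • m₁ + v • g ^ c • m₂) = f ^ (a + d) • p.1.1
    rw [← map_smul]
    have : f ^ (a + d) • (u • f ^ d • m₁ + v • g ^ c • m₂) = f ^ d • m₁ := by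
      calc f ^ (a + d) • (u • f ^ d • m₁ + v • g ^ c • m₂)
          = u • f ^ (a + d) • f ^ d • m₁ + v • (f ^ (a + d) • g ^ c • m₂) := by
            rw [smul_add, smul_comm (f ^ (a + d)) u, smul_comm (f ^ (a + d)) v]
        _ = u • f ^ (a + d) • f ^ d • m₁ + v • (g ^ (b + c) • f ^ d • m₁) := by rw [key]
        _ = (u * f ^ (a + d) + v * g ^ (b + c)) • f ^ d • m₁ := by
            rw [add_smul, mul_smul, mul_smul]
        _ = f ^ d • m₁ := by rw [huv, one_smul]
    rw [this, map_smul, ← hm₁, smul_smul, ← pow_add, add_comm]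
  · -- second component
    have hunit := (IsLocalizedModule.Away.isUnit_algebraMap lg g).pow (b + c)
    have hinj : Function.Injective (fun x : Mg => g ^ (b + c) • x) := by
      have := ((Module.End.isUnit_iff _).1 hunit).injective
      rw [← map_pow] at this
      exact this
    apply hinj
    show g ^ (b + c) • lg (u • f ^ d • m₁ + v • g ^ c • m₂) = g ^ (b + c) • p.1.2
    rw [← map_smul]
    have : g ^ (b + c) • (u • f ^ d • m₁ + v • g ^ c • m₂) = g ^ c • m₂ := by
      calc g ^ (b + c) • (u • f ^ d • m₁ + v • g ^ c • m₂)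
          = u • (g ^ (b + c) • f ^ d • m₁) + v • g ^ (b + c) • g ^ c • m₂ := by
            rw [smul_add, smul_comm (g ^ (b + c)) u, smul_comm (g ^ (b + c)) v]
        _ = u • (f ^ (a + d) • g ^ c • m₂) + v • g ^ (b + c) • g ^ c • m₂ := by rw [key]
        _ = (u * f ^ (a + d) + v * g ^ (b + c)) • g ^ c • m₂ := by
            rw [add_smul, mul_smul, mul_smul]
        _ = g ^ c • m₂ := by rw [huv, one_smul]
    rw [this, map_smul, ← hm₂, smul_smul, ← pow_add, add_comm]

/-- **Sheaf property of a module for a two-element cover**: `M` is the fibre product of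
`M_f` and `M_g` over `M_{fg}`. -/
theorem toGlue_bijective (hfg : IsCoprime f g)
    [IsLocalizedModule.Away f lf] [IsLocalizedModule.Away g lg]
    [IsLocalizedModule.Away g αf]
    (hc : αf ∘ₗ lf = αg ∘ₗ lg) : Function.Bijective (toGlue lf lg αf αg hc) :=
  ⟨toGlue_injective lf lg αf αg hfg hc, toGlue_surjective lf lg αf αg hfg hc⟩

/-- The isomorphism `M ≃ M_f ×_{M_{fg}} M_g`. -/
noncomputable def toGlueEquiv (hfg : IsCoprime f g)
    [IsLocalizedModule.Away f lf] [IsLocalizedModule.Away g lg]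
    [IsLocalizedModule.Away g αf]
    (hc : αf ∘ₗ lf = αg ∘ₗ lg) : M ≃ₗ[R] glue αf αg :=
  LinearEquiv.ofBijective (toGlue lf lg αf αg hc) (toGlue_bijective lf lg αf αg hfg hc)

/-- Gluing elements: compatible local elements come from a unique global one. -/
theorem existsUnique_of_compatible (hfg : IsCoprime f g)
    [IsLocalizedModule.Away f lf] [IsLocalizedModule.Away g lg]
    [IsLocalizedModule.Away g αf]
    (hc : αf ∘ₗ lf = αg ∘ₗ lg) (x : Mf) (y : Mg) (hxy : αf x = αg y) :
    ∃! m : M, lf m = x ∧ lg m = y := by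
  obtain ⟨m, hm⟩ := toGlue_surjective lf lg αf αg hfg hc (glueMk αf αg x y hxy)
  have h₁ : lf m = x := congrArg (fun p : glue αf αg => p.1.1) hm
  have h₂ : lg m = y := congrArg (fun p : glue αf αg => p.1.2) hm
  refine ⟨m, ⟨h₁, h₂⟩, fun m' hm' => ?_⟩
  apply toGlue_injective lf lg αf αg hfg hc
  exact glue_ext αf αg (hm'.1.trans h₁.symm) (hm'.2.trans h₂.symm)

end Sheaf

section UnitAction

/-- An element `f` acts invertibly on a module over a localization away from `f`. -/
theorem isUnit_algebraMap_end (f : R) (Rf : Type*) [CommRing Rf] [Algebra R Rf]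
    [IsLocalization.Away f Rf] (N : Type*) [AddCommGroup N] [Module R N] [Module Rf N]
    [IsScalarTower R Rf N] : IsUnit (algebraMap R (Module.End R N) f) := by
  rw [Module.End.isUnit_iff]
  obtain ⟨u, hu⟩ := IsLocalization.Away.algebraMap_isUnit (S := Rf) f
  have key : ∀ x : N, f • x = (u : Rf) • x := fun x => by
    rw [hu, algebraMap_smul]
  constructor
  · intro x y hxy
    have hxy' : f • x = f • y := hxy
    rw [key, key] at hxy'
    have := congrArg (fun z => (↑u⁻¹ : Rf) • z) hxy'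
    simpa [smul_smul] using this
  · intro y
    refine ⟨(↑u⁻¹ : Rf) • y, ?_⟩
    show f • ((↑u⁻¹ : Rf) • y) = y
    rw [key, smul_smul, Units.mul_inv, one_smul]

end UnitAction

section Map

variable {R' : Type*} [CommRing R'] [Algebra R R']
  {M₁ M₂ M₁₂ : Type*} [AddCommGroup M₁] [AddCommGroup M₂] [AddCommGroup M₁₂]
  [Module R M₁] [Module R M₂] [Module R M₁₂]
  {N₁ N₂ N₁₂ : Type*} [AddCommGroup N₁] [AddCommGroup N₂] [AddCommGroup N₁₂]
  [Module R N₁] [Module R N₂] [Module R N₁₂] [Module R' N₁] [Module R' N₂] [Module R' N₁₂]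
  [IsScalarTower R R' N₁] [IsScalarTower R R' N₂]
  (α : M₁ →ₗ[R] M₁₂) (β : M₂ →ₗ[R] M₁₂) (α' : N₁ →ₗ[R'] N₁₂) (β' : N₂ →ₗ[R'] N₁₂)
  (u₁ : M₁ →ₗ[R] N₁) (u₂ : M₂ →ₗ[R] N₂) (u₁₂ : M₁₂ →ₗ[R] N₁₂)

/-- Functoriality of the fibre product; the target may be a fibre product over a bigger ring
`R'` (this covers the semilinear restriction maps of a two-chart diagram). -/
def glueMap (h₁ : ∀ x, α' (u₁ x) = u₁₂ (α x)) (h₂ : ∀ y, β' (u₂ y) = u₁₂ (β y)) :
    glue α β →ₗ[R] glue α' β' where
  toFun p := glueMk α' β' (u₁ p.1.1) (u₂ p.1.2) (by rw [h₁, h₂, glue_cond α β p])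
  map_add' p q := glue_ext α' β' (by simp) (by simp)
  map_smul' r p := glue_ext α' β' (by simp) (by simp)

@[simp] theorem glueMap_fst (h₁ : ∀ x, α' (u₁ x) = u₁₂ (α x)) (h₂ : ∀ y, β' (u₂ y) = u₁₂ (β y))
    (p : glue α β) : (glueMap α β α' β' u₁ u₂ u₁₂ h₁ h₂ p).1.1 = u₁ p.1.1 := rfl

@[simp] theorem glueMap_snd (h₁ : ∀ x, α' (u₁ x) = u₁₂ (α x)) (h₂ : ∀ y, β' (u₂ y) = u₁₂ (β y))
    (p : glue α β) : (glueMap α β α' β' u₁ u₂ u₁₂ h₁ h₂ p).1.2 = u₂ p.1.2 := rfl

variable [IsScalarTower R R' N₁₂]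

/-- The glued map of two localizations away from `t` is a localization away from `t`. -/
theorem isLocalizedModule_glueMap (t : R)
    (h₁ : ∀ x, α' (u₁ x) = u₁₂ (α x)) (h₂ : ∀ y, β' (u₂ y) = u₁₂ (β y))
    [IsLocalizedModule.Away t u₁] [IsLocalizedModule.Away t u₂]
    (hker : ∀ z : M₁₂, u₁₂ z = 0 → ∃ n : ℕ, t ^ n • z = 0)
    (ht : ∀ z : N₁₂, t • z = 0 → z = 0) :
    IsLocalizedModule.Away t (glueMap α β α' β' u₁ u₂ u₁₂ h₁ h₂) := by
  have hb₁ := (Module.End.isUnit_iff _).1 (IsLocalizedModule.Away.isUnit_algebraMap u₁ t)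
  have hb₂ := (Module.End.isUnit_iff _).1 (IsLocalizedModule.Away.isUnit_algebraMap u₂ t)
  refine IsLocalizedModule.Away.mk_of_addCommGroup ?_ ?_ ?_
  · rw [Module.End.isUnit_iff]
    constructor
    · intro p q hpq
      have h1 : t • p.1.1 = t • q.1.1 := congrArg (fun z : glue α' β' => z.1.1) hpq
      have h2 : t • p.1.2 = t • q.1.2 := congrArg (fun z : glue α' β' => z.1.2) hpq
      exact glue_ext α' β' (hb₁.1 h1) (hb₂.1 h2)
    · intro p
      obtain ⟨x, hx⟩ := hb₁.2 p.1.1
      obtain ⟨y, hy⟩ := hb₂.2 p.1.2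
      have hx' : t • x = p.1.1 := hx
      have hy' : t • y = p.1.2 := hy
      have hxy : α' x = β' y := by
        rw [← sub_eq_zero]
        apply ht
        rw [smul_sub, ← LinearMap.map_smul_of_tower, ← LinearMap.map_smul_of_tower, hx', hy',
          glue_cond α' β' p, sub_self]
      exact ⟨glueMk α' β' x y hxy, glue_ext α' β' hx' hy'⟩
  · intro p
    obtain ⟨a, x, hx⟩ := IsLocalizedModule.Away.surj u₁ t p.1.1
    obtain ⟨b, y, hy⟩ := IsLocalizedModule.Away.surj u₂ t p.1.2
    have hz : u₁₂ (α (t ^ b • x) - β (t ^ a • y)) = 0 := by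
      have e₁ : u₁₂ (α (t ^ b • x)) = t ^ b • t ^ a • α' p.1.1 := by
        rw [← h₁, map_smul u₁, ← hx, LinearMap.map_smul_of_tower, LinearMap.map_smul_of_tower]
      have e₂ : u₁₂ (β (t ^ a • y)) = t ^ a • t ^ b • β' p.1.2 := by
        rw [← h₂, map_smul u₂, ← hy, LinearMap.map_smul_of_tower, LinearMap.map_smul_of_tower]
      rw [map_sub, e₁, e₂, glue_cond α' β' p, smul_comm, sub_self]
    obtain ⟨c, hc⟩ := hker _ hz
    rw [smul_sub, sub_eq_zero, ← map_smul, ← map_smul] at hc
    refine ⟨c + b + a, glueMk α β _ _ hc, glue_ext α' β' ?_ ?_⟩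
    · show t ^ (c + b + a) • p.1.1 = u₁ (t ^ c • t ^ b • x)
      rw [map_smul, map_smul, ← hx, smul_smul, smul_smul, ← pow_add, ← pow_add]
    · show t ^ (c + b + a) • p.1.2 = u₂ (t ^ c • t ^ a • y)
      rw [map_smul, map_smul, ← hy, smul_smul, smul_smul, ← pow_add, ← pow_add]
      congr 2; ring
  · intro p hp
    have h1 : u₁ p.1.1 = 0 := congrArg (fun z : glue α' β' => z.1.1) hp
    have h2 : u₂ p.1.2 = 0 := congrArg (fun z : glue α' β' => z.1.2) hp
    obtain ⟨a, ha⟩ := IsLocalizedModule.Away.exists_of_eq (f := u₁) t (h1.trans (map_zero u₁).symm)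
    obtain ⟨b, hb⟩ := IsLocalizedModule.Away.exists_of_eq (f := u₂) t (h2.trans (map_zero u₂).symm)
    rw [smul_zero] at ha hb
    refine ⟨a + b, glue_ext α β ?_ ?_⟩
    · show t ^ (a + b) • p.1.1 = 0
      rw [pow_add, mul_comm, mul_smul, ha, smul_zero]
    · show t ^ (a + b) • p.1.2 = 0
      rw [pow_add, mul_smul, hb, smul_zero]

end Map

section Hom

variable {R' : Type*} [CommRing R'] [Algebra R R'] {f' g' : R'}
  {N Nf Ng Nfg : Type*} [AddCommGroup N] [AddCommGroup Nf] [AddCommGroup Ng] [AddCommGroup Nfg]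
  [Module R' N] [Module R' Nf] [Module R' Ng] [Module R' Nfg]
  [Module R N] [Module R Nf] [Module R Ng]
  [IsScalarTower R R' N] [IsScalarTower R R' Nf] [IsScalarTower R R' Ng]
  (kf : N →ₗ[R'] Nf) (kg : N →ₗ[R'] Ng) (γf : Nf →ₗ[R'] Nfg) (γg : Ng →ₗ[R'] Nfg)
  [IsLocalizedModule.Away f' kf] [IsLocalizedModule.Away g' kg] [IsLocalizedModule.Away g' γf]
  (hfg : IsCoprime f' g') (hk : γf ∘ₗ kf = γg ∘ₗ kg)
  {M Mf Mg : Type*} [AddCommGroup M] [AddCommGroup Mf] [AddCommGroup Mg]
  [Module R M] [Module R Mf] [Module R Mg]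
  (lf : M →ₗ[R] Mf) (lg : M →ₗ[R] Mg) (uf : Mf →ₗ[R] Nf) (ug : Mg →ₗ[R] Ng)
  (hu : ∀ m, γf (uf (lf m)) = γg (ug (lg m)))

/-- **Gluing linear maps over a two-element cover.**  The target `N` is a module over a bigger
ring `R'` with localizations `N → N_f`, `N → N_g`; the pieces `u_f : M_f → N_f`, `u_g : M_g → N_g`
are `R`-linear and agree in `N_{fg}`. -/
noncomputable def glueHom : M →ₗ[R] N :=
  ((toGlueEquiv kf kg γf γg hfg hk).symm.restrictScalars R).toLinearMap ∘ₗ
    { toFun := fun m => glueMk γf γg (uf (lf m)) (ug (lg m)) (hu m)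
      map_add' := fun m m' => glue_ext γf γg (by simp) (by simp)
      map_smul' := fun r m => glue_ext γf γg (by simp) (by simp) }

theorem toGlue_glueHom (m : M) :
    toGlue kf kg γf γg hk (glueHom kf kg γf γg hfg hk lf lg uf ug hu m) =
      glueMk γf γg (uf (lf m)) (ug (lg m)) (hu m) :=
  (toGlueEquiv kf kg γf γg hfg hk).apply_symm_apply _

@[simp] theorem kf_glueHom (m : M) :
    kf (glueHom kf kg γf γg hfg hk lf lg uf ug hu m) = uf (lf m) :=
  congrArg (fun p : glue γf γg => p.1.1) (toGlue_glueHom kf kg γf γg hfg hk lf lg uf ug hu m)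

@[simp] theorem kg_glueHom (m : M) :
    kg (glueHom kf kg γf γg hfg hk lf lg uf ug hu m) = ug (lg m) :=
  congrArg (fun p : glue γf γg => p.1.2) (toGlue_glueHom kf kg γf γg hfg hk lf lg uf ug hu m)

theorem glueHom_unique (u : M →ₗ[R] N)
    (h₁ : ∀ m, kf (u m) = uf (lf m)) (h₂ : ∀ m, kg (u m) = ug (lg m)) :
    u = glueHom kf kg γf γg hfg hk lf lg uf ug hu :=
  LinearMap.ext fun m => eq_of_localizations kf kg hfg (by rw [h₁, kf_glueHom])
    (by rw [h₂, kg_glueHom])

end Hom

section Bijective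

variable {f g : R}
  {M Mf Mg N Nf Ng : Type*} [AddCommGroup M] [AddCommGroup Mf] [AddCommGroup Mg]
  [AddCommGroup N] [AddCommGroup Nf] [AddCommGroup Ng]
  [Module R M] [Module R Mf] [Module R Mg] [Module R N] [Module R Nf] [Module R Ng]
  (lf : M →ₗ[R] Mf) (lg : M →ₗ[R] Mg) (kf : N →ₗ[R] Nf) (kg : N →ₗ[R] Ng)
  [IsLocalizedModule.Away f lf] [IsLocalizedModule.Away g lg]
  [IsLocalizedModule.Away f kf] [IsLocalizedModule.Away g kg]
  (u : M →ₗ[R] N) (uf : Mf →ₗ[R] Nf) (ug : Mg →ₗ[R] Ng)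

omit [IsLocalizedModule.Away f kf] [IsLocalizedModule.Away g kg] in
/-- Injectivity is local for a two-element cover. -/
theorem injective_of_two_cover (hfg : IsCoprime f g)
    (h₁ : ∀ m, kf (u m) = uf (lf m)) (h₂ : ∀ m, kg (u m) = ug (lg m))
    (hf : Function.Injective uf) (hg : Function.Injective ug) : Function.Injective u := by
  rw [← LinearMap.ker_eq_bot, LinearMap.ker_eq_bot']
  intro m hm
  apply eq_zero_of_localizations lf lg hfg
  · apply hf; rw [← h₁, hm, map_zero, map_zero]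
  · apply hg; rw [← h₂, hm, map_zero, map_zero]

omit [IsLocalizedModule.Away g lg] [IsLocalizedModule.Away g kg] in
theorem exists_pow_smul_mem_range
    (h₁ : ∀ m, kf (u m) = uf (lf m)) (hf : Function.Surjective uf) (n : N) :
    ∃ a : ℕ, f ^ a • n ∈ LinearMap.range u := by
  obtain ⟨x, hx⟩ := hf (kf n)
  obtain ⟨a, m, hm⟩ := IsLocalizedModule.Away.surj lf f x
  have : kf (f ^ a • n) = kf (u m) := by
    rw [h₁, ← hm, map_smul, map_smul, hx]
  obtain ⟨d, hd⟩ := IsLocalizedModule.Away.exists_of_eq (f := kf) f this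
  refine ⟨d + a, f ^ d • m, ?_⟩
  rw [map_smul, ← hd, smul_smul, pow_add]

omit [IsLocalizedModule.Away f kf] [IsLocalizedModule.Away g kg] in
/-- Surjectivity is local for a two-element cover. -/
theorem surjective_of_two_cover [IsLocalizedModule.Away f kf] [IsLocalizedModule.Away g kg]
    (hfg : IsCoprime f g)
    (h₁ : ∀ m, kf (u m) = uf (lf m)) (h₂ : ∀ m, kg (u m) = ug (lg m))
    (hf : Function.Surjective uf) (hg : Function.Surjective ug) : Function.Surjective u := by
  intro n
  obtain ⟨a, ha⟩ := exists_pow_smul_mem_range (f := f) lf kf u uf h₁ hf n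
  obtain ⟨b, hb⟩ := exists_pow_smul_mem_range (f := g) lg kg u ug h₂ hg n
  obtain ⟨c, d, hcd⟩ := hfg.pow (m := a) (n := b)
  have : n ∈ LinearMap.range u := by
    have h := Submodule.add_mem _ (Submodule.smul_mem _ c ha) (Submodule.smul_mem _ d hb)
    rwa [smul_smul, smul_smul, ← add_smul, hcd, one_smul] at h
  exact this

/-- Bijectivity is local for a two-element cover. -/
theorem bijective_of_two_cover (hfg : IsCoprime f g)
    (h₁ : ∀ m, kf (u m) = uf (lf m)) (h₂ : ∀ m, kg (u m) = ug (lg m))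
    (hf : Function.Bijective uf) (hg : Function.Bijective ug) : Function.Bijective u :=
  ⟨injective_of_two_cover lf lg kf kg u uf ug hfg h₁ h₂ hf.1 hg.1,
    surjective_of_two_cover lf lg kf kg u uf ug hfg h₁ h₂ hf.2 hg.2⟩

end Bijective

end Fermat.Agent.JAC.Zar.Patch39
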