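/-
Programme JAC (S25), work package A7 (Zariski sheaf property), brick (Z2-local):
local-to-global principles for modules over a two-element cover `D(f) ∪ D(g)` and over
a finite (or arbitrary) family `c : ι → R` generating the unit ideal.

Pure module theory over a commutative ring `R`; Mathlib only.

* `finite_of_family`, `finitePresentation_of_family` : family-indexed versions of Mathlib's
  `Module.Finite.of_localizationSpan'`, `Module.FinitePresentation.of_localizationSpan'`.
* `two_cover_principle` : any statement available for `Bool`-indexed families holds for a pair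
  of localizations `M → M_f`, `M → M_g` with `IsCoprime f g`.
* `finite_of_two_cover`, `finitePresentation_of_two_cover`.
* `invertible_of_surjective` : an elementwise criterion for `Module.Invertible`.
* `invertible_of_two_cover` : a module which is invertible on `D(f)` and `D(g)` is invertible.
* `glue_finite`, `glue_finitePresentation`, `glue_invertible` : the same for the patched module
  `Patch39.glue α β`.
-/
import Mathlib
import Fermat.Agent.JAC.Zar.Patch39

set_option autoImplicit false

namespace Fermat.Agent.JAC.Zar.Local39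

open TensorProduct

universe u

variable {R : Type u} [CommRing R]

section Family

variable {ι : Type*} (c : ι → R) (hc : Ideal.span (Set.range c) = ⊤)
  {M : Type*} [AddCommGroup M] [Module R M]
  {Rₚ : ι → Type*} [∀ i, CommRing (Rₚ i)] [∀ i, Algebra R (Rₚ i)]
  [∀ i, IsLocalization.Away (c i) (Rₚ i)]
  {Mₚ : ι → Type*} [∀ i, AddCommGroup (Mₚ i)] [∀ i, Module R (Mₚ i)]
  [∀ i, Module (Rₚ i) (Mₚ i)] [∀ i, IsScalarTower R (Rₚ i) (Mₚ i)]
  (l : ∀ i, M →ₗ[R] Mₚ i) [∀ i, IsLocalizedModule.Away (c i) (l i)]

include hc l in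
/-- Family-indexed version of `Module.Finite.of_localizationSpan'`. -/
theorem finite_of_family (H : ∀ i, Module.Finite (Rₚ i) (Mₚ i)) : Module.Finite R M := by
  classical
  have key : ∀ r : Set.range c, ∃ i, c i = r.1 := fun r => r.2
  choose idx hidx using key
  have : ∀ r : Set.range c, IsLocalization.Away r.1 (Rₚ (idx r)) := fun r => by
    rw [← hidx r]; infer_instance
  have : ∀ r : Set.range c, IsLocalizedModule.Away r.1 (l (idx r)) := fun r => by
    rw [← hidx r]; infer_instance
  exact Module.Finite.of_localizationSpan' (Set.range c) hc (Mₚ := fun r => Mₚ (idx r))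
    (Rₚ := fun r => Rₚ (idx r)) (fun r => l (idx r)) (fun r => H (idx r))

include hc l in
/-- Family-indexed version of `Module.FinitePresentation.of_localizationSpan'`. -/
theorem finitePresentation_of_family (H : ∀ i, Module.FinitePresentation (Rₚ i) (Mₚ i)) :
    Module.FinitePresentation R M := by
  classical
  have key : ∀ r : Set.range c, ∃ i, c i = r.1 := fun r => r.2
  choose idx hidx using key
  have : ∀ r : Set.range c, IsLocalization.Away r.1 (Rₚ (idx r)) := fun r => by
    rw [← hidx r]; infer_instance
  have : ∀ r : Set.range c, IsLocalizedModule.Away r.1 (l (idx r)) := fun r => by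
    rw [← hidx r]; infer_instance
  exact Module.FinitePresentation.of_localizationSpan' (Set.range c) hc
    (Mₚ := fun r => Mₚ (idx r)) (Rₚ := fun r => Rₚ (idx r)) (fun r => l (idx r))
    (fun r => H (idx r))

end Family

section Two

universe v w

variable {f g : R}
  (Rf Rg : Type w) [CommRing Rf] [CommRing Rg] [Algebra R Rf] [Algebra R Rg]
  [IsLocalization.Away f Rf] [IsLocalization.Away g Rg]
  {M : Type*} [AddCommGroup M] [Module R M]
  {Mf Mg : Type v} [AddCommGroup Mf] [AddCommGroup Mg] [Module R Mf] [Module R Mg]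
  [Module Rf Mf] [Module Rg Mg] [IsScalarTower R Rf Mf] [IsScalarTower R Rg Mg]
  (lf : M →ₗ[R] Mf) (lg : M →ₗ[R] Mg) [IsLocalizedModule.Away f lf] [IsLocalizedModule.Away g lg]

omit Rf Rg in
theorem span_range_cond (hfg : IsCoprime f g) :
    Ideal.span (Set.range (fun b : Bool => cond b f g)) = ⊤ := by
  obtain ⟨a, b, hab⟩ := hfg
  rw [Ideal.eq_top_iff_one, ← hab]
  exact Ideal.add_mem _ (Ideal.mul_mem_left _ _ (Ideal.subset_span ⟨true, rfl⟩))
    (Ideal.mul_mem_left _ _ (Ideal.subset_span ⟨false, rfl⟩))

include lf lg in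
/-- Any statement available for `Bool`-indexed families of localizations holds for a pair of
localizations `M → M_f`, `M → M_g` with `IsCoprime f g`. -/
theorem two_cover_principle
    (P : ∀ (A : Type w) (N : Type v) [CommRing A] [AddCommGroup N] [Module A N], Prop)
    (Q : Prop)
    (hPQ : ∀ (c : Bool → R) (_ : Ideal.span (Set.range c) = ⊤)
      (Rₚ : Bool → Type w) [∀ i, CommRing (Rₚ i)] [∀ i, Algebra R (Rₚ i)]
      [∀ i, IsLocalization.Away (c i) (Rₚ i)]
      (Mₚ : Bool → Type v) [∀ i, AddCommGroup (Mₚ i)] [∀ i, Module R (Mₚ i)]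
      [∀ i, Module (Rₚ i) (Mₚ i)] [∀ i, IsScalarTower R (Rₚ i) (Mₚ i)]
      (l : ∀ i, M →ₗ[R] Mₚ i) [∀ i, IsLocalizedModule.Away (c i) (l i)],
      (∀ i, P (Rₚ i) (Mₚ i)) → Q)
    (hfg : IsCoprime f g) (hf : P Rf Mf) (hg : P Rg Mg) : Q := by
  let c : Bool → R := fun b => cond b f g
  let Rₚ : Bool → Type w := fun b => cond b Rf Rg
  let Mₚ : Bool → Type v := fun b => cond b Mf Mg
  let i1 : ∀ i, CommRing (Rₚ i) := fun i => by
    cases i <;> (dsimp only [Rₚ, cond]; infer_instance)
  let i2 : ∀ i, Algebra R (Rₚ i) := fun i => by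
    cases i <;> (dsimp only [Rₚ, cond, i1]; infer_instance)
  have i3 : ∀ i, IsLocalization.Away (c i) (Rₚ i) := fun i => by
    cases i <;> (dsimp only [Rₚ, cond, i1, i2, c]; infer_instance)
  let i4 : ∀ i, AddCommGroup (Mₚ i) := fun i => by
    cases i <;> (dsimp only [Mₚ, cond]; infer_instance)
  let i5 : ∀ i, Module R (Mₚ i) := fun i => by
    cases i <;> (dsimp only [Mₚ, cond, i4]; infer_instance)
  let i6 : ∀ i, Module (Rₚ i) (Mₚ i) := fun i => by
    cases i <;> (dsimp only [Mₚ, Rₚ, cond, i4, i1]; infer_instance)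
  have i7 : ∀ i, IsScalarTower R (Rₚ i) (Mₚ i) := fun i => by
    cases i <;> (dsimp only [Mₚ, Rₚ, cond, i4, i1, i2, i5, i6]; infer_instance)
  let l : ∀ i, M →ₗ[R] Mₚ i := fun i => Bool.rec (motive := fun i => M →ₗ[R] Mₚ i) lg lf i
  have i8 : ∀ i, IsLocalizedModule.Away (c i) (l i) := fun i => by
    cases i <;> (dsimp only [Mₚ, cond, i4, i5, l, c]; infer_instance)
  refine hPQ c (span_range_cond hfg) Rₚ Mₚ l (fun i => ?_)
  cases i
  · exact hg
  · exact hf

include lf lg in
/-- Finiteness is local for a two-element cover. -/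
theorem finite_of_two_cover (hfg : IsCoprime f g) [hf : Module.Finite Rf Mf]
    [hg : Module.Finite Rg Mg] : Module.Finite R M :=
  two_cover_principle Rf Rg lf lg (fun A N _ _ _ => Module.Finite A N) (Module.Finite R M)
    (fun c hc _ _ _ _ _ _ _ _ _ l _ H => finite_of_family c hc l H) hfg hf hg

include lf lg in
/-- Finite presentation is local for a two-element cover. -/
theorem finitePresentation_of_two_cover (hfg : IsCoprime f g)
    [hf : Module.FinitePresentation Rf Mf] [hg : Module.FinitePresentation Rg Mg] :
    Module.FinitePresentation R M :=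
  two_cover_principle Rf Rg lf lg (fun A N _ _ _ => Module.FinitePresentation A N)
    (Module.FinitePresentation R M)
    (fun c hc _ _ _ _ _ _ _ _ _ l _ H => finitePresentation_of_family c hc l H) hfg hf hg

end Two

section Criterion

variable {M : Type*} [AddCommGroup M] [Module R M]

/-- The "rank at most one" identity `φ m • m' = φ m' • m`. -/
def RankLEOne (R : Type u) [CommRing R] (M : Type*) [AddCommGroup M] [Module R M] : Prop :=
  ∀ (φ : Module.Dual R M) (m m' : M), φ m • m' = φ m' • m

theorem rankLEOne_of_invertible [Module.Invertible R M] : RankLEOne R M := by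
  intro φ m m'
  have h := congrArg (TensorProduct.lift (LinearMap.lsmul R M ∘ₗ φ))
    (Module.Invertible.tmul_comm (R := R) (m₁ := m) (m₂ := m'))
  simpa using h

theorem RankLEOne.dual_swap (h : RankLEOne R M) (φ φ' : Module.Dual R M) (m : M) :
    φ m • φ' = φ' m • φ := by
  ext x
  have := congrArg φ (h φ' x m)
  simp only [map_smul, smul_eq_mul, LinearMap.smul_apply] at this ⊢
  rw [mul_comm, this, mul_comm]

theorem RankLEOne.contract_swap (h : RankLEOne R M) (x y : Module.Dual R M ⊗[R] M) :
    contractLeft R M x • y = contractLeft R M y • x := by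
  induction x using TensorProduct.induction_on with
  | zero => simp
  | add x₁ x₂ h₁ h₂ => rw [map_add, add_smul, h₁, h₂, smul_add]
  | tmul φ m =>
    induction y using TensorProduct.induction_on with
    | zero => simp
    | add y₁ y₂ h₁ h₂ => rw [map_add, add_smul, smul_add, h₁, h₂]
    | tmul φ' m' =>
      rw [contractLeft_apply, contractLeft_apply]
      calc φ m • (φ' ⊗ₜ[R] m') = (φ m • φ') ⊗ₜ[R] m' := by rw [TensorProduct.smul_tmul']
        _ = (φ' m • φ) ⊗ₜ[R] m' := by rw [h.dual_swap φ φ' m]
        _ = φ ⊗ₜ[R] (φ' m • m') := by rw [TensorProduct.smul_tmul]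
        _ = φ ⊗ₜ[R] (φ' m' • m) := by rw [h φ' m m']
        _ = φ' m' • (φ ⊗ₜ[R] m) := by rw [TensorProduct.tmul_smul]

/-- An elementwise criterion for invertibility: rank at most one and the evaluation pairing
is onto. -/
theorem invertible_of_surjective (h2 : RankLEOne R M)
    (h1 : Function.Surjective (contractLeft R M)) : Module.Invertible R M := by
  refine ⟨⟨?_, h1⟩⟩
  obtain ⟨t₀, ht₀⟩ := h1 1
  intro x y hxy
  have hx := h2.contract_swap x t₀
  have hy := h2.contract_swap y t₀
  rw [ht₀, one_smul] at hx hy
  rw [← hx, ← hy, hxy]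

end Criterion

section OneSide

variable {f : R} {Rf : Type*} [CommRing Rf] [Algebra R Rf] [IsLocalization.Away f Rf]
  {M : Type*} [AddCommGroup M] [Module R M]
  {Mf : Type*} [AddCommGroup Mf] [Module R Mf] [Module Rf Mf] [IsScalarTower R Rf Mf]

/-- One half of the local check of the rank-one identity. -/
theorem rankLEOne_aux (lf : M →ₗ[R] Mf) [IsLocalizedModule.Away f lf]
    (hf : RankLEOne Rf Mf) (φ : Module.Dual R M) (m m' : M) :
    lf (φ m • m') = lf (φ m' • m) := by
  let φf : Mf →ₗ[Rf] Rf :=
    IsLocalizedModule.mapExtendScalars (.powers f) lf (Algebra.linearMap R Rf) Rf φ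
  have hφf : ∀ x, φf (lf x) = algebraMap R Rf (φ x) := fun x => by
    simp [φf, IsLocalizedModule.map_apply]
  have := hf φf (lf m) (lf m')
  rw [hφf, hφf, algebraMap_smul, algebraMap_smul] at this
  rw [map_smul, map_smul, this]

/-- Lifting the value of the evaluation pairing from a localization, up to a power of `f`. -/
theorem exists_contract_lift (lf : M →ₗ[R] Mf) [IsLocalizedModule.Away f lf]
    [Module.FinitePresentation R M] (t : Module.Dual Rf Mf ⊗[Rf] Mf) :
    ∃ (n : ℕ) (x : Module.Dual R M ⊗[R] M),
      algebraMap R Rf (contractLeft R M x) = algebraMap R Rf (f ^ n) * contractLeft Rf Mf t := by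
  induction t using TensorProduct.induction_on with
  | zero => exact ⟨0, 0, by simp⟩
  | add t₁ t₂ h₁ h₂ =>
    obtain ⟨n₁, x₁, hx₁⟩ := h₁
    obtain ⟨n₂, x₂, hx₂⟩ := h₂
    refine ⟨n₁ + n₂, f ^ n₂ • x₁ + f ^ n₁ • x₂, ?_⟩
    simp only [map_add, map_smul, smul_eq_mul, map_mul, hx₁, hx₂, pow_add, map_pow]
    ring
  | tmul ψ a =>
    obtain ⟨φ, s, hφ⟩ := Module.FinitePresentation.exists_lift_of_isLocalizedModule
      (Submonoid.powers f) (Algebra.linearMap R Rf) (ψ.restrictScalars R ∘ₗ lf)
    obtain ⟨_, n₁, rfl⟩ := s
    obtain ⟨n₂, m, hm⟩ := IsLocalizedModule.Away.surj lf f a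
    refine ⟨n₁ + n₂, φ ⊗ₜ[R] m, ?_⟩
    have h := LinearMap.congr_fun hφ m
    simp only [LinearMap.coe_comp, Function.comp_apply, Algebra.linearMap_apply,
      LinearMap.smul_apply, LinearMap.coe_restrictScalars, Submonoid.smul_def] at h
    rw [contractLeft_apply, contractLeft_apply, h, ← hm, LinearMap.map_smul_of_tower, smul_smul,
      ← pow_add, Algebra.smul_def]

theorem exists_pow_mem_range_contract (lf : M →ₗ[R] Mf) [IsLocalizedModule.Away f lf]
    [Module.FinitePresentation R M]
    (hf : Function.Surjective (contractLeft Rf Mf)) :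
    ∃ n : ℕ, f ^ n ∈ LinearMap.range (contractLeft R M) := by
  obtain ⟨t, ht⟩ := hf 1
  obtain ⟨n, x, hx⟩ := exists_contract_lift (f := f) lf t
  rw [ht, mul_one] at hx
  obtain ⟨⟨_, k, rfl⟩, hc⟩ := (IsLocalization.eq_iff_exists (Submonoid.powers f) Rf).1 hx
  refine ⟨k + n, f ^ k • x, ?_⟩
  rw [map_smul, smul_eq_mul, hc, pow_add]

end OneSide

section TwoInv

variable {f g : R}
  (Rf Rg : Type*) [CommRing Rf] [CommRing Rg] [Algebra R Rf] [Algebra R Rg]
  [IsLocalization.Away f Rf] [IsLocalization.Away g Rg]
  {M : Type*} [AddCommGroup M] [Module R M]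
  {Mf Mg : Type*} [AddCommGroup Mf] [AddCommGroup Mg] [Module R Mf] [Module R Mg]
  [Module Rf Mf] [Module Rg Mg] [IsScalarTower R Rf Mf] [IsScalarTower R Rg Mg]

theorem rankLEOne_of_two_cover (lf : M →ₗ[R] Mf) (lg : M →ₗ[R] Mg)
    [IsLocalizedModule.Away f lf] [IsLocalizedModule.Away g lg]
    (hfg : IsCoprime f g) (hf : RankLEOne Rf Mf)
    (hg : RankLEOne Rg Mg) : RankLEOne R M := by
  intro φ m m'
  rw [← sub_eq_zero]
  apply Patch39.eq_zero_of_localizations lf lg hfg
  · rw [map_sub, sub_eq_zero]; exact rankLEOne_aux (f := f) lf hf φ m m'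
  · rw [map_sub, sub_eq_zero]; exact rankLEOne_aux (f := g) lg hg φ m m'

theorem contract_surjective_of_two_cover (lf : M →ₗ[R] Mf) (lg : M →ₗ[R] Mg)
    [IsLocalizedModule.Away f lf] [IsLocalizedModule.Away g lg]
    (hfg : IsCoprime f g) [Module.FinitePresentation R M]
    (hf : Function.Surjective (contractLeft Rf Mf))
    (hg : Function.Surjective (contractLeft Rg Mg)) :
    Function.Surjective (contractLeft R M) := by
  obtain ⟨a, ha⟩ := exists_pow_mem_range_contract (f := f) lf hf
  obtain ⟨b, hb⟩ := exists_pow_mem_range_contract (f := g) lg hg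
  obtain ⟨u, v, huv⟩ := hfg.pow (m := a) (n := b)
  rw [← LinearMap.range_eq_top, Submodule.eq_top_iff']
  have h1 : (1 : R) ∈ LinearMap.range (contractLeft R M) := by
    rw [← huv]
    exact Submodule.add_mem _ (Submodule.smul_mem _ u ha) (Submodule.smul_mem _ v hb)
  intro r
  have := Submodule.smul_mem _ r h1
  rwa [smul_eq_mul, mul_one] at this


/-- Invertibility is local for a two-element cover (finitely presented version, no universe
restrictions). -/
theorem invertible_of_two_cover' (lf : M →ₗ[R] Mf) (lg : M →ₗ[R] Mg)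
    [IsLocalizedModule.Away f lf] [IsLocalizedModule.Away g lg]
    (hfg : IsCoprime f g) [Module.FinitePresentation R M]
    [Module.Invertible Rf Mf] [Module.Invertible Rg Mg] : Module.Invertible R M :=
  invertible_of_surjective
    (rankLEOne_of_two_cover Rf Rg lf lg hfg rankLEOne_of_invertible rankLEOne_of_invertible)
    (contract_surjective_of_two_cover Rf Rg lf lg hfg (Module.Invertible.bijective (R := Rf)).2
      (Module.Invertible.bijective (R := Rg)).2)

end TwoInv

section TwoInvFinal

universe v w

variable {f g : R}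
  (Rf Rg : Type w) [CommRing Rf] [CommRing Rg] [Algebra R Rf] [Algebra R Rg]
  [IsLocalization.Away f Rf] [IsLocalization.Away g Rg]
  {M : Type*} [AddCommGroup M] [Module R M]
  {Mf Mg : Type v} [AddCommGroup Mf] [AddCommGroup Mg] [Module R Mf] [Module R Mg]
  [Module Rf Mf] [Module Rg Mg] [IsScalarTower R Rf Mf] [IsScalarTower R Rg Mg]

/-- **Invertibility is local for a two-element cover.** -/
theorem invertible_of_two_cover (lf : M →ₗ[R] Mf) (lg : M →ₗ[R] Mg)
    [IsLocalizedModule.Away f lf] [IsLocalizedModule.Away g lg]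
    (hfg : IsCoprime f g) [Module.Invertible Rf Mf] [Module.Invertible Rg Mg] :
    Module.Invertible R M := by
  have : Module.FinitePresentation Rf Mf := Module.finitePresentation_of_projective Rf Mf
  have : Module.FinitePresentation Rg Mg := Module.finitePresentation_of_projective Rg Mg
  have : Module.FinitePresentation R M := finitePresentation_of_two_cover Rf Rg lf lg hfg
  exact invertible_of_two_cover' Rf Rg lf lg hfg

end TwoInvFinal

section GlueProps

open Patch39

universe v w

variable {f g : R}
  (Rf Rg : Type w) [CommRing Rf] [CommRing Rg] [Algebra R Rf] [Algebra R Rg]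
  [IsLocalization.Away f Rf] [IsLocalization.Away g Rg]
  {M₁ M₂ : Type v} {M₁₂ : Type*} [AddCommGroup M₁] [AddCommGroup M₂] [AddCommGroup M₁₂]
  [Module R M₁] [Module R M₂] [Module R M₁₂]
  [Module Rf M₁] [Module Rg M₂] [IsScalarTower R Rf M₁] [IsScalarTower R Rg M₂]
  (α : M₁ →ₗ[R] M₁₂) (β : M₂ →ₗ[R] M₁₂)
  [IsLocalizedModule.Away g α] [IsLocalizedModule.Away f β]

include Rf in
omit [IsLocalizedModule.Away g α] in
/-- The first projection of the patched module is a localization away from `f`. -/
theorem isLocalizedModule_glueFst_of_isLocalization :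
    IsLocalizedModule.Away f (glueFst α β) :=
  isLocalizedModule_glueFst α β f (isUnit_algebraMap_end f Rf M₁)

include Rg in
omit [IsLocalizedModule.Away f β] in
/-- The second projection of the patched module is a localization away from `g`. -/
theorem isLocalizedModule_glueSnd_of_isLocalization :
    IsLocalizedModule.Away g (glueSnd α β) :=
  isLocalizedModule_glueSnd α β g (isUnit_algebraMap_end g Rg M₂)

/-- The patched module is finite if both pieces are. -/
theorem glue_finite (hfg : IsCoprime f g) [Module.Finite Rf M₁] [Module.Finite Rg M₂] :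
    Module.Finite R (glue α β) := by
  have := isLocalizedModule_glueFst_of_isLocalization (f := f) Rf α β
  have := isLocalizedModule_glueSnd_of_isLocalization (g := g) Rg α β
  exact finite_of_two_cover Rf Rg (glueFst α β) (glueSnd α β) hfg

/-- The patched module is finitely presented if both pieces are. -/
theorem glue_finitePresentation (hfg : IsCoprime f g) [Module.FinitePresentation Rf M₁]
    [Module.FinitePresentation Rg M₂] : Module.FinitePresentation R (glue α β) := by
  have := isLocalizedModule_glueFst_of_isLocalization (f := f) Rf α β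
  have := isLocalizedModule_glueSnd_of_isLocalization (g := g) Rg α β
  exact finitePresentation_of_two_cover Rf Rg (glueFst α β) (glueSnd α β) hfg

/-- **The patched module is invertible if both pieces are.** -/
theorem glue_invertible (hfg : IsCoprime f g) [Module.Invertible Rf M₁]
    [Module.Invertible Rg M₂] : Module.Invertible R (glue α β) := by
  have := isLocalizedModule_glueFst_of_isLocalization (f := f) Rf α β
  have := isLocalizedModule_glueSnd_of_isLocalization (g := g) Rg α β
  exact invertible_of_two_cover Rf Rg (glueFst α β) (glueSnd α β) hfg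

end GlueProps


end Fermat.Agent.JAC.Zar.Local39
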