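/-
Programme JAC (S25), work package A7 (Zariski sheaf property), brick (Z4a):
gluing LINE DIAGRAMS over a two-element cover, unbundled input, bundled output
(`Core.Defs36.LineDiag`).

Input (typeclass form over the three base rings `R0 → R01 ← R1` only):
for each vertex `* ∈ {0, 1, 01}` modules `M*f`, `M*g`, `M*fg` over `R*` with
`α* : M*f → M*fg` a localisation away from `g*` and `β* : M*g → M*fg` a localisation away from
`f*`, where `f*, g* ∈ R*` are coprime; restriction maps `ρ0f, ρ0g, ρ0fg` (localisations away from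
`t`) and `ρ1f, ρ1g, ρ1fg` (away from `s`) commuting with the `α`'s and `β`'s; the four outer
pieces `M0f, M0g, M1f, M1g` invertible over localised rings `R0f, R0g, R1f, R1g`.

Output: `glueDiag : LineDiag t s R01` with vertices `Patch39.glue α* β*`.
-/
import Fermat.Agent.JAC.Core.Defs36
import Fermat.Agent.JAC.Zar.Local39

set_option autoImplicit false

universe u

namespace Fermat.Agent.JAC.Zar.DiagGlue39

open Fermat.Agent.JAC.Core.Defs36 Fermat.Agent.JAC.Zar.Patch39 Fermat.Agent.JAC.Zar.Local39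

section

variable {R0 R1 R01 : Type u} [CommRing R0] [CommRing R1] [CommRing R01]
  [Algebra R0 R01] [Algebra R1 R01] {t : R0} {s : R1}
  {f0 g0 : R0} {f1 g1 : R1}
  (R0f R0g R1f R1g : Type u) [CommRing R0f] [CommRing R0g] [CommRing R1f] [CommRing R1g]
  [Algebra R0 R0f] [Algebra R0 R0g] [Algebra R1 R1f] [Algebra R1 R1g]
  [IsLocalization.Away f0 R0f] [IsLocalization.Away g0 R0g]
  [IsLocalization.Away f1 R1f] [IsLocalization.Away g1 R1g]
  -- vertex 0
  {M0f M0g M0fg : Type u} [AddCommGroup M0f] [AddCommGroup M0g] [AddCommGroup M0fg]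
  [Module R0 M0f] [Module R0 M0g] [Module R0 M0fg]
  [Module R0f M0f] [Module R0g M0g] [IsScalarTower R0 R0f M0f] [IsScalarTower R0 R0g M0g]
  [Module.Invertible R0f M0f] [Module.Invertible R0g M0g]
  (α0 : M0f →ₗ[R0] M0fg) (β0 : M0g →ₗ[R0] M0fg)
  [IsLocalizedModule.Away g0 α0] [IsLocalizedModule.Away f0 β0]
  -- vertex 1
  {M1f M1g M1fg : Type u} [AddCommGroup M1f] [AddCommGroup M1g] [AddCommGroup M1fg]
  [Module R1 M1f] [Module R1 M1g] [Module R1 M1fg]
  [Module R1f M1f] [Module R1g M1g] [IsScalarTower R1 R1f M1f] [IsScalarTower R1 R1g M1g]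
  [Module.Invertible R1f M1f] [Module.Invertible R1g M1g]
  (α1 : M1f →ₗ[R1] M1fg) (β1 : M1g →ₗ[R1] M1fg)
  [IsLocalizedModule.Away g1 α1] [IsLocalizedModule.Away f1 β1]
  -- vertex 01
  {M01f M01g M01fg : Type u} [AddCommGroup M01f] [AddCommGroup M01g] [AddCommGroup M01fg]
  [Module R01 M01f] [Module R01 M01g] [Module R01 M01fg]
  [Module R0 M01f] [Module R0 M01g] [Module R0 M01fg]
  [Module R1 M01f] [Module R1 M01g] [Module R1 M01fg]
  [IsScalarTower R0 R01 M01f] [IsScalarTower R0 R01 M01g] [IsScalarTower R0 R01 M01fg]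
  [IsScalarTower R1 R01 M01f] [IsScalarTower R1 R01 M01g] [IsScalarTower R1 R01 M01fg]
  (α01 : M01f →ₗ[R01] M01fg) (β01 : M01g →ₗ[R01] M01fg)
  -- restriction maps
  (ρ0f : M0f →ₗ[R0] M01f) (ρ0g : M0g →ₗ[R0] M01g) (ρ0fg : M0fg →ₗ[R0] M01fg)
  [IsLocalizedModule.Away t ρ0f] [IsLocalizedModule.Away t ρ0g] [IsLocalizedModule.Away t ρ0fg]
  (ρ1f : M1f →ₗ[R1] M01f) (ρ1g : M1g →ₗ[R1] M01g) (ρ1fg : M1fg →ₗ[R1] M01fg)
  [IsLocalizedModule.Away s ρ1f] [IsLocalizedModule.Away s ρ1g] [IsLocalizedModule.Away s ρ1fg]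
  (h0α : ∀ x, α01 (ρ0f x) = ρ0fg (α0 x)) (h0β : ∀ y, β01 (ρ0g y) = ρ0fg (β0 y))
  (h1α : ∀ x, α01 (ρ1f x) = ρ1fg (α1 x)) (h1β : ∀ y, β01 (ρ1g y) = ρ1fg (β1 y))
  (hfg0 : IsCoprime f0 g0) (hfg1 : IsCoprime f1 g1)

/-- **Gluing line diagrams over a two-element cover.** -/
noncomputable def glueDiag : LineDiag t s R01 :=
  letI : Module.Invertible R0 (glue α0 β0) := glue_invertible R0f R0g α0 β0 hfg0
  letI : Module.Invertible R1 (glue α1 β1) := glue_invertible R1f R1g α1 β1 hfg1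
  { M0 := glue α0 β0
    M1 := glue α1 β1
    M01 := glue α01 β01
    rho0 := glueMap α0 β0 α01 β01 ρ0f ρ0g ρ0fg h0α h0β
    rho1 := glueMap α1 β1 α01 β01 ρ1f ρ1g ρ1fg h1α h1β
    isLocalizedModule0 := isLocalizedModule_glueMap α0 β0 α01 β01 ρ0f ρ0g ρ0fg t h0α h0β
      (fun z hz => by
        obtain ⟨n, hn⟩ := IsLocalizedModule.Away.exists_of_eq (f := ρ0fg) t
          (hz.trans (map_zero ρ0fg).symm)
        exact ⟨n, by simpa using hn⟩)
      (fun z hz => by
        have h := (Module.End.isUnit_iff _).1 (IsLocalizedModule.Away.isUnit_algebraMap ρ0fg t)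
        exact h.1 (by simpa using hz))
    isLocalizedModule1 := isLocalizedModule_glueMap α1 β1 α01 β01 ρ1f ρ1g ρ1fg s h1α h1β
      (fun z hz => by
        obtain ⟨n, hn⟩ := IsLocalizedModule.Away.exists_of_eq (f := ρ1fg) s
          (hz.trans (map_zero ρ1fg).symm)
        exact ⟨n, by simpa using hn⟩)
      (fun z hz => by
        have h := (Module.End.isUnit_iff _).1 (IsLocalizedModule.Away.isUnit_algebraMap ρ1fg s)
        exact h.1 (by simpa using hz)) }

end

end Fermat.Agent.JAC.Zar.DiagGlue39
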