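import Mathlib

/-!
# Programme JAC, chapter Zar: `Module.Invertible` is Zariski-local

Work package A7 (`F_aff` is a Zariski sheaf), part (I).  If `M` is an `R`-module and the
localisations `M_r` are invertible over `R_r` for a family of `r` spanning the unit ideal, then `M`
is invertible over `R`.  Proof: `M` is finitely presented (Mathlib), hence `Dual R M` and
`Dual R M ⊗ M` localise well, and `contractLeft R M` is bijective because it is so locally.

* `invertible_of_isLocalized_span`: predicate form, indexed by a spanning set `s`;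
* `invertible_of_localized_span`: canonical models `Localization.Away r`, `LocalizedModule.Away r M`;
* `invertible_of_isLocalized_family`: indexed by a family `g : ι → R`;
* `invertible_of_isLocalized_pair`: two-element covers.
-/

set_option autoImplicit false

open TensorProduct

universe v w

namespace Fermat.Agent.JAC.Zar.InvLocal4

/-- `Module.Invertible` is Zariski-local, predicate form. -/
theorem invertible_of_isLocalized_span {R : Type*} [CommRing R] (s : Set R)
    (spn : Ideal.span s = ⊤) {M : Type*} [AddCommGroup M] [Module R M]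
    {Rₚ : s → Type*} [∀ r, CommRing (Rₚ r)] [∀ r, Algebra R (Rₚ r)]
    [∀ r : s, IsLocalization.Away r.1 (Rₚ r)]
    {Mₚ : s → Type*} [∀ r, AddCommGroup (Mₚ r)] [∀ r, Module R (Mₚ r)]
    [∀ r, Module (Rₚ r) (Mₚ r)] [∀ r, IsScalarTower R (Rₚ r) (Mₚ r)]
    (f : ∀ r : s, M →ₗ[R] Mₚ r) [∀ r : s, IsLocalizedModule (.powers r.1) (f r)]
    (H : ∀ r : s, Module.Invertible (Rₚ r) (Mₚ r)) : Module.Invertible R M := by
  have hfp : Module.FinitePresentation R M :=
    Module.FinitePresentation.of_localizationSpan' s spn f (fun r => by
      have := H r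
      exact Module.finitePresentation_of_projective (Rₚ r) (Mₚ r))
  refine ⟨?_⟩
  -- localisation maps
  let dl : ∀ r : s, Module.Dual R M →ₗ[R] Module.Dual (Rₚ r) (Mₚ r) := fun r =>
    IsLocalizedModule.mapExtendScalars (.powers r.1) (f r) (Algebra.linearMap R (Rₚ r)) (Rₚ r)
  have hdl : ∀ r, IsLocalizedModule (.powers r.1) (dl r) := fun r => inferInstance
  let e : ∀ r : s, (Module.Dual (Rₚ r) (Mₚ r) ⊗[R] Mₚ r) ≃ₗ[R]
      (Module.Dual (Rₚ r) (Mₚ r) ⊗[Rₚ r] Mₚ r) := fun r =>
    ((IsLocalization.moduleTensorEquiv (.powers r.1) (Rₚ r) _ _).symm.restrictScalars R)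
  let F : ∀ r : s, (Module.Dual R M ⊗[R] M) →ₗ[R]
      (Module.Dual (Rₚ r) (Mₚ r) ⊗[Rₚ r] Mₚ r) := fun r =>
    (e r).toLinearMap ∘ₗ TensorProduct.map (dl r) (f r)
  have hF : ∀ r, IsLocalizedModule (.powers r.1) (F r) := fun r =>
    IsLocalizedModule.of_linearEquiv _ _ _
  apply bijective_of_isLocalized_span s spn _ F _ (fun r => Algebra.linearMap R (Rₚ r))
  intro r
  have : IsLocalizedModule.map (.powers r.1) (F r) (Algebra.linearMap R (Rₚ r))
      (contractLeft R M) = (contractLeft (Rₚ r) (Mₚ r)).restrictScalars R := by
    apply IsLocalizedModule.linearMap_ext (.powers r.1) (F r) (Algebra.linearMap R (Rₚ r))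
    rw [IsLocalizedModule.map_comp]
    ext φ m
    have hsymm : ∀ (φ' : Module.Dual (Rₚ r) (Mₚ r)) (m' : Mₚ r),
        (IsLocalization.moduleTensorEquiv (Submonoid.powers r.1) (Rₚ r)
          (Module.Dual (Rₚ r) (Mₚ r)) (Mₚ r)).symm (φ' ⊗ₜ[R] m') = φ' ⊗ₜ[Rₚ r] m' :=
      fun _ _ => rfl
    simp [F, e, dl, hsymm, IsLocalizedModule.map_apply]
  rw [this]
  exact (H r).bijective

/-- `Module.Invertible` is Zariski-local, canonical models. -/
theorem invertible_of_localized_span {R : Type*} [CommRing R] (s : Set R)
    (spn : Ideal.span s = ⊤) {M : Type*} [AddCommGroup M] [Module R M]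
    (H : ∀ r : s, Module.Invertible (Localization.Away r.1) (LocalizedModule.Away r.1 M)) :
    Module.Invertible R M :=
  invertible_of_isLocalized_span s spn
    (fun r => LocalizedModule.mkLinearMap (.powers r.1) M) H

/-- `Module.Invertible` is Zariski-local, family form. -/
theorem invertible_of_isLocalized_family {R : Type*} [CommRing R] {ι : Type*} (g : ι → R)
    (spn : Ideal.span (Set.range g) = ⊤) {M : Type*} [AddCommGroup M] [Module R M]
    {Rₚ : ι → Type*} [∀ i, CommRing (Rₚ i)] [∀ i, Algebra R (Rₚ i)]
    [∀ i, IsLocalization.Away (g i) (Rₚ i)]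
    {Mₚ : ι → Type*} [∀ i, AddCommGroup (Mₚ i)] [∀ i, Module R (Mₚ i)]
    [∀ i, Module (Rₚ i) (Mₚ i)] [∀ i, IsScalarTower R (Rₚ i) (Mₚ i)]
    (f : ∀ i, M →ₗ[R] Mₚ i) [∀ i, IsLocalizedModule (.powers (g i)) (f i)]
    (H : ∀ i, Module.Invertible (Rₚ i) (Mₚ i)) : Module.Invertible R M := by
  classical
  let idx : Set.range g → ι := fun r => Classical.choose r.2
  have hidx : ∀ r : Set.range g, g (idx r) = r.1 := fun r => Classical.choose_spec r.2
  have h1 : ∀ r : Set.range g, IsLocalization.Away r.1 (Rₚ (idx r)) := fun r => by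
    have : IsLocalization.Away (g (idx r)) (Rₚ (idx r)) := inferInstance
    rwa [hidx r] at this
  have h2 : ∀ r : Set.range g, IsLocalizedModule (.powers r.1) (f (idx r)) := fun r => by
    have : IsLocalizedModule (.powers (g (idx r))) (f (idx r)) := inferInstance
    rwa [hidx r] at this
  exact invertible_of_isLocalized_span (Set.range g) spn (Rₚ := fun r => Rₚ (idx r))
    (Mₚ := fun r => Mₚ (idx r)) (fun r => f (idx r)) (fun r => H (idx r))

/-- `Module.Invertible` is Zariski-local, two-element form. -/
theorem invertible_of_isLocalized_pair {R : Type*} [CommRing R] (a b : R)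
    (hab : Ideal.span {a, b} = (⊤ : Ideal R)) {M : Type*} [AddCommGroup M] [Module R M]
    {Ra Rb : Type v} [CommRing Ra] [CommRing Rb] [Algebra R Ra] [Algebra R Rb]
    [IsLocalization.Away a Ra] [IsLocalization.Away b Rb]
    {Ma Mb : Type w} [AddCommGroup Ma] [AddCommGroup Mb] [Module R Ma] [Module R Mb]
    [Module Ra Ma] [Module Rb Mb] [IsScalarTower R Ra Ma] [IsScalarTower R Rb Mb]
    (fa : M →ₗ[R] Ma) (fb : M →ₗ[R] Mb) [IsLocalizedModule (.powers a) fa]
    [IsLocalizedModule (.powers b) fb]
    [Module.Invertible Ra Ma] [Module.Invertible Rb Mb] : Module.Invertible R M := by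
  let g : Bool → R := fun i => match i with | true => a | false => b
  let Rₚ : Bool → Type v := fun i => match i with | true => Ra | false => Rb
  let Mₚ : Bool → Type w := fun i => match i with | true => Ma | false => Mb
  let i1 : ∀ i, CommRing (Rₚ i) := fun i => match i with
    | true => (inferInstance : CommRing Ra)
    | false => (inferInstance : CommRing Rb)
  let i2 : ∀ i, Algebra R (Rₚ i) := fun i => match i with
    | true => (inferInstance : Algebra R Ra)
    | false => (inferInstance : Algebra R Rb)
  let i3 : ∀ i, AddCommGroup (Mₚ i) := fun i => match i with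
    | true => (inferInstance : AddCommGroup Ma)
    | false => (inferInstance : AddCommGroup Mb)
  let i4 : ∀ i, Module R (Mₚ i) := fun i => match i with
    | true => (inferInstance : Module R Ma)
    | false => (inferInstance : Module R Mb)
  let i5 : ∀ i, Module (Rₚ i) (Mₚ i) := fun i => match i with
    | true => (inferInstance : Module Ra Ma)
    | false => (inferInstance : Module Rb Mb)
  have i6 : ∀ i, IsScalarTower R (Rₚ i) (Mₚ i) := fun i => match i with
    | true => (inferInstance : IsScalarTower R Ra Ma)
    | false => (inferInstance : IsScalarTower R Rb Mb)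
  have i7 : ∀ i, IsLocalization.Away (g i) (Rₚ i) := fun i => match i with
    | true => (inferInstance : IsLocalization.Away a Ra)
    | false => (inferInstance : IsLocalization.Away b Rb)
  let f : ∀ i, M →ₗ[R] Mₚ i := fun i => match i with
    | true => fa
    | false => fb
  have i8 : ∀ i, IsLocalizedModule (.powers (g i)) (f i) := fun i => match i with
    | true => (inferInstance : IsLocalizedModule (.powers a) fa)
    | false => (inferInstance : IsLocalizedModule (.powers b) fb)
  have H : ∀ i, Module.Invertible (Rₚ i) (Mₚ i) := fun i => match i with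
    | true => (inferInstance : Module.Invertible Ra Ma)
    | false => (inferInstance : Module.Invertible Rb Mb)
  have spn : Ideal.span (Set.range g) = ⊤ := by
    have : Set.range g = {a, b} := by
      ext x
      simp only [Set.mem_range, Bool.exists_bool, Set.mem_insert_iff, Set.mem_singleton_iff, g]
      constructor
      · rintro (h | h)
        · exact Or.inr h.symm
        · exact Or.inl h.symm
      · rintro (h | h)
        · exact Or.inr h.symm
        · exact Or.inl h.symm
    rw [this, hab]
  exact invertible_of_isLocalized_family g spn f H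

end Fermat.Agent.JAC.Zar.InvLocal4
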