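import Mathlib

/-!
# Programme JAC, chapter Zar: "being a localisation at the powers of `t`" is Zariski-local

Work package A7 (`F_aff` is a Zariski sheaf), part (L).  For a linear map `ρ : M →ₗ[R] N` and a
family of elements spanning the unit ideal of `R`, if all the induced maps `ρ_r : M_r → N_r` are
localisations at the powers of `t`, then so is `ρ`.  This is what makes the glued restriction maps
`ρ0, ρ1` of a glued diagram localisations again.

* `isLocalizedModule_of_isLocalized_span`: predicate form (arbitrary models of `M_r`, `N_r`);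
* `isLocalizedModule_of_localized_span`: canonical models `LocalizedModule (powers r)`;
* `isLocalizedModule_map_of_model`: transfer from any model to the canonical one;
* `isLocalizedModule_of_isLocalized_pair`: two-element covers.
-/

set_option autoImplicit false

namespace Fermat.Agent.JAC.Zar.LocLocal4

/-- An ideal containing a power of every element of a spanning set is the unit ideal. -/
theorem ideal_eq_top_of_pow_mem {R : Type*} [CommRing R] (s : Set R) (spn : Ideal.span s = ⊤)
    (I : Ideal R) (h : ∀ r : s, ∃ n : ℕ, (r : R) ^ n ∈ I) : I = ⊤ := by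
  rw [← Ideal.radical_eq_top]
  apply top_le_iff.mp
  rw [← spn]
  exact Ideal.span_le.mpr (fun r hr => h ⟨r, hr⟩)

section

variable {R : Type*} [CommRing R] (s : Set R) (spn : Ideal.span s = ⊤) (t : R)
  {M N : Type*} [AddCommGroup M] [AddCommGroup N] [Module R M] [Module R N] (ρ : M →ₗ[R] N)
  {Mₚ : s → Type*} [∀ r, AddCommGroup (Mₚ r)] [∀ r, Module R (Mₚ r)]
  (f : ∀ r : s, M →ₗ[R] Mₚ r) [∀ r : s, IsLocalizedModule (.powers r.1) (f r)]
  {Nₚ : s → Type*} [∀ r, AddCommGroup (Nₚ r)] [∀ r, Module R (Nₚ r)]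
  (g : ∀ r : s, N →ₗ[R] Nₚ r) [∀ r : s, IsLocalizedModule (.powers r.1) (g r)]
  (ρₚ : ∀ r : s, Mₚ r →ₗ[R] Nₚ r)

include spn in
/-- Being a localisation at the powers of `t` is a Zariski-local property of a linear map. -/
theorem isLocalizedModule_of_isLocalized_span
    (hcomm : ∀ (r : s) (m : M), ρₚ r (f r m) = g r (ρ m))
    (H : ∀ r : s, IsLocalizedModule (.powers t) (ρₚ r)) :
    IsLocalizedModule (.powers t) ρ := by
  have hunit : ∀ (r : s) (k : ℕ) (y : Nₚ r), t ^ k • y = 0 → y = 0 := by
    intro r k y hy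
    have hu := (H r).map_units ⟨t ^ k, k, rfl⟩
    rw [Module.End.isUnit_iff] at hu
    apply hu.1
    rw [Module.algebraMap_end_apply, Module.algebraMap_end_apply, smul_zero]
    exact hy
  -- powers of `t` act injectively on `N`
  have hinj : ∀ (k : ℕ) (n : N), t ^ k • n = 0 → n = 0 := by
    intro k n hn
    let I : Ideal R := 
      { carrier := {x | x • n = 0}
        add_mem' := fun {x y} (hx : x • n = 0) (hy : y • n = 0) => by
          show (x + y) • n = 0
          rw [add_smul, hx, hy, add_zero]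
        zero_mem' := by simp
        smul_mem' := fun c x (hx : x • n = 0) => by
          show (c • x) • n = 0
          rw [smul_eq_mul, mul_smul, hx, smul_zero] }
    have hI : I = ⊤ := by
      apply ideal_eq_top_of_pow_mem s spn
      intro r
      have h1 : t ^ k • g r n = 0 := by rw [← map_smul, hn, map_zero]
      have h2 : g r n = 0 := hunit r k _ h1
      obtain ⟨⟨_, a, rfl⟩, ha⟩ := (IsLocalizedModule.eq_zero_iff (.powers r.1) (g r)).mp h2
      exact ⟨a, ha⟩
    have : (1 : R) ∈ I := by rw [hI]; trivial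
    simpa [I] using this
  -- powers of `t` act surjectively on `N`
  have hsurj : ∀ (k : ℕ) (n : N), ∃ n' : N, t ^ k • n' = n := by
    intro k n
    let I : Ideal R :=
      { carrier := {x | ∃ n' : N, t ^ k • n' = x • n}
        add_mem' := fun {x y} hx hy => by
          obtain ⟨n1, h1⟩ := hx
          obtain ⟨n2, h2⟩ := hy
          exact ⟨n1 + n2, by rw [smul_add, h1, h2, add_smul]⟩
        zero_mem' := ⟨0, by simp⟩
        smul_mem' := fun c x hx => by
          obtain ⟨n1, h1⟩ := hx
          exact ⟨c • n1, by rw [smul_comm, h1, smul_eq_mul, mul_smul]⟩ }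
    have hI : I = ⊤ := by
      apply ideal_eq_top_of_pow_mem s spn
      intro r
      have hu := (H r).map_units ⟨t ^ k, k, rfl⟩
      rw [Module.End.isUnit_iff] at hu
      obtain ⟨y, hy⟩ := hu.2 (g r n)
      rw [Module.algebraMap_end_apply] at hy
      obtain ⟨⟨n'', ⟨_, a, rfl⟩⟩, hn''⟩ := IsLocalizedModule.surj (.powers r.1) (g r) y
      have h1 : g r (r.1 ^ a • n) = g r (t ^ k • n'') := by
        rw [map_smul, map_smul, ← hy, ← hn'', smul_comm]
        rfl
      obtain ⟨⟨_, b, rfl⟩, hb⟩ := IsLocalizedModule.exists_of_eq (S := .powers r.1) h1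
      refine ⟨b + a, r.1 ^ b • n'', ?_⟩
      have hb' : r.1 ^ b • r.1 ^ a • n = r.1 ^ b • t ^ k • n'' := hb
      rw [pow_add, mul_smul, hb', smul_comm]
    have : (1 : R) ∈ I := by rw [hI]; trivial
    obtain ⟨n', hn'⟩ := this
    exact ⟨n', by rw [hn', one_smul]⟩
  refine ⟨?_, ?_, ?_⟩
  · rintro ⟨_, k, rfl⟩
    rw [Module.End.isUnit_iff]
    constructor
    · intro n1 n2 h12
      rw [Module.algebraMap_end_apply, Module.algebraMap_end_apply] at h12
      have : t ^ k • (n1 - n2) = 0 := by rw [smul_sub, h12, sub_self]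
      exact sub_eq_zero.mp (hinj k _ this)
    · intro n
      obtain ⟨n', hn'⟩ := hsurj k n
      exact ⟨n', by rw [Module.algebraMap_end_apply, hn']⟩
  · intro n
    let I : Ideal R :=
      { carrier := {x | ∃ (k : ℕ) (m : M), t ^ k • x • n = ρ m}
        add_mem' := fun {x y} hx hy => by
          obtain ⟨k1, m1, h1⟩ := hx
          obtain ⟨k2, m2, h2⟩ := hy
          refine ⟨k1 + k2, t ^ k2 • m1 + t ^ k1 • m2, ?_⟩
          rw [map_add, map_smul, map_smul, ← h1, ← h2, add_smul, smul_add, pow_add, mul_smul,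
            mul_smul, smul_comm (t ^ k1) (t ^ k2) (x • n)]
        zero_mem' := ⟨0, 0, by simp⟩
        smul_mem' := fun c x hx => by
          obtain ⟨k1, m1, h1⟩ := hx
          refine ⟨k1, c • m1, ?_⟩
          rw [map_smul, ← h1, smul_eq_mul, mul_smul, smul_comm (t ^ k1) c] }
    have hI : I = ⊤ := by
      apply ideal_eq_top_of_pow_mem s spn
      intro r
      obtain ⟨⟨y, ⟨_, k, rfl⟩⟩, hy⟩ := (H r).surj (g r n)
      obtain ⟨⟨m, ⟨_, a, rfl⟩⟩, hm⟩ := IsLocalizedModule.surj (.powers r.1) (f r) y
      have hy' : t ^ k • g r n = ρₚ r y := hy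
      have hm' : r.1 ^ a • y = f r m := hm
      have h1 : g r (r.1 ^ a • t ^ k • n) = g r (ρ m) := by
        rw [map_smul, map_smul, hy', ← map_smul, hm', hcomm]
      obtain ⟨⟨_, b, rfl⟩, hb⟩ := IsLocalizedModule.exists_of_eq (S := .powers r.1) h1
      have hb' : r.1 ^ b • r.1 ^ a • t ^ k • n = r.1 ^ b • ρ m := hb
      refine ⟨b + a, k, r.1 ^ b • m, ?_⟩
      rw [map_smul, ← hb', pow_add, mul_smul, smul_comm (t ^ k) (r.1 ^ b),
        smul_comm (t ^ k) (r.1 ^ a)]
    have : (1 : R) ∈ I := by rw [hI]; trivial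
    obtain ⟨k, m, hkm⟩ := this
    exact ⟨⟨m, ⟨t ^ k, k, rfl⟩⟩, by
      show t ^ k • n = ρ m
      rw [← hkm, one_smul]⟩
  · intro m1 m2 h12
    let I : Ideal R :=
      { carrier := {x | ∃ k : ℕ, t ^ k • x • m1 = t ^ k • x • m2}
        add_mem' := fun {x y} hx hy => by
          obtain ⟨k1, h1⟩ := hx
          obtain ⟨k2, h2⟩ := hy
          refine ⟨k1 + k2, ?_⟩
          rw [add_smul, add_smul, smul_add, smul_add, pow_add, mul_smul, mul_smul, mul_smul,
            mul_smul, h2, smul_comm (t ^ k1) (t ^ k2) (x • m1), h1,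
            smul_comm (t ^ k2) (t ^ k1) (x • m2)]
        zero_mem' := ⟨0, by simp⟩
        smul_mem' := fun c x hx => by
          obtain ⟨k1, h1⟩ := hx
          refine ⟨k1, ?_⟩
          rw [smul_eq_mul, mul_smul, mul_smul, smul_comm (t ^ k1) c, h1, smul_comm c (t ^ k1)] }
    have hI : I = ⊤ := by
      apply ideal_eq_top_of_pow_mem s spn
      intro r
      have h1 : ρₚ r (f r m1) = ρₚ r (f r m2) := by rw [hcomm, hcomm, h12]
      obtain ⟨⟨_, k, rfl⟩, hk⟩ := (H r).exists_of_eq h1
      have hk' : f r (t ^ k • m1) = f r (t ^ k • m2) := by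
        rw [map_smul, map_smul]; exact hk
      obtain ⟨⟨_, a, rfl⟩, ha⟩ := IsLocalizedModule.exists_of_eq (S := .powers r.1) hk'
      have ha' : r.1 ^ a • t ^ k • m1 = r.1 ^ a • t ^ k • m2 := ha
      refine ⟨a, k, ?_⟩
      rw [smul_comm (t ^ k), ha', smul_comm (t ^ k)]
    have : (1 : R) ∈ I := by rw [hI]; trivial
    obtain ⟨k, hk⟩ := this
    exact ⟨⟨t ^ k, k, rfl⟩, by
      show t ^ k • m1 = t ^ k • m2
      simpa using hk⟩

end

section

variable {R : Type*} [CommRing R]
  {M N : Type*} [AddCommGroup M] [AddCommGroup N] [Module R M] [Module R N]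

/-- Canonical-model form: it suffices that the maps induced on `LocalizedModule (powers r)` are
localisations at the powers of `t`. -/
theorem isLocalizedModule_of_localized_span (s : Set R) (spn : Ideal.span s = ⊤) (t : R)
    (ρ : M →ₗ[R] N)
    (H : ∀ r : s, IsLocalizedModule (.powers t)
      (IsLocalizedModule.map (.powers r.1) (LocalizedModule.mkLinearMap (.powers r.1) M)
        (LocalizedModule.mkLinearMap (.powers r.1) N) ρ)) :
    IsLocalizedModule (.powers t) ρ :=
  isLocalizedModule_of_isLocalized_span s spn t ρ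
    (fun r => LocalizedModule.mkLinearMap (.powers r.1) M)
    (fun r => LocalizedModule.mkLinearMap (.powers r.1) N)
    (fun r => IsLocalizedModule.map (.powers r.1) (LocalizedModule.mkLinearMap (.powers r.1) M)
        (LocalizedModule.mkLinearMap (.powers r.1) N) ρ)
    (fun _ _ => IsLocalizedModule.map_apply _ _ _ _ _) H

/-- Transfer from an arbitrary model of the localisations at `r` to the canonical one. -/
theorem isLocalizedModule_map_of_model (r t : R) (ρ : M →ₗ[R] N)
    {Mr Nr : Type*} [AddCommGroup Mr] [AddCommGroup Nr] [Module R Mr] [Module R Nr]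
    (f : M →ₗ[R] Mr) (g : N →ₗ[R] Nr) [IsLocalizedModule (.powers r) f]
    [IsLocalizedModule (.powers r) g] (ρr : Mr →ₗ[R] Nr) (hcomm : ∀ m, ρr (f m) = g (ρ m))
    [IsLocalizedModule (.powers t) ρr] :
    IsLocalizedModule (.powers t)
      (IsLocalizedModule.map (.powers r) (LocalizedModule.mkLinearMap (.powers r) M)
        (LocalizedModule.mkLinearMap (.powers r) N) ρ) := by
  let eM := IsLocalizedModule.iso (.powers r) f
  let eN := IsLocalizedModule.iso (.powers r) g
  have key : IsLocalizedModule.map (.powers r) (LocalizedModule.mkLinearMap (.powers r) M)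
        (LocalizedModule.mkLinearMap (.powers r) N) ρ =
      eN.symm.toLinearMap ∘ₗ (ρr ∘ₗ eM.toLinearMap) := by
    apply IsLocalizedModule.linearMap_ext (.powers r) (LocalizedModule.mkLinearMap (.powers r) M)
      (LocalizedModule.mkLinearMap (.powers r) N)
    ext m
    rw [LinearMap.comp_apply, IsLocalizedModule.map_apply, LinearMap.comp_apply,
      LinearMap.comp_apply, LinearMap.comp_apply, LinearEquiv.coe_coe, LinearEquiv.coe_coe,
      LocalizedModule.mkLinearMap_apply, LocalizedModule.mkLinearMap_apply,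
      show eM (LocalizedModule.mk m 1) = f m from IsLocalizedModule.iso_mk_one (.powers r) f m,
      hcomm, LinearEquiv.eq_symm_apply]
    exact IsLocalizedModule.iso_mk_one (.powers r) g (ρ m)
  rw [key]
  infer_instance

/-- Two-element form. -/
theorem isLocalizedModule_of_isLocalized_pair (a b : R) (hab : Ideal.span {a, b} = (⊤ : Ideal R))
    (t : R) (ρ : M →ₗ[R] N)
    {Ma Na Mb Nb : Type*} [AddCommGroup Ma] [AddCommGroup Na] [AddCommGroup Mb] [AddCommGroup Nb]
    [Module R Ma] [Module R Na] [Module R Mb] [Module R Nb]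
    (fa : M →ₗ[R] Ma) (ga : N →ₗ[R] Na) [IsLocalizedModule (.powers a) fa]
    [IsLocalizedModule (.powers a) ga] (ρa : Ma →ₗ[R] Na) (ha : ∀ m, ρa (fa m) = ga (ρ m))
    [IsLocalizedModule (.powers t) ρa]
    (fb : M →ₗ[R] Mb) (gb : N →ₗ[R] Nb) [IsLocalizedModule (.powers b) fb]
    [IsLocalizedModule (.powers b) gb] (ρb : Mb →ₗ[R] Nb) (hb : ∀ m, ρb (fb m) = gb (ρ m))
    [IsLocalizedModule (.powers t) ρb] :
    IsLocalizedModule (.powers t) ρ := by
  apply isLocalizedModule_of_localized_span {a, b} hab t ρ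
  rintro ⟨r, hr⟩
  rcases hr with rfl | hr
  · exact isLocalizedModule_map_of_model r t ρ fa ga ρa ha
  · rw [Set.mem_singleton_iff] at hr
    subst hr
    exact isLocalizedModule_map_of_model r t ρ fb gb ρb hb

end

end Fermat.Agent.JAC.Zar.LocLocal4
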