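/-
Programme JAC (S25), work package A7 (Zariski sheaf property), brick (Z4b):
gluing ISOMORPHISMS over a two-element cover, and rigidity helpers.

* `glueEquiv` : linear equivalences `M_f ≃ N_f`, `M_g ≃ N_g` agreeing in `N_{fg}` glue to a
  linear equivalence `M ≃ N`.
* `glueIso` : the same for `Core.Defs36.LineDiag.Iso`, vertexwise, with unbundled localisation
  data on the three vertices.
-/
import Fermat.Agent.JAC.Core.Defs36
import Fermat.Agent.JAC.Zar.Patch39

set_option autoImplicit false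

universe u

namespace Fermat.Agent.JAC.Zar.PatchIso39

open Fermat.Agent.JAC.Core.Defs36 Fermat.Agent.JAC.Zar.Patch39

section Equiv

variable {R : Type*} [CommRing R] {f g : R}
  {M Mf Mg N Nf Ng Nfg : Type*} [AddCommGroup M] [AddCommGroup Mf] [AddCommGroup Mg]
  [AddCommGroup N] [AddCommGroup Nf] [AddCommGroup Ng] [AddCommGroup Nfg]
  [Module R M] [Module R Mf] [Module R Mg] [Module R N] [Module R Nf] [Module R Ng] [Module R Nfg]
  (lf : M →ₗ[R] Mf) (lg : M →ₗ[R] Mg) [IsLocalizedModule.Away f lf] [IsLocalizedModule.Away g lg]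
  (kf : N →ₗ[R] Nf) (kg : N →ₗ[R] Ng) (γf : Nf →ₗ[R] Nfg) (γg : Ng →ₗ[R] Nfg)
  [IsLocalizedModule.Away f kf] [IsLocalizedModule.Away g kg] [IsLocalizedModule.Away g γf]
  (hfg : IsCoprime f g) (hk : γf ∘ₗ kf = γg ∘ₗ kg)
  (uf : Mf ≃ₗ[R] Nf) (ug : Mg ≃ₗ[R] Ng)
  (hu : ∀ m, γf (uf (lf m)) = γg (ug (lg m)))

/-- Gluing linear equivalences over a two-element cover. -/
noncomputable def glueEquiv : M ≃ₗ[R] N :=
  LinearEquiv.ofBijective
    (glueHom kf kg γf γg hfg hk lf lg uf.toLinearMap ug.toLinearMap hu)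
    (bijective_of_two_cover lf lg kf kg _ uf.toLinearMap ug.toLinearMap hfg
      (fun m => kf_glueHom kf kg γf γg hfg hk lf lg uf.toLinearMap ug.toLinearMap hu m)
      (fun m => kg_glueHom kf kg γf γg hfg hk lf lg uf.toLinearMap ug.toLinearMap hu m)
      uf.bijective ug.bijective)

@[simp] theorem kf_glueEquiv (m : M) :
    kf (glueEquiv lf lg kf kg γf γg hfg hk uf ug hu m) = uf (lf m) :=
  kf_glueHom kf kg γf γg hfg hk lf lg uf.toLinearMap ug.toLinearMap hu m

@[simp] theorem kg_glueEquiv (m : M) :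
    kg (glueEquiv lf lg kf kg γf γg hfg hk uf ug hu m) = ug (lg m) :=
  kg_glueHom kf kg γf γg hfg hk lf lg uf.toLinearMap ug.toLinearMap hu m

end Equiv

end Fermat.Agent.JAC.Zar.PatchIso39
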