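/-
Programme JAC (S25), work package A7 (Zariski sheaf property), brick (Z1):
reduction of the Zariski sheaf condition on affines to TWO-ELEMENT covers.

A functor `F : CommRingCat ⥤ Type u` with `F(0) = pt` which satisfies the sheaf condition for
every cover `Spec B = D(f) ∪ D(g)` with `f + g = 1` satisfies
`Fermat.Agent.JAC.Repr.StdCover10.IsZariskiSheafAff` (the sheaf condition for all finite standard
covers).  Consequently no cocycle condition / triple overlap is ever needed to verify the sheaf
property of a functor on rings.

Proof: the Grothendieck topology generated by the two-element covers (and the empty cover of the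
zero ring) contains all finite standard covers, by transitivity: write `1 = c * a + g` with
`g ∈ span (s \ {a})`; `D(c a) ⊆ D(a)`, and `D(g)` is covered by the `D(g b)`, `b ∈ s \ {a}`.
-/
import Fermat.Agent.JAC.Repr.StdCover10

set_option autoImplicit false

universe u

open CategoryTheory Opposite

namespace Fermat.Agent.JAC.Zar.TwoCover39

open Fermat.Agent.JAC.Repr.StdCover10

/-- The presieve on `op B` given by the two localisation arrows `B → B_f`, `B → B_g`. -/
noncomputable def pairPresieve (B : CommRingCat.{u}) (f g : B) : Presieve (op B) :=
  Presieve.ofArrows (fun i : Bool => op (CommRingCat.of (Localization.Away (cond i f g))))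
    (fun i : Bool => (toAway B (cond i f g)).op)

/-- The sheaf condition of a functor on rings for the two-element cover `{f, g}`.  The
compatibility hypothesis is in its strongest (universal) form, so that the condition is as easy
as possible to verify; see `IsSheafForPair.mk'` for compatibility on `B_{fg}` only. -/
def IsSheafForPair (F : CommRingCat.{u} ⥤ Type u) (B : CommRingCat.{u}) (f g : B) : Prop :=
  ∀ (x : F.obj (CommRingCat.of (Localization.Away f)))
    (y : F.obj (CommRingCat.of (Localization.Away g))),
    (∀ (C : CommRingCat.{u}) (p : CommRingCat.of (Localization.Away f) ⟶ C)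
        (q : CommRingCat.of (Localization.Away g) ⟶ C),
        toAway B f ≫ p = toAway B g ≫ q → F.map p x = F.map q y) →
    ∃! t : F.obj B, F.map (toAway B f) t = x ∧ F.map (toAway B g) t = y

/-- Variant of the two-element sheaf condition where compatibility is only required in the
double localisation `B_{fg}`. -/
theorem IsSheafForPair.mk' (F : CommRingCat.{u} ⥤ Type u) (B : CommRingCat.{u}) (f g : B)
    (h : ∀ (x : F.obj (CommRingCat.of (Localization.Away f)))
      (y : F.obj (CommRingCat.of (Localization.Away g))),
      F.map (CommRingCat.ofHom (IsLocalization.Away.awayToAwayRight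
          (S := Localization.Away f) (P := Localization.Away (f * g)) f g)) x =
        F.map (CommRingCat.ofHom (IsLocalization.Away.awayToAwayLeft
          (S := Localization.Away g) (P := Localization.Away (f * g)) g f)) y →
      ∃! t : F.obj B, F.map (toAway B f) t = x ∧ F.map (toAway B g) t = y) :
    IsSheafForPair F B f g := by
  intro x y hxy
  refine h x y (hxy _ _ _ ?_)
  ext r
  simp [toAway, IsLocalization.Away.awayToAwayRight_eq, IsLocalization.Away.awayToAwayLeft_eq]

/-- The coverage on `CommRingCatᵒᵖ` given by the two-element covers `{f, g}`, `f + g = 1`, and the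
empty cover of the zero ring. -/
noncomputable def twoCoverage : Coverage CommRingCat.{u}ᵒᵖ where
  coverings X := {R | (∃ f g : X.unop, f + g = 1 ∧ R = pairPresieve X.unop f g) ∨
    (Subsingleton X.unop ∧ R = ⊥)}
  pullback := by
    rintro X Y φ R (⟨f, g, hfg, rfl⟩ | ⟨hX, rfl⟩)
    · refine ⟨pairPresieve Y.unop (φ.unop.hom f) (φ.unop.hom g),
        Or.inl ⟨_, _, by rw [← map_add, hfg, map_one], rfl⟩, ?_⟩
      rintro Z ψ ⟨i⟩
      cases i
      · refine ⟨op (CommRingCat.of (Localization.Away g)),
          (CommRingCat.ofHom (IsLocalization.Away.map (Localization.Away g)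
            (Localization.Away (φ.unop.hom g)) φ.unop.hom g)).op,
          (toAway X.unop g).op, Presieve.ofArrows.mk (ι := Bool) false, ?_⟩
        apply Quiver.Hom.unop_inj
        ext x
        simp [toAway, IsLocalization.Away.map]
      · refine ⟨op (CommRingCat.of (Localization.Away f)),
          (CommRingCat.ofHom (IsLocalization.Away.map (Localization.Away f)
            (Localization.Away (φ.unop.hom f)) φ.unop.hom f)).op,
          (toAway X.unop f).op, Presieve.ofArrows.mk (ι := Bool) true, ?_⟩
        apply Quiver.Hom.unop_inj
        ext x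
        simp [toAway, IsLocalization.Away.map]
    · refine ⟨⊥, Or.inr ⟨?_, rfl⟩, fun Z ψ hψ => hψ.elim⟩
      have : Subsingleton X.unop := hX
      exact (φ.unop.hom).codomain_trivial

/-- The Grothendieck topology on `CommRingCatᵒᵖ` generated by two-element covers. -/
noncomputable abbrev twoTopology : GrothendieckTopology CommRingCat.{u}ᵒᵖ :=
  twoCoverage.{u}.toGrothendieck

/-- A functor with `F(0) = pt` satisfying the sheaf condition for two-element covers is a sheaf
for the topology generated by two-element covers. -/
theorem isSheaf_twoTopology (F : CommRingCat.{u} ⥤ Type u)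
    (h0 : ∀ B : CommRingCat.{u}, Subsingleton B → Nonempty (Unique (F.obj B)))
    (h2 : ∀ (B : CommRingCat.{u}) (f g : B), f + g = 1 → IsSheafForPair F B f g) :
    Presieve.IsSheaf twoTopology.{u} (toPresheaf F) := by
  rw [Presieve.isSheaf_coverage]
  rintro ⟨B⟩ R (⟨f, g, hfg, rfl⟩ | ⟨hB, rfl⟩)
  · rw [pairPresieve, Presieve.isSheafFor_arrows_iff]
    intro x hx
    obtain ⟨t, ⟨ht₁, ht₂⟩, htu⟩ := h2 B f g hfg (x true) (x false)
      (fun C p q hpq => hx true false (op C) p.op q.op (by
        show (toAway B f ≫ p).op = (toAway B g ≫ q).op
        rw [hpq]))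
    refine ⟨t, fun i => ?_, fun t' ht' => htu t' ⟨ht' true, ht' false⟩⟩
    cases i
    · exact ht₂
    · exact ht₁
  · obtain ⟨u⟩ := h0 B hB
    intro x _
    exact ⟨u.default, fun Y φ hφ => hφ.elim, fun t' _ => u.uniq t' ▸ rfl⟩

/-- The localisation arrow `B → B_{c a}` factors through `B → B_a`. -/
theorem toAway_mul_mem_generate (B : CommRingCat.{u}) (s : Finset B) {a : B} (ha : a ∈ s)
    (c : B) : (Sieve.generate (stdPresieve B s)) (toAway B (c * a)).op := by
  have hu : IsUnit (algebraMap B (Localization.Away (c * a)) a) := by
    have h := IsLocalization.Away.algebraMap_isUnit (S := Localization.Away (c * a)) (c * a)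
    rw [map_mul] at h
    exact isUnit_of_mul_isUnit_right h
  refine ⟨op (CommRingCat.of (Localization.Away a)),
    (CommRingCat.ofHom (IsLocalization.Away.lift (S := Localization.Away a) a hu)).op,
    (toAway B a).op, Presieve.ofArrows.mk (⟨a, ha⟩ : s), ?_⟩
  apply Quiver.Hom.unop_inj
  ext x
  simp [toAway]

/-- Every finite standard cover is a covering for the topology generated by two-element covers. -/
theorem generate_stdPresieve_mem (n : ℕ) :
    ∀ (B : CommRingCat.{u}) (s : Finset B), s.card ≤ n → Ideal.span (s : Set B) = ⊤ →
      Sieve.generate (stdPresieve B s) ∈ twoTopology.{u} (op B) := by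
  classical
  induction n with
  | zero =>
    intro B s hs hspan
    have hs' : s = ∅ := Finset.card_eq_zero.mp (Nat.le_zero.mp hs)
    subst hs'
    have hB : Subsingleton B := by
      rw [Finset.coe_empty, Ideal.span_empty] at hspan
      exact (Submodule.subsingleton_iff B).mp (subsingleton_of_bot_eq_top hspan)
    exact twoCoverage.mem_toGrothendieck_sieves_of_superset (R := ⊥) bot_le (Or.inr ⟨hB, rfl⟩)
  | succ n ih =>
    intro B s hs hspan
    rcases s.eq_empty_or_nonempty with rfl | ⟨a, ha⟩
    · exact ih B ∅ (by simp) hspan
    -- write `1 = c * a + g` with `g ∈ span (s.erase a)`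
    have h1 : (1 : B) ∈ Ideal.span (insert a (↑(s.erase a) : Set B)) := by
      rw [← Finset.coe_insert, Finset.insert_erase ha, hspan]
      trivial
    obtain ⟨c, g, hg, hcg⟩ := Ideal.mem_span_insert.mp h1
    have hsum : c * a + g = 1 := hcg.symm
    have hpair : Sieve.generate (pairPresieve B (c * a) g) ∈ twoTopology.{u} (op B) :=
      Coverage.Saturate.of _ _ (Or.inl ⟨_, _, hsum, rfl⟩)
    refine twoTopology.transitive hpair _ ?_
    rintro Y φ ⟨W, h, e, ⟨i⟩, rfl⟩
    rw [Sieve.pullback_comp]
    apply twoTopology.pullback_stable
    cases i
    · -- the `D(g)` part: use the induction hypothesis on `B_g`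
      show (Sieve.generate (stdPresieve B s)).pullback (toAway B g).op ∈ _
      let B' : CommRingCat.{u} := CommRingCat.of (Localization.Away g)
      let s' : Finset B' := (s.erase a).image (algebraMap B (Localization.Away g))
      have hcard : s'.card ≤ n := by
        refine Finset.card_image_le.trans ?_
        have := Finset.card_erase_of_mem ha
        omega
      have hspan' : Ideal.span (s' : Set B') = ⊤ := by
        rw [Finset.coe_image, ← Ideal.map_span]
        apply Ideal.eq_top_of_isUnit_mem _ (Ideal.mem_map_of_mem _ hg)
        exact IsLocalization.Away.algebraMap_isUnit g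
      refine twoTopology.superset_covering ?_ (ih B' s' hcard hspan')
      rw [Sieve.generate_le_iff]
      rintro Z ψ ⟨⟨b', hb'⟩⟩
      obtain ⟨b, hb, rfl⟩ := Finset.mem_image.mp hb'
      show (Sieve.generate (stdPresieve B s)) ((toAway B' _).op ≫ (toAway B g).op)
      refine ⟨op (CommRingCat.of (Localization.Away b)),
        (CommRingCat.ofHom (IsLocalization.Away.map (Localization.Away b)
          (Localization.Away (algebraMap B (Localization.Away g) b))
          (algebraMap B (Localization.Away g)) b)).op,
        (toAway B b).op, Presieve.ofArrows.mk (⟨b, Finset.mem_of_mem_erase hb⟩ : s), ?_⟩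
      apply Quiver.Hom.unop_inj
      ext x
      simp [toAway, IsLocalization.Away.map, B']
    · -- the `D(c a)` part: the arrow itself belongs to the sieve
      show (Sieve.generate (stdPresieve B s)).pullback (toAway B (c * a)).op ∈ _
      rw [Sieve.pullback_eq_top_of_mem _ (toAway_mul_mem_generate B s ha c)]
      exact twoTopology.top_mem _

/-- **Reduction to two-element covers.**  A functor on rings with `F(0) = pt` which satisfies the
sheaf condition for all covers `{f, g}` with `f + g = 1` satisfies the Zariski sheaf condition for
all finite standard covers. -/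
theorem isZariskiSheafAff_of_pairs (F : CommRingCat.{u} ⥤ Type u)
    (h0 : ∀ B : CommRingCat.{u}, Subsingleton B → Nonempty (Unique (F.obj B)))
    (h2 : ∀ (B : CommRingCat.{u}) (f g : B), f + g = 1 → IsSheafForPair F B f g) :
    IsZariskiSheafAff F := by
  intro B s hs x hx
  have hsh := isSheaf_twoTopology F h0 h2 _ (generate_stdPresieve_mem s.card B s le_rfl hs)
  rw [← Presieve.isSheafFor_iff_generate, stdPresieve, Presieve.isSheafFor_arrows_iff] at hsh
  refine hsh x (fun a b Z p q hpq => hx a b Z.unop p.unop q.unop ?_)
  have := congrArg Quiver.Hom.unop hpq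
  simpa using this

end Fermat.Agent.JAC.Zar.TwoCover39
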